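import Mathlib

/-!
# Freeness of the patched module at a single level

`Mb` free over `O[(C_{2^n})^ι × C₂]` with an operator `A`, `A² = g`: then `M = Mb/(g - 1)` is free
over `O[(C_{2^n})^ι][A]/(A² - 1)` (`exists_block`).  For such a module the parameters
`δ i - 1`, `v (A - a)` satisfy the syzygy property modulo `2` and the norms (`freeSq`) and the
quotients used by the freeness criterion have no torsion.
-/

set_option autoImplicit false

noncomputable section

namespace Fermat.Agent.TwoAdic.Patch.Free

open IsLocalRing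

section Index

variable {ι : Type*} [Fintype ι] [DecidableEq ι] {R : Type*} [CommRing R] {n : ℕ}

theorem prod_pow_add_single {x : ι → R} (hx : ∀ i, x i ^ (2 ^ n) = 1) (e : ι → Fin (2 ^ n))
    (i : ι) :
    ∏ l, x l ^ (((e + Pi.single i 1 : ι → Fin (2 ^ n)) l : Fin (2 ^ n)) : ℕ) =
      x i * ∏ l, x l ^ (e l : ℕ) := by
  have h : ∀ l, x l ^ (((e + Pi.single i 1 : ι → Fin (2 ^ n)) l : Fin (2 ^ n)) : ℕ) =
      x l ^ ((Pi.single i 1 : ι → Fin (2 ^ n)) l : ℕ) * x l ^ (e l : ℕ) := by
    intro l
    rw [Pi.add_apply, Fin.val_add, ← pow_eq_pow_mod _ (hx l), pow_add, mul_comm]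
  simp only [h, Finset.prod_mul_distrib]
  congr 1
  rw [Finset.prod_eq_single i]
  · rw [Pi.single_eq_same, Fin.val_one', ← pow_eq_pow_mod _ (hx i), pow_one]
  · intro l _ hl
    simp [Pi.single_eq_of_ne hl]
  · simp

theorem pow_val_add_one {G : Type*} [Monoid G] {a : G} (ha : a ^ 2 = 1) (ε : Fin 2) :
    a ^ ((ε + 1 : Fin 2) : ℕ) = a * a ^ (ε : ℕ) := by
  rw [Fin.val_add, ← pow_eq_pow_mod _ ha, Fin.val_one, pow_succ']

/-- `(x - 1)^(2^n)` is divisible by `2` when `x^(2^n) = 1`. -/
theorem sub_one_pow_mem_span_two {x : R} (hx : x ^ (2 ^ n) = 1) :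
    (x - 1) ^ (2 ^ n) ∈ Ideal.span {(2 : R)} := by
  refine Ideal.mem_span_singleton.mpr ?_
  rcases n with - | n
  · simp only [pow_zero, pow_one] at hx ⊢
    simp [hx]
  obtain ⟨r, hr⟩ := exists_add_pow_prime_pow_eq Nat.prime_two x (-1 : R) (n + 1)
  rw [sub_eq_add_neg, hr, hx, Even.neg_one_pow (by simp [parity_simps])]
  exact ⟨1 + x * (-1) * r, by push_cast; ring⟩

/-- The norm is `2^n` modulo `x - 1`. -/
theorem sum_pow_sub_mem (x : R) :
    (∑ j ∈ Finset.range (2 ^ n), x ^ j) - (2 : R) ^ n ∈ Ideal.span {x - 1} := by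
  have h : (2 : R) ^ n = ∑ _j ∈ Finset.range (2 ^ n), (1 : R) := by simp
  rw [h, ← Finset.sum_sub_distrib]
  exact Ideal.sum_mem _ fun j _ => Ideal.mem_span_singleton.mpr (sub_one_dvd_pow_sub_one x j)

end Index

variable {O : Type*} [CommRing O] {T : Type*} [CommRing T] [Algebra O T]
  {M : Type*} [AddCommGroup M] [Module T M] [Module O M] [IsScalarTower O T M]
  {ι : Type*} [Fintype ι] [DecidableEq ι] {n d : ℕ}

omit [Module T M] [IsScalarTower O T M] [Fintype ι] [DecidableEq ι] in
theorem eq_zero_of_basis {κ : Type*} [Fintype κ] [IsDomain O] (bas : Module.Basis κ O M) {c : O}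
    (hc : c ≠ 0) {m : M} (h : c • m = 0) : m = 0 := by
  refine bas.repr.injective ?_
  ext p
  have hp := congrArg (fun z => bas.repr z p) h
  simpa [hc] using hp

/-- Operators commuting on a basis commute. -/
theorem smul_comp_eq {κ : Type*} (bas : Module.Basis κ O M) {N : Type*} [AddCommGroup N]
    [Module O N] (f : M →ₗ[O] N) (g : N →ₗ[O] N) (t : T)
    (h : ∀ p, f (t • bas p) = g (f (bas p))) (m : M) : f (t • m) = g (f m) := by
  have : f.comp (DistribSMul.toLinearMap O M t) = g.comp f := bas.ext h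
  exact LinearMap.congr_fun this m

omit [Module O M] [IsScalarTower O T M] in
/-- A map killing the generators of an ideal times everything kills the ideal times everything. -/
theorem map_eq_zero_of_mem_span {N : Type*} [AddCommGroup N] (f : M →+ N) {s : Set T}
    (hs : ∀ t ∈ s, ∀ m : M, f (t • m) = 0) {m : M}
    (hm : m ∈ Ideal.span s • (⊤ : Submodule T M)) : f m = 0 := by
  refine Submodule.smul_induction_on hm (fun t ht x _ => ?_)
    fun x y hx hy => by rw [map_add, hx, hy, add_zero]
  induction ht using Submodule.span_induction generalizing x with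
  | mem t ht => exact hs t ht x
  | zero => rw [zero_smul, map_zero]
  | add a b _ _ ha hb => rw [add_smul, map_add, ha _ trivial, hb _ trivial, add_zero]
  | smul a b _ hb => rw [smul_eq_mul, mul_comm, mul_smul, hb _ trivial]

variable {δ : ι → T} {A : T} {b : Fin d → M}
  (bas : Module.Basis (Fin d × (ι → Fin (2 ^ n)) × Fin 2) O M)
  (hbas : ∀ p, bas p = ((∏ l, δ l ^ (p.2.1 l : ℕ)) * A ^ (p.2.2 : ℕ)) • b p.1)
  (hδ : ∀ i, δ i ^ (2 ^ n) = 1) (hA : ∀ m : M, A • A • m = m)

include hbas hδ in
omit [Algebra O T] [IsScalarTower O T M] in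
theorem smul_delta_bas (i : ι) (p : Fin d × (ι → Fin (2 ^ n)) × Fin 2) :
    δ i • bas p = bas (p.1, p.2.1 + Pi.single i 1, p.2.2) := by
  simp only [hbas, prod_pow_add_single hδ, smul_smul, mul_assoc]

include hbas hA in
omit [Algebra O T] [IsScalarTower O T M] [DecidableEq ι] in
theorem smul_inv_bas (p : Fin d × (ι → Fin (2 ^ n)) × Fin 2) :
    A • bas p = bas (p.1, p.2.1, p.2.2 + 1) := by
  obtain ⟨j, e, ε⟩ := p
  simp only [hbas]
  fin_cases ε
  · simp [smul_smul, mul_comm]
  · simp only [Fin.mk_one, Fin.isValue, pow_one]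
    rw [show ((1 : Fin 2) + 1 : Fin 2) = 0 from rfl, smul_smul, mul_left_comm, mul_smul, mul_smul,
      hA]
    simp

section Eval

variable {R : Type*} [CommRing R] [Algebra O R]

/-- Evaluation at `δ l ↦ dd l`, `A ↦ aa`. -/
def evalMap (dd : ι → R) (aa : R) : M →ₗ[O] (Fin d → R) :=
  bas.constr O fun p => Pi.single p.1 ((∏ l, dd l ^ (p.2.1 l : ℕ)) * aa ^ (p.2.2 : ℕ))

omit [Module T M] [IsScalarTower O T M] [DecidableEq ι] in
@[simp] theorem evalMap_bas (dd : ι → R) (aa : R) (p : Fin d × (ι → Fin (2 ^ n)) × Fin 2) :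
    evalMap bas dd aa (bas p) =
      Pi.single p.1 ((∏ l, dd l ^ (p.2.1 l : ℕ)) * aa ^ (p.2.2 : ℕ)) :=
  bas.constr_basis O _ p

variable {dd : ι → R} {aa : R}

include hbas hδ in
theorem evalMap_smul_delta (hdd : ∀ i, dd i ^ (2 ^ n) = 1) (i : ι) (m : M) :
    evalMap bas dd aa (δ i • m) = dd i • evalMap bas dd aa m := by
  refine smul_comp_eq bas _ (DistribSMul.toLinearMap O _ (dd i)) (δ i) (fun p => ?_) m
  simp only [smul_delta_bas bas hbas hδ, evalMap_bas, prod_pow_add_single hdd,
    DistribSMul.toLinearMap_apply, ← Pi.single_smul', smul_eq_mul, mul_assoc]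

include hbas hA in
omit [DecidableEq ι] in
theorem evalMap_smul_inv (haa : aa ^ 2 = 1) (m : M) :
    evalMap bas dd aa (A • m) = aa • evalMap bas dd aa m := by
  refine smul_comp_eq bas _ (DistribSMul.toLinearMap O _ aa) A (fun p => ?_) m
  simp only [smul_inv_bas bas hbas hA, evalMap_bas, pow_val_add_one haa,
    DistribSMul.toLinearMap_apply, ← Pi.single_smul', smul_eq_mul, mul_left_comm]

end Eval

/-- The ideal of the parameters. -/
def paramIdeal (δ : ι → T) (A v : T) (a : O) : Ideal T :=
  Ideal.span (Set.range (fun i => δ i - 1) ∪ {v * (A - algebraMap O T a)})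

/-- The ideal of the norms. -/
def normIdeal (δ : ι → T) (n : ℕ) : Ideal T :=
  Ideal.span (Set.range fun i => ∑ j ∈ Finset.range (2 ^ n), δ i ^ j)

section Param

variable {v : T} {a : O} (ha : a ^ 2 = 1)

include hbas hδ hA ha in
theorem evalMap_eq_zero {m : M} (hm : m ∈ paramIdeal δ A v a • (⊤ : Submodule T M)) :
    evalMap bas (1 : ι → O) a m = 0 := by
  refine map_eq_zero_of_mem_span (evalMap bas (1 : ι → O) a).toAddMonoidHom ?_ hm
  rintro t (⟨i, rfl⟩ | rfl) x
  · simp only [LinearMap.toAddMonoidHom_coe, sub_smul, one_smul, map_sub,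
      evalMap_smul_delta bas hbas hδ (dd := (1 : ι → O)) (fun i => one_pow _), Pi.one_apply,
      sub_self]
  · simp only [LinearMap.toAddMonoidHom_coe]
    rw [mul_comm v, mul_smul, sub_smul, map_sub, evalMap_smul_inv bas hbas hA ha, algebraMap_smul,
      LinearMap.map_smul, sub_self]

include hbas in
omit [DecidableEq ι] in
theorem sub_eval_mem (hv : IsUnit v) (m : M) :
    m - ∑ j, evalMap bas (1 : ι → O) a m j • b j ∈ paramIdeal δ A v a • (⊤ : Submodule T M) := by
  set G := paramIdeal δ A v a
  let σ : (Fin d → O) →ₗ[O] M := Fintype.linearCombination O b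
  have hfun : (((G • ⊤ : Submodule T M).restrictScalars O).mkQ).comp (LinearMap.id (M := M)) =
      (((G • ⊤ : Submodule T M).restrictScalars O).mkQ).comp (σ.comp (evalMap bas 1 a)) := by
    refine bas.ext fun p => ?_
    simp only [LinearMap.comp_apply, LinearMap.id_apply, Submodule.mkQ_apply,
      Submodule.Quotient.eq, Submodule.restrictScalars_mem, evalMap_bas, Pi.one_apply, one_pow,
      Finset.prod_const_one, one_mul, σ, Fintype.linearCombination_apply_single]
    rw [hbas, ← algebraMap_smul T (a ^ (p.2.2 : ℕ)) (b p.1), ← sub_smul]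
    refine Submodule.smul_mem_smul ?_ trivial
    have hA' : A - algebraMap O T a ∈ G := by
      obtain ⟨w, rfl⟩ := hv
      have := G.mul_mem_left ((w⁻¹ : Tˣ) : T)
        (Ideal.subset_span (Or.inr rfl) : (w : T) * (A - algebraMap O T a) ∈ G)
      rwa [Units.inv_mul_cancel_left] at this
    have hd : ∀ l, Ideal.Quotient.mk G (δ l) = 1 := fun l => by
      rw [← map_one (Ideal.Quotient.mk G), Ideal.Quotient.eq]
      exact Ideal.subset_span (Or.inl ⟨l, rfl⟩)
    rw [← Ideal.Quotient.eq, map_mul, map_prod, map_pow]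
    simp only [map_pow, hd, one_pow, Finset.prod_const_one, one_mul]
    rw [Ideal.Quotient.eq.mpr hA']
  have := LinearMap.congr_fun hfun m
  rw [← Submodule.restrictScalars_mem O, ← Submodule.Quotient.eq, ← Submodule.mkQ_apply,
    ← Submodule.mkQ_apply]
  simpa [σ, Fintype.linearCombination_apply, map_sum] using this

include hbas hδ hA ha in
/-- The quotient by the parameters has no torsion. -/
theorem zeroFree [IsDomain O] {c : O} (hc : c ≠ 0) (hv : IsUnit v) {m : M}
    (h : c • m ∈ paramIdeal δ A v a • (⊤ : Submodule T M)) :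
    m ∈ paramIdeal δ A v a • (⊤ : Submodule T M) := by
  have h0 := evalMap_eq_zero bas hbas hδ hA ha h
  rw [map_smul, smul_eq_zero_iff_right hc] at h0
  simpa [h0] using sub_eval_mem bas hbas (a := a) hv m

include hbas hδ hA ha in
theorem param_sup_two_ne_top (h2 : ¬ IsUnit (2 : O)) (hd : 0 < d) :
    paramIdeal δ A v a • (⊤ : Submodule T M) ⊔ Ideal.span {(2 : T)} • ⊤ ≠ ⊤ := by
  intro h
  have hm : bas (⟨0, hd⟩, 0, 0) ∈ (⊤ : Submodule T M) := trivial
  rw [← h] at hm
  obtain ⟨x, hx, y, hy, hxy⟩ := Submodule.mem_sup.mp hm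
  rw [Submodule.ideal_span_singleton_smul, Submodule.mem_smul_pointwise_iff_exists] at hy
  obtain ⟨z, -, rfl⟩ := hy
  have h1 := congrArg (fun z => evalMap bas (1 : ι → O) a z ⟨0, hd⟩) hxy
  simp [evalMap_eq_zero bas hbas hδ hA ha hx, two_smul, ← two_mul] at h1
  exact h2 (IsUnit.of_mul_eq_one _ h1)

end Param

section FreeSq

open TrivSqZeroExt

variable {v : T} {a : O}

omit [Fintype ι] [DecidableEq ι] [Module T M] [IsScalarTower O T M] in
theorem one_add_inr_pow {S : Type*} [CommRing S] (c : S) (k : ℕ) :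
    (1 + inr c : DualNumber S) ^ k = 1 + inr ((k : S) * c) := by
  induction k with
  | zero => simp
  | succ k ih =>
    rw [pow_succ, ih, mul_add, mul_one, add_mul, one_mul, inr_mul_inr, add_zero, Nat.cast_succ,
      add_mul, one_mul, inr_add, add_assoc]

theorem sum_range_two_pow_eq_zero {S : Type*} [CommRing S] (h2 : (2 : S) = 0) (hn : 2 ≤ n) :
    (∑ j ∈ Finset.range (2 ^ n), (j : S)) = 0 := by
  obtain ⟨k, rfl⟩ := Nat.exists_eq_add_of_le hn
  rw [← Nat.cast_sum, Finset.sum_range_id]
  rw [show 2 ^ (2 + k) * (2 ^ (2 + k) - 1) / 2 = 2 * (2 ^ k * (2 ^ (2 + k) - 1)) from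
    Nat.div_eq_of_eq_mul_left two_pos (by rw [pow_add]; ring)]
  simp [h2]

include hbas hδ hA in
/-- The syzygy property modulo `2` and the norms. -/
theorem freeSq (hn : 2 ≤ n) (hv : IsUnit v) (ha : a = 1 ∨ a = -1) (u : ι → M) (u₀ : M)
    (h : (∑ i, (δ i - 1) • u i) + (v * (A - algebraMap O T a)) • u₀ ∈
      normIdeal δ n • (⊤ : Submodule T M) ⊔ Ideal.span {(2 : T)} • ⊤) :
    (∀ i, u i ∈ paramIdeal δ A v a • (⊤ : Submodule T M) ⊔ Ideal.span {(2 : T)} • ⊤) ∧
      u₀ ∈ paramIdeal δ A v a • (⊤ : Submodule T M) ⊔ Ideal.span {(2 : T)} • ⊤ := by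
  classical
  set S := O ⧸ Ideal.span {(2 : O)}
  have h2 : (2 : S) = 0 := by
    rw [← map_ofNat (Ideal.Quotient.mk (Ideal.span {(2 : O)})) 2, Ideal.Quotient.eq_zero_iff_mem]
    exact Ideal.mem_span_singleton_self _
  have hN : ((2 ^ n : ℕ) : S) = 0 := by simp [h2, zero_pow (show n ≠ 0 by omega)]
  have ha1 : algebraMap O S a = 1 := by
    rcases ha with rfl | rfl
    · simp
    · rw [map_neg, map_one, neg_eq_iff_add_eq_zero, one_add_one_eq_two, h2]
  set Gtop := paramIdeal δ A v a • (⊤ : Submodule T M) ⊔ Ideal.span {(2 : T)} • ⊤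
  -- the augmentation modulo two detects `Gtop`
  have key : ∀ m : M, (∀ j, algebraMap O S (evalMap bas (1 : ι → O) a m j) = 0) → m ∈ Gtop := by
    intro m hm
    have hsum : ∑ j, evalMap bas (1 : ι → O) a m j • b j ∈
        Ideal.span {(2 : T)} • (⊤ : Submodule T M) := by
      refine Submodule.sum_mem _ fun j _ => ?_
      obtain ⟨c, hc⟩ := Ideal.mem_span_singleton.mp (Ideal.Quotient.eq_zero_iff_mem.mp (hm j))
      rw [hc, mul_smul, ← algebraMap_smul T (2 : O), map_ofNat]
      exact Submodule.smul_mem_smul (Ideal.mem_span_singleton_self _) trivial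
    have := Submodule.add_mem_sup (sub_eval_mem bas hbas (a := a) hv m) hsum
    rwa [sub_add_cancel] at this
  -- the first order evaluations
  have master : ∀ (dd : ι → S) (c : S), ∀ j,
      (∑ i, dd i * algebraMap O S (evalMap bas (1 : ι → O) a (u i) j)) +
        c * algebraMap O S (evalMap bas (1 : ι → O) a (v • u₀) j) = 0 := by
    intro dd c j
    let D : ι → DualNumber S := fun i => 1 + inr (dd i)
    let AA : DualNumber S := 1 + inr c
    have hD : ∀ i, D i ^ (2 ^ n) = 1 := fun i => by simp [D, one_add_inr_pow, hN]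
    have hAA : AA ^ 2 = 1 := by simp [AA, one_add_inr_pow, h2]
    let Φ : M →ₗ[O] (Fin d → DualNumber S) := evalMap bas D AA
    have hfst : ∀ m j, (Φ m j).fst = algebraMap O S (evalMap bas (1 : ι → O) a m j) := by
      intro m j
      have hh : ((fstHom O S S).toLinearMap.comp ((LinearMap.proj j).comp Φ)) =
          (Algebra.linearMap O S).comp ((LinearMap.proj j).comp (evalMap bas (1 : ι → O) a)) := by
        refine bas.ext fun p => ?_
        simp only [LinearMap.comp_apply, LinearMap.proj_apply, Φ, evalMap_bas,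
          AlgHom.toLinearMap_apply, fstHom_apply, Algebra.linearMap_apply]
        by_cases hj : j = p.1
        · subst hj
          have hp : fst (∏ l, D l ^ (p.2.1 l : ℕ)) = 1 := by
            rw [← fstHom_apply O S S, map_prod]
            simp [D, fst_pow]
          simp [AA, ha1, hp, fst_mul, fst_pow, TrivSqZeroExt.fst_one]
        · simp [Pi.single_eq_of_ne hj]
      exact LinearMap.congr_fun hh m
    have hkill : ∀ w ∈ normIdeal δ n • (⊤ : Submodule T M) ⊔ Ideal.span {(2 : T)} • ⊤, Φ w = 0 := by
      intro w hw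
      rw [normIdeal, ← Submodule.sup_smul, ← Submodule.span_union] at hw
      refine map_eq_zero_of_mem_span Φ.toAddMonoidHom ?_ hw
      rintro t (⟨i, rfl⟩ | rfl) x
      · have hpow : ∀ k : ℕ, Φ (δ i ^ k • x) = D i ^ k • Φ x := by
          intro k
          induction k with
          | zero => simp
          | succ k ih =>
            rw [pow_succ', mul_smul, pow_succ', mul_smul, ← ih]
            exact evalMap_smul_delta bas hbas hδ hD i _
        rw [LinearMap.toAddMonoidHom_coe, Finset.sum_smul, map_sum]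
        simp only [hpow, ← Finset.sum_smul]
        rw [show (∑ k ∈ Finset.range (2 ^ n), D i ^ k) = 0 by
          simp only [D, one_add_inr_pow, Finset.sum_add_distrib, ← inr_sum, ← Finset.sum_mul,
            sum_range_two_pow_eq_zero h2 hn, zero_mul, inr_zero, add_zero, Finset.sum_const,
            Finset.card_range, nsmul_one]
          rw [← inl_natCast, hN, inl_zero], zero_smul]
      · rw [LinearMap.toAddMonoidHom_coe, ← map_ofNat (algebraMap O T) 2, algebraMap_smul,
          map_smul, ← algebraMap_smul S (2 : O), map_ofNat, h2, zero_smul]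
    have h0 := congrArg TrivSqZeroExt.snd (congrFun (hkill _ h) j)
    have e1 : ∀ i, Φ ((δ i - 1) • u i) = (inr (dd i) : DualNumber S) • Φ (u i) := fun i => by
      rw [sub_smul, one_smul, map_sub]
      show evalMap bas D AA _ - _ = _
      rw [evalMap_smul_delta bas hbas hδ hD i]
      simp [D, add_smul, Φ]
    have e0 : Φ ((v * (A - algebraMap O T a)) • u₀) = (inr c : DualNumber S) • Φ (v • u₀) := by
      rw [mul_comm, mul_smul, sub_smul, map_sub, algebraMap_smul, LinearMap.map_smul]
      show evalMap bas D AA _ - _ = _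
      rw [evalMap_smul_inv bas hbas hA hAA, ← algebraMap_smul S a, ha1, one_smul]
      simp [AA, add_smul, Φ]
    simp only [map_add, map_sum, e1, e0, Pi.add_apply, Finset.sum_apply, Pi.smul_apply,
      smul_eq_mul, snd_add, snd_sum, snd_mul, fst_inr, snd_inr, hfst, zero_add,
      op_smul_eq_smul, Pi.zero_apply, snd_zero, zero_mul] at h0
    simpa [mul_comm] using h0
  refine ⟨fun i => key _ fun j => ?_, ?_⟩
  · have := master (Pi.single i 1) 0 j
    simpa [Pi.single_apply, Finset.sum_ite_eq'] using this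
  · have hvu : v • u₀ ∈ Gtop := key _ fun j => by simpa using master 0 1 j
    obtain ⟨w, rfl⟩ := hv
    simpa [smul_smul] using Gtop.smul_mem ((w⁻¹ : Tˣ) : T) hvu

end FreeSq

section Regular

include hbas hδ in
/-- The quotient by one parameter has no torsion. -/
theorem modFree [IsDomain O] {c : O} (hc : c ≠ 0) (i : ι) {m : M}
    (h : c • m ∈ Ideal.span {δ i - 1} • (⊤ : Submodule T M)) :
    m ∈ Ideal.span {δ i - 1} • (⊤ : Submodule T M) := by
  let P : M →ₗ[O] M := bas.constr O fun p => bas (p.1, Function.update p.2.1 i 0, p.2.2)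
  have hP : ∀ p, P (bas p) = bas (p.1, Function.update p.2.1 i 0, p.2.2) :=
    bas.constr_basis O _
  have hPy : ∀ x, P ((δ i - 1) • x) = 0 := fun x => by
    rw [sub_smul, one_smul, map_sub, sub_eq_zero]
    refine smul_comp_eq bas P LinearMap.id (δ i) (fun p => ?_) x
    rw [LinearMap.id_apply, smul_delta_bas bas hbas hδ, hP, hP]
    congr 3
    ext l
    by_cases hl : l = i
    · subst hl; simp
    · simp [Function.update_of_ne hl, Pi.single_eq_of_ne hl]
  have hsub : ∀ x, x - P x ∈ Ideal.span {δ i - 1} • (⊤ : Submodule T M) := by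
    intro x
    rw [← Submodule.restrictScalars_mem O, ← Submodule.Quotient.eq]
    refine LinearMap.congr_fun (bas.ext (f₁ := Submodule.mkQ _)
      (f₂ := (Submodule.mkQ _).comp P) fun p => ?_) x
    rw [LinearMap.comp_apply, hP, Submodule.mkQ_apply, Submodule.mkQ_apply, Submodule.Quotient.eq,
      Submodule.restrictScalars_mem, hbas, hbas, ← sub_smul]
    refine Submodule.smul_mem_smul ?_ trivial
    rw [← Ideal.Quotient.eq, map_mul, map_mul, map_prod, map_prod]
    congr 1
    refine Finset.prod_congr rfl fun l _ => ?_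
    by_cases hl : l = i
    · subst hl
      have h1 : Ideal.Quotient.mk (Ideal.span {δ l - 1}) (δ l) = 1 := by
        rw [← map_one (Ideal.Quotient.mk (Ideal.span {δ l - 1})), Ideal.Quotient.eq]
        exact Ideal.mem_span_singleton_self _
      simp [h1]
    · simp [Function.update_of_ne hl]
  have h0 : P (c • m) = 0 := map_eq_zero_of_mem_span P.toAddMonoidHom (by simpa using hPy) h
  rw [map_smul] at h0
  simpa [eq_zero_of_basis bas hc h0] using hsub m

include hbas hδ in
theorem exists_norm_retraction (s : Finset ι) :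
    ∃ P : M →ₗ[O] M, (∀ x, x - P x ∈ normIdeal δ n • (⊤ : Submodule T M)) ∧
      (∀ l ∈ s, ∀ x, P ((∑ j ∈ Finset.range (2 ^ n), δ l ^ j) • x) = 0) ∧
      ∀ l ∉ s, ∀ x, P (δ l • x) = δ l • P x := by
  induction s using Finset.induction with
  | empty => exact ⟨LinearMap.id, fun x => by simp, by simp, fun l _ x => rfl⟩
  | @insert i s hi ih =>
    obtain ⟨P, hP1, hP2, hP3⟩ := ih
    set Nm := ∑ j ∈ Finset.range (2 ^ n), δ i ^ j with hNm
    let last : Fin (2 ^ n) := -1
    let L : M →ₗ[O] M := bas.constr O fun p =>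
      if p.2.1 i = last then bas (p.1, Function.update p.2.1 i 0, p.2.2) else 0
    have hL : ∀ p, L (bas p) =
        if p.2.1 i = last then bas (p.1, Function.update p.2.1 i 0, p.2.2) else 0 :=
      bas.constr_basis O _
    have hNmδ : δ i * Nm = Nm := by
      have := geom_sum_mul (δ i) (2 ^ n)
      rw [hδ i, sub_self] at this
      linear_combination this
    have hNmδk : ∀ k : ℕ, δ i ^ k * Nm = Nm := fun k => by
      induction k with
      | zero => simp
      | succ k ih => rw [pow_succ, mul_assoc, hNmδ, ih]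
    let Q : M →ₗ[O] M := LinearMap.id - (DistribSMul.toLinearMap O M Nm).comp L
    have hQ : ∀ x, Q x = x - Nm • L x := fun x => rfl
    have hLδ : ∀ l, l ≠ i → ∀ x, L (δ l • x) = δ l • L x := by
      intro l hl x
      refine smul_comp_eq bas L (DistribSMul.toLinearMap O M (δ l)) (δ l) (fun p => ?_) x
      rw [DistribSMul.toLinearMap_apply, smul_delta_bas bas hbas hδ, hL, hL]
      simp only [Pi.add_apply, Pi.single_eq_of_ne hl.symm, add_zero]
      split_ifs
      · rw [smul_delta_bas bas hbas hδ]
        congr 3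
        ext r
        by_cases hr : r = i
        · subst hr; simp [Pi.single_eq_of_ne hl.symm]
        · simp [Function.update_of_ne hr]
      · rw [smul_zero]
    have hQN : ∀ x, Q (Nm • x) = 0 := by
      intro x
      refine LinearMap.congr_fun (bas.ext (f₁ := Q.comp (DistribSMul.toLinearMap O M Nm))
        (f₂ := 0) fun p => ?_) x
      obtain ⟨j, e, ε⟩ := p
      rw [LinearMap.comp_apply, LinearMap.zero_apply, DistribSMul.toLinearMap_apply, hQ]
      have hsplit : bas (j, e, ε) = δ i ^ (e i : ℕ) • bas (j, Function.update e i 0, ε) := by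
        rw [hbas, hbas, smul_smul, ← mul_assoc]
        congr 2
        rw [← Finset.mul_prod_erase _ _ (Finset.mem_univ i),
          ← Finset.mul_prod_erase _ (fun l => δ l ^ (Function.update e i 0 l : ℕ))
            (Finset.mem_univ i), Function.update_self]
        simp only [Fin.val_zero, pow_zero, one_mul]
        congr 1
        exact Finset.prod_congr rfl fun l hl => by
          rw [Function.update_of_ne (Finset.ne_of_mem_erase hl)]
      set e₀ := Function.update e i 0 with he₀
      have hN0 : Nm • bas (j, e, ε) = Nm • bas (j, e₀, ε) := by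
        rw [hsplit, smul_smul, mul_comm, hNmδk]
      have hexp : Nm • bas (j, e₀, ε) =
          ∑ k : Fin (2 ^ n), bas (j, Function.update e i k, ε) := by
        rw [hNm, Finset.sum_range (fun j => δ i ^ j), Finset.sum_smul]
        refine Finset.sum_congr rfl fun k _ => ?_
        rw [hbas, hbas, smul_smul, ← mul_assoc]
        congr 2
        rw [← Finset.mul_prod_erase _ _ (Finset.mem_univ i),
          ← Finset.mul_prod_erase _ (fun l => δ l ^ (Function.update e i k l : ℕ))
            (Finset.mem_univ i)]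
        simp only [he₀, Function.update_self, Fin.val_zero, pow_zero, one_mul]
        congr 1
        exact Finset.prod_congr rfl fun l hl => by
          rw [Function.update_of_ne (Finset.ne_of_mem_erase hl),
            Function.update_of_ne (Finset.ne_of_mem_erase hl)]
      have hLN : L (Nm • bas (j, e₀, ε)) = bas (j, e₀, ε) := by
        rw [hexp, map_sum, Finset.sum_eq_single last]
        · simp [hL, he₀]
        · intro k _ hk
          simp [hL, hk]
        · simp
      rw [hN0, hLN, sub_self]
    refine ⟨Q.comp P, fun x => ?_, fun l hl x => ?_, fun l hl x => ?_⟩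
    · have : x - Q (P x) = (x - P x) + Nm • L (P x) := by rw [hQ]; abel
      rw [LinearMap.comp_apply, this]
      exact Submodule.add_mem _ (hP1 x)
        (Submodule.smul_mem_smul (Ideal.subset_span ⟨i, rfl⟩) trivial)
    · rw [LinearMap.comp_apply]
      rcases Finset.mem_insert.mp hl with rfl | hl
      · have hcomm : P (Nm • x) = Nm • P x := by
          rw [hNm, Finset.sum_smul, Finset.sum_smul, map_sum]
          refine Finset.sum_congr rfl fun k _ => ?_
          clear * - hP3 hi
          induction k generalizing x with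
          | zero => simp
          | succ k ih => rw [pow_succ, mul_smul, mul_smul, ih, hP3 l hi]
        rw [hcomm, hQN]
      · rw [hP2 l hl, map_zero]
    · rw [Finset.mem_insert, not_or] at hl
      rw [LinearMap.comp_apply, LinearMap.comp_apply, hP3 l hl.2, hQ, hQ, hLδ l hl.1, smul_sub,
        smul_comm]

include hbas hδ in
/-- The quotient by the norms has no torsion. -/
theorem normFree [IsDomain O] {c : O} (hc : c ≠ 0) {m : M}
    (h : c • m ∈ normIdeal δ n • (⊤ : Submodule T M)) :
    m ∈ normIdeal δ n • (⊤ : Submodule T M) := by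
  obtain ⟨P, hP1, hP2, -⟩ := exists_norm_retraction bas hbas hδ Finset.univ
  have h0 : P (c • m) = 0 := map_eq_zero_of_mem_span P.toAddMonoidHom
    (by rintro t ⟨i, rfl⟩ x; exact hP2 i (Finset.mem_univ i) x) h
  rw [map_smul] at h0
  simpa [eq_zero_of_basis bas hc h0] using hP1 m

include hbas hδ in
/-- Each parameter is regular on the quotient by the norms. -/
theorem regular [IsDomain O] (h2 : (2 : O) ≠ 0) (i : ι) {m : M}
    (h : (δ i - 1) • m ∈ normIdeal δ n • (⊤ : Submodule T M)) :
    m ∈ normIdeal δ n • (⊤ : Submodule T M) := by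
  refine normFree bas hbas hδ (c := (2 : O) ^ n) (pow_ne_zero _ h2) ?_
  obtain ⟨q, hq⟩ := Ideal.mem_span_singleton'.mp (sum_pow_sub_mem (n := n) (δ i))
  have : (2 : O) ^ n • m = (∑ j ∈ Finset.range (2 ^ n), δ i ^ j) • m - q • (δ i - 1) • m := by
    rw [smul_smul, ← sub_smul, hq, sub_sub_cancel, ← algebraMap_smul T ((2 : O) ^ n), map_pow,
      map_ofNat]
  rw [this]
  exact Submodule.sub_mem _ (Submodule.smul_mem_smul (Ideal.subset_span ⟨i, rfl⟩) trivial)
    (Submodule.smul_mem _ _ h)

end Regular

section Block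

variable [IsLocalRing O] {g : T}
  (basb : Module.Basis (Fin d × (ι → Fin (2 ^ n)) × Fin 2) O M)

/-- The block lemma: modulo `g - 1` the module is free on the monomials in `δ` and `A`. -/
theorem exists_block (h2 : (2 : O) ∈ maximalIdeal O)
    (hbasb : ∀ p, basb p = ((∏ l, δ l ^ (p.2.1 l : ℕ)) * g ^ (p.2.2 : ℕ)) • b p.1)
    (hδ : ∀ i, δ i ^ (2 ^ n) = 1) (hg : g ^ 2 = 1) (hAg : A ^ 2 = g) :
    ∃ (d' : ℕ) (b' : Fin d' → M ⧸ (Ideal.span {g - 1} • (⊤ : Submodule T M)))
      (bas' : Module.Basis (Fin d' × (ι → Fin (2 ^ n)) × Fin 2) O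
        (M ⧸ (Ideal.span {g - 1} • (⊤ : Submodule T M)))),
      2 * d' = d ∧
      (∀ m : M ⧸ (Ideal.span {g - 1} • (⊤ : Submodule T M)), A • A • m = m) ∧
      ∀ p, bas' p = ((∏ l, δ l ^ (p.2.1 l : ℕ)) * A ^ (p.2.2 : ℕ)) • b' p.1 := by
  classical
  set W : Submodule T M := Ideal.span {g - 1} • ⊤ with hW
  have hgg : ∀ m : M, g • g • m = m := fun m => by rw [smul_smul, ← sq, hg, one_smul]
  have hgM : ∀ x : M ⧸ W, g • x = x := by
    rintro ⟨x⟩
    show g • Submodule.Quotient.mk x = (Submodule.Quotient.mk x : M ⧸ W)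
    rw [← Submodule.Quotient.mk_smul, Submodule.Quotient.eq]
    rw [show g • x - x = (g - 1) • x by rw [sub_smul, one_smul]]
    exact Submodule.smul_mem_smul (Ideal.mem_span_singleton_self _) trivial
  have hAA : ∀ x : M ⧸ W, A • A • x = x := fun x => by rw [smul_smul, ← sq, hAg, hgM]
  -- residual coordinates
  set k := ResidueField O
  let φ : M →ₗ[O] (Fin d → k) := evalMap basb (1 : ι → k) 1
  have hφ : ∀ p, φ (basb p) = Pi.single p.1 1 := fun p => by simp [φ]
  set 𝔞 : Ideal T := Ideal.span (Set.range (fun i => δ i - 1) ∪ algebraMap O T '' maximalIdeal O)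
  set 𝔟 : Ideal T := Ideal.span {g - 1} ⊔ 𝔞
  have hφδ : ∀ i x, φ (δ i • x) = φ x := fun i x => by
    simp [φ, evalMap_smul_delta basb hbasb hδ (dd := (1 : ι → k)) (fun i => one_pow _)]
  have hφg : ∀ x, φ (g • x) = φ x := fun x => by
    simp [φ, evalMap_smul_inv basb hbasb hgg (dd := (1 : ι → k)) (one_pow 2)]
  have hφ0 : ∀ x ∈ 𝔟 • (⊤ : Submodule T M), φ x = 0 := by
    intro x hx
    rw [show 𝔟 = Ideal.span ({g - 1} ∪ (Set.range (fun i => δ i - 1) ∪
      algebraMap O T '' maximalIdeal O)) from (Ideal.span_union _ _).symm] at hx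
    refine map_eq_zero_of_mem_span φ.toAddMonoidHom ?_ hx
    rintro t (rfl | ⟨i, rfl⟩ | ⟨c, hc, rfl⟩) z
    · simp [sub_smul, hφg]
    · simp [sub_smul, hφδ]
    · rw [LinearMap.toAddMonoidHom_coe, algebraMap_smul, map_smul, ← algebraMap_smul k c,
        ResidueField.algebraMap_eq, (residue_eq_zero_iff c).mpr hc, zero_smul]
  let lift₀ : (Fin d → O) →ₗ[O] M := Fintype.linearCombination O b
  have hb0 : ∀ j, basb (j, 0, 0) = b j := fun j => by simp [hbasb]
  have hφlift : ∀ c : Fin d → O, φ (lift₀ c) = fun j => residue O (c j) := fun c => by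
    funext j
    simp [lift₀, Fintype.linearCombination_apply, ← hb0, hφ, Finset.sum_apply, Pi.single_apply,
      ← ResidueField.algebraMap_eq, Algebra.smul_def]
    rfl
  -- kernel of the residual coordinates
  have hker : ∀ x : M, φ x = 0 → x ∈ 𝔟 • (⊤ : Submodule T M) := by
    intro x hx
    let C : M →ₗ[O] (Fin d → O) := evalMap basb (1 : ι → O) 1
    have hC : x - lift₀ (C x) ∈ paramIdeal δ g 1 (1 : O) • (⊤ : Submodule T M) := by
      simpa [lift₀, C, Fintype.linearCombination_apply] using
        sub_eval_mem basb hbasb (a := (1 : O)) isUnit_one x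
    have hle : paramIdeal δ g 1 (1 : O) ≤ 𝔟 := by
      rw [paramIdeal, Ideal.span_le]
      rintro t (⟨i, rfl⟩ | rfl)
      · exact Ideal.mem_sup_right (Ideal.subset_span (Or.inl ⟨i, rfl⟩))
      · simpa using Ideal.mem_sup_left (T := 𝔞) (Ideal.mem_span_singleton_self (g - 1))
    have hres : ∀ j, C x j ∈ maximalIdeal O := fun j => by
      have h1 := hφ0 _ (Submodule.smul_mono_left hle hC)
      rw [map_sub, hx, zero_sub, neg_eq_zero, hφlift] at h1
      exact (residue_eq_zero_iff _).mp (congrFun h1 j)
    have h2' : lift₀ (C x) ∈ 𝔟 • (⊤ : Submodule T M) := by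
      rw [Fintype.linearCombination_apply]
      refine Submodule.sum_mem _ fun j _ => ?_
      rw [← algebraMap_smul T (C x j)]
      exact Submodule.smul_mem_smul
        (Ideal.mem_sup_right (Ideal.subset_span (Or.inr ⟨_, hres j, rfl⟩))) trivial
    have := Submodule.add_mem _ (Submodule.smul_mono_left hle hC) h2'
    rwa [sub_add_cancel] at this
  -- elements killed by `A - 1` modulo `𝔟` are multiples of `A - 1` modulo `𝔟`
  have h2T : (2 : T) ∈ 𝔞 :=
    Ideal.subset_span (Or.inr ⟨2, h2, map_ofNat (algebraMap O T) 2⟩)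
  have hexact : ∀ x : M, (A - 1) • x ∈ 𝔟 • (⊤ : Submodule T M) →
      ∃ z, x - (A - 1) • z ∈ 𝔟 • (⊤ : Submodule T M) := by
    intro x hx
    rw [Submodule.sup_smul] at hx
    obtain ⟨_, h1, r, hr, hxr⟩ := Submodule.mem_sup.mp hx
    rw [Submodule.ideal_span_singleton_smul, Submodule.mem_smul_pointwise_iff_exists] at h1
    obtain ⟨z, -, rfl⟩ := h1
    refine ⟨z, ?_⟩
    set w := x - (A - 1) • z with hw
    have hw1 : (A - 1) • w ∈ 𝔞 • (⊤ : Submodule T M) := by
      have e : (A - 1) • w = r + ((2 : T) * (A - 1)) • z := by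
        rw [hw, smul_sub, smul_smul, ← hxr, ← sq, ← sub_eq_zero]
        have : (g - 1) - (A - 1) ^ 2 - 2 * (A - 1) = 0 := by rw [← hAg]; ring
        linear_combination (norm := module) (congrArg (· • z) this)
      rw [e]
      exact Submodule.add_mem _ hr (Submodule.smul_mem_smul (Ideal.mul_mem_right _ _ h2T) trivial)
    have hw2 : (g - 1) • w ∈ 𝔞 • (⊤ : Submodule T M) := by
      rw [show g - 1 = (A + 1) * (A - 1) by rw [← hAg]; ring, mul_smul]
      exact Submodule.smul_mem _ _ hw1
    -- first order evaluation at `g`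
    let ψ : M →ₗ[O] (Fin d → DualNumber k) := evalMap basb (1 : ι → DualNumber k) (1 + DualNumber.eps)
    have hk2 : (2 : k) = 0 := by
      rw [← map_ofNat (residue O) 2]; exact (residue_eq_zero_iff _).mpr h2
    have haa : (1 + DualNumber.eps : DualNumber k) ^ 2 = 1 := by
      show (1 + TrivSqZeroExt.inr 1 : DualNumber k) ^ 2 = 1
      simp [one_add_inr_pow, hk2]
    have hψ0 : ψ ((g - 1) • w) = 0 := by
      refine map_eq_zero_of_mem_span ψ.toAddMonoidHom ?_ hw2
      rintro t (⟨i, rfl⟩ | ⟨c, hc, rfl⟩) z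
      · simp [ψ, sub_smul, evalMap_smul_delta basb hbasb hδ (dd := (1 : ι → DualNumber k))
          (fun i => one_pow _)]
      · rw [LinearMap.toAddMonoidHom_coe, algebraMap_smul, map_smul, ← algebraMap_smul k c,
          ResidueField.algebraMap_eq, (residue_eq_zero_iff c).mpr hc, zero_smul]
    have hψw : (DualNumber.eps : DualNumber k) • ψ w = 0 := by
      rw [sub_smul, one_smul, map_sub] at hψ0
      simpa [ψ, evalMap_smul_inv basb hbasb hgg haa, add_smul] using hψ0
    refine hker w ?_
    have hfst : ∀ m j, (ψ m j).fst = φ m j := by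
      intro m j
      have : ((TrivSqZeroExt.fstHom O k k).toLinearMap.comp ((LinearMap.proj j).comp ψ)) =
          (LinearMap.proj j).comp φ := by
        refine basb.ext fun p => ?_
        simp only [LinearMap.comp_apply, LinearMap.proj_apply, ψ, evalMap_bas, hφ,
          AlgHom.toLinearMap_apply, TrivSqZeroExt.fstHom_apply]
        by_cases hj : j = p.1
        · subst hj; simp [TrivSqZeroExt.fst_pow]
        · simp [Pi.single_eq_of_ne hj]
      exact LinearMap.congr_fun this m
    funext j
    have := congrArg TrivSqZeroExt.snd (congrFun hψw j)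
    rw [← hfst]
    simpa [DualNumber.eps] using this
  -- the residual operator
  let D : (Fin d → k) →ₗ[k] (Fin d → k) :=
    (Pi.basisFun k (Fin d)).constr k fun j => φ ((A - 1) • b j)
  have hDb : ∀ j, D (Pi.single j 1) = φ ((A - 1) • b j) := fun j => by
    rw [← Pi.basisFun_apply]; exact (Pi.basisFun k (Fin d)).constr_basis k _ j
  have hD : ∀ x, D (φ x) = φ ((A - 1) • x) := by
    intro x
    refine (smul_comp_eq basb φ (D.restrictScalars O) (A - 1) (fun p => ?_) x).symm
    rw [LinearMap.restrictScalars_apply, hφ, hDb, ← hb0]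
    rw [← sub_eq_zero, ← map_sub, ← smul_sub]
    refine hφ0 _ (Submodule.smul_mem _ _ (hker _ ?_))
    rw [map_sub, hφ, hφ, sub_self]
  have hφsurj : Function.Surjective φ := fun c => by
    choose c' hc' using fun j => IsLocalRing.residue_surjective (c j)
    exact ⟨lift₀ c', by rw [hφlift]; funext j; exact hc' j⟩
  have hD2 : ∀ c, D (D c) = 0 := fun c => by
    obtain ⟨x, rfl⟩ := hφsurj c
    rw [hD, hD]
    refine hφ0 _ ?_
    rw [smul_smul]
    refine Submodule.smul_mem_smul ?_ trivial
    have e : (A - 1) * (A - 1) = (g - 1) + 2 * (1 - A) := by rw [← hAg]; ring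
    rw [e]
    exact Ideal.add_mem _ (Ideal.mem_sup_left (Ideal.mem_span_singleton_self _))
      (Ideal.mem_sup_right (Ideal.mul_mem_right _ _ h2T))
  have hDker : LinearMap.ker D = LinearMap.range D := by
    refine le_antisymm (fun c hc => ?_) ?_
    · obtain ⟨x, rfl⟩ := hφsurj c
      rw [LinearMap.mem_ker, hD] at hc
      obtain ⟨z, hz⟩ := hexact x (hker _ hc)
      refine ⟨φ z, ?_⟩
      rw [hD]
      exact (sub_eq_zero.mp (by rw [← map_sub]; exact hφ0 _ hz)).symm
    · rintro _ ⟨c, rfl⟩
      exact hD2 c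
  obtain ⟨C, hC⟩ := Submodule.exists_isCompl (LinearMap.ker D)
  let bC := Module.finBasis k C
  set d' := Module.finrank k C
  have hdd' : 2 * d' = d := by
    have h1 := Submodule.finrank_add_eq_of_isCompl hC
    have h2 := D.finrank_range_add_finrank_ker
    rw [← hDker] at h2
    simp only [Module.finrank_fin_fun] at h1 h2
    omega
  choose b₀ hb₀ using fun j => hφsurj (bC j : Fin d → k)
  let b' : Fin d' → M ⧸ W := fun j => Submodule.Quotient.mk (b₀ j)
  let fam : Fin d' × (ι → Fin (2 ^ n)) × Fin 2 → M ⧸ W :=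
    fun p => ((∏ l, δ l ^ (p.2.1 l : ℕ)) * A ^ (p.2.2 : ℕ)) • b' p.1
  set P : Submodule O (M ⧸ W) := Submodule.span O (Set.range fam) with hP
  set X : Submodule O (M ⧸ W) := P ⊔ maximalIdeal O • ⊤ with hX
  -- generation modulo `𝔞`
  have hgen : ∀ z : M ⧸ W, ∃ q ∈ P, z - q ∈ 𝔞 • (⊤ : Submodule T (M ⧸ W)) := by
    rintro ⟨x⟩
    have hmem : φ x ∈ (Submodule.span k (Set.range fun j => (bC j : Fin d → k))) ⊔
        Submodule.span k (Set.range fun j => D (bC j : Fin d → k)) := by
      have hspan : Submodule.span k (Set.range fun j => (bC j : Fin d → k)) = C := by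
        rw [show (fun j => (bC j : Fin d → k)) = C.subtype ∘ bC from rfl, Set.range_comp,
          Submodule.span_image, bC.span_eq, Submodule.map_top, Submodule.range_subtype]
      have hspan' : Submodule.span k (Set.range fun j => D (bC j : Fin d → k)) = LinearMap.ker D := by
        rw [show (fun j => D (bC j : Fin d → k)) = D ∘ fun j => (bC j : Fin d → k) from rfl,
          Set.range_comp, Submodule.span_image, hspan, hDker, LinearMap.range_eq_map]
        refine le_antisymm (Submodule.map_mono le_top) ?_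
        rw [← hC.sup_eq_top, Submodule.map_sup]
        exact sup_le (by rw [Submodule.map_le_iff_le_comap]; intro c hc; simp [LinearMap.mem_ker.mp hc])
          le_rfl
      rw [hspan, hspan', sup_comm, hC.sup_eq_top]
      trivial
    obtain ⟨_, h1, _, h2, hsum⟩ := Submodule.mem_sup.mp hmem
    obtain ⟨c, rfl⟩ := (Submodule.mem_span_range_iff_exists_fun _).mp h1
    obtain ⟨c', rfl⟩ := (Submodule.mem_span_range_iff_exists_fun _).mp h2
    choose C₁ hC₁ using fun j => IsLocalRing.residue_surjective (c j)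
    choose C₂ hC₂ using fun j => IsLocalRing.residue_surjective (c' j)
    let x' : M := (∑ j, C₁ j • b₀ j) + ∑ j, C₂ j • (A - 1) • b₀ j
    refine ⟨Submodule.Quotient.mk x', ?_, ?_⟩
    · have hx' : (Submodule.Quotient.mk x' : M ⧸ W) =
          (∑ j, C₁ j • fam (j, 0, 0)) + ∑ j, C₂ j • (fam (j, 0, 1) - fam (j, 0, 0)) := by
        simp [x', fam, b', sub_smul, ← Submodule.mkQ_apply]
      rw [hx']
      refine P.add_mem (P.sum_mem fun j _ => P.smul_mem _ (Submodule.subset_span ⟨_, rfl⟩))
        (P.sum_mem fun j _ => P.smul_mem _ (P.sub_mem (Submodule.subset_span ⟨_, rfl⟩)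
          (Submodule.subset_span ⟨_, rfl⟩)))
    · show Submodule.Quotient.mk x - Submodule.Quotient.mk x' ∈ _
      have hmem : x - x' ∈ 𝔟 • (⊤ : Submodule T M) := by
        refine hker _ ?_
        rw [map_sub, sub_eq_zero, ← hsum]
        simp only [x', map_add, map_sum, map_smul, ← hD, hb₀, ← hC₁, ← hC₂,
          ← ResidueField.algebraMap_eq]
        congr 1
      have := Submodule.mem_map_of_mem (f := W.mkQ) hmem
      rw [Submodule.map_smul'', Submodule.map_top, Submodule.range_mkQ, Submodule.sup_smul] at this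
      obtain ⟨u, hu, w, hw, huw⟩ := Submodule.mem_sup.mp this
      rw [← Submodule.Quotient.mk_sub, show (Submodule.Quotient.mk (x - x') : M ⧸ W) =
        W.mkQ (x - x') from rfl, ← huw]
      have hu0 : u = 0 := map_eq_zero_of_mem_span (AddMonoidHom.id _)
        (by rintro t rfl z; simp [sub_smul, hgM]) hu
      rwa [hu0, zero_add]
  have hδP : ∀ i, ∀ q ∈ X, δ i • q ∈ X := by
    intro i q hq
    have hle : X ≤ X.comap (DistribSMul.toLinearMap O (M ⧸ W) (δ i)) := by
      refine sup_le ?_ ?_
      · rw [hP, Submodule.span_le]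
        rintro _ ⟨p, rfl⟩
        refine Submodule.mem_sup_left (Submodule.subset_span
          ⟨(p.1, p.2.1 + Pi.single i 1, p.2.2), ?_⟩)
        simp only [fam, prod_pow_add_single hδ, smul_smul, mul_assoc,
          DistribSMul.toLinearMap_apply]
      · rw [← Submodule.map_le_iff_le_comap, Submodule.map_smul'']
        exact le_sup_of_le_right (Submodule.smul_mono le_rfl le_top)
    exact hle hq
  -- remove the `δ i - 1` one at a time
  have hrem : ∀ s : Finset ι, (∀ z : M ⧸ W, ∃ q ∈ X,
      z - q ∈ Ideal.span ((fun i => δ i - 1) '' (s : Set ι)) • (⊤ : Submodule T (M ⧸ W))) →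
      X = ⊤ := by
    intro s
    induction s using Finset.induction with
    | empty =>
      intro h
      refine eq_top_iff.mpr fun z _ => ?_
      obtain ⟨q, hq, hzq⟩ := h z
      simp only [Finset.coe_empty, Set.image_empty, Ideal.span_empty, Submodule.bot_smul,
        Submodule.mem_bot, sub_eq_zero] at hzq
      exact hzq ▸ hq
    | @insert i s _ ih =>
      intro h
      refine ih fun z => ?_
      set I := Ideal.span ((fun i => δ i - 1) '' (s : Set ι))
      have hstep : ∀ r : ℕ, ∀ z : M ⧸ W, ∃ q ∈ X, ∃ w : M ⧸ W,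
          z - q - (δ i - 1) ^ r • w ∈ I • (⊤ : Submodule T (M ⧸ W)) := by
        intro r
        induction r with
        | zero => exact fun z => ⟨0, X.zero_mem, z, by simp⟩
        | succ r ih =>
          intro z
          obtain ⟨q, hq, w, hw⟩ := ih z
          obtain ⟨q', hq', hw'⟩ := h w
          rw [Finset.coe_insert, Set.image_insert_eq, Ideal.span_insert, Submodule.sup_smul] at hw'
          obtain ⟨u, hu, t, ht, hut⟩ := Submodule.mem_sup.mp hw'
          rw [Submodule.ideal_span_singleton_smul, Submodule.mem_smul_pointwise_iff_exists] at hu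
          obtain ⟨w', -, rfl⟩ := hu
          have hpow : ∀ r : ℕ, (δ i - 1) ^ r • q' ∈ X := by
            intro r
            induction r with
            | zero => simpa using hq'
            | succ r ih =>
              rw [pow_succ', mul_smul, sub_smul, one_smul]
              exact X.sub_mem (hδP i _ ih) ih
          refine ⟨q + (δ i - 1) ^ r • q', X.add_mem hq (hpow r), w', ?_⟩
          have : z - (q + (δ i - 1) ^ r • q') - (δ i - 1) ^ (r + 1) • w' =
              (z - q - (δ i - 1) ^ r • w) + (δ i - 1) ^ r • t := by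
            rw [pow_succ, mul_smul, eq_sub_of_add_eq' hut]
            module
          rw [this]
          exact Submodule.add_mem _ hw (Submodule.smul_mem _ _ ht)
      obtain ⟨q, hq, w, hw⟩ := hstep (2 ^ n) z
      obtain ⟨c, hc⟩ := Ideal.mem_span_singleton.mp (sub_one_pow_mem_span_two (hδ i))
      refine ⟨q + (δ i - 1) ^ (2 ^ n) • w, X.add_mem hq ?_, by rwa [← sub_sub]⟩
      rw [hc, mul_smul, ← map_ofNat (algebraMap O T) 2, algebraMap_smul]
      exact Submodule.mem_sup_right (Submodule.smul_mem_smul h2 trivial)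
  have hXtop : X = ⊤ := by
    refine hrem Finset.univ fun z => ?_
    obtain ⟨q, hq, hz⟩ := hgen z
    rw [show 𝔞 = Ideal.span (Set.range fun i => δ i - 1) ⊔
      Ideal.span (algebraMap O T '' maximalIdeal O) from Ideal.span_union _ _,
      Submodule.sup_smul] at hz
    obtain ⟨u, hu, t, ht, hut⟩ := Submodule.mem_sup.mp hz
    have htX : t ∈ maximalIdeal O • (⊤ : Submodule O (M ⧸ W)) := by
      rw [← Submodule.Quotient.mk_eq_zero]
      refine map_eq_zero_of_mem_span
        (Submodule.mkQ (maximalIdeal O • (⊤ : Submodule O (M ⧸ W)))).toAddMonoidHom ?_ ht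
      rintro _ ⟨c, hc, rfl⟩ z
      simp only [LinearMap.toAddMonoidHom_coe, Submodule.mkQ_apply, algebraMap_smul,
        Submodule.Quotient.mk_eq_zero]
      exact Submodule.smul_mem_smul hc trivial
    refine ⟨q + t, X.add_mem (Submodule.mem_sup_left hq) (Submodule.mem_sup_right htX), ?_⟩
    simpa [eq_sub_of_add_eq hut, sub_sub] using hu
  -- the family is a basis
  let bW : Module.Basis (Fin d × (ι → Fin (2 ^ n))) O (M ⧸ W) := by
    refine Module.Basis.mk (v := fun p => Submodule.Quotient.mk (basb (p.1, p.2, 0))) ?_ ?_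
    · rw [Fintype.linearIndependent_iff]
      intro c hc
      let π : M →ₗ[O] (Fin d × (ι → Fin (2 ^ n)) → O) :=
        basb.constr O fun p => Pi.single (p.1, p.2.1) 1
      have hπ : ∀ p, π (basb p) = Pi.single (p.1, p.2.1) 1 := basb.constr_basis O _
      have h0 : π (∑ p, c p • basb (p.1, p.2, 0)) = 0 := by
        refine map_eq_zero_of_mem_span π.toAddMonoidHom (s := {g - 1}) ?_
          (show _ ∈ W from (Submodule.Quotient.mk_eq_zero W).mp ?_)
        · rintro t rfl z
          simp only [LinearMap.toAddMonoidHom_coe, sub_smul, one_smul, map_sub, sub_eq_zero]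
          exact smul_comp_eq basb π LinearMap.id g
            (fun p => by simp [smul_inv_bas basb hbasb hgg, hπ]) z
        · simpa [← Submodule.mkQ_apply] using hc
      intro p
      simpa [hπ, Finset.sum_apply, Pi.single_apply] using congrFun h0 p
    · intro z _
      obtain ⟨x, rfl⟩ := Submodule.Quotient.mk_surjective W z
      rw [← basb.sum_repr x, ← Submodule.mkQ_apply, map_sum]
      refine Submodule.sum_mem _ fun p _ => ?_
      rw [show W.mkQ ((basb.repr x p) • basb p) = basb.repr x p • W.mkQ (basb p) from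
        LinearMap.map_smul_of_tower _ _ _]
      refine Submodule.smul_mem _ _ (Submodule.subset_span ⟨(p.1, p.2.1), ?_⟩)
      rw [Submodule.mkQ_apply, hbasb p, Submodule.Quotient.mk_smul, mul_smul]
      obtain ⟨j, e, ε⟩ := p
      fin_cases ε <;> simp [hbasb, hgM]
  have : Module.Finite O (M ⧸ W) := Module.Finite.of_basis bW
  have hPtop : P = ⊤ := top_unique <| Submodule.le_of_le_smul_of_le_jacobson_bot
    (Module.Finite.fg_top) (maximalIdeal_le_jacobson _) hXtop.ge
  let F : (Fin d' × (ι → Fin (2 ^ n)) × Fin 2 → O) →ₗ[O] M ⧸ W := Fintype.linearCombination O fam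
  have hFsurj : Function.Surjective F := by
    rw [← LinearMap.range_eq_top, Fintype.range_linearCombination]; exact hPtop
  let eqv : Fin d × (ι → Fin (2 ^ n)) ≃ Fin d' × (ι → Fin (2 ^ n)) × Fin 2 :=
    Fintype.equivOfCardEq (by simp [← hdd']; ring)
  have hFinj : Function.Injective F := by
    let e := (bW.reindex eqv).equivFun
    have := OrzechProperty.injective_of_surjective_endomorphism (e.toLinearMap.comp F)
      (e.surjective.comp hFsurj)
    exact fun x y hxy => this (congrArg e hxy)
  refine ⟨d', b', Module.Basis.ofEquivFun (LinearEquiv.ofBijective F ⟨hFinj, hFsurj⟩).symm, hdd',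
    hAA, fun p => ?_⟩
  rw [Module.Basis.coe_ofEquivFun]
  show F (Pi.single p 1) = _
  simp [F, fam, Fintype.linearCombination_apply_single]

end Block

end Fermat.Agent.TwoAdic.Patch.Free
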