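import Fermat.Agent.TwoAdic.Patch.Defs
import Fermat.Agent.TwoAdic.Patch.Free

/-!
# The fields of a level datum from a monomial basis

With `δ i = det r(τ i)` and `A = α₂ / det r(root2)` acting as an involution, a module free on the
monomials in `δ` and `A` has the properties asked of the module of a `LevelDatum`.
-/

set_option autoImplicit false

noncomputable section

namespace Fermat.Agent.TwoAdic.Patch

open IsLocalRing Fermat.Agent.Deform Fermat.Agent.TwoAdic.Deform

variable {O : Type} [CommRing O] [IsLocalRing O] {S : Setting O} {Lv : Level S}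
  {T : Type} [CommRing T] [Algebra O T] {D : Aux S Lv} {n : ℕ} {a : O} {r : Gal →* M2 T}

theorem param_none {v : T} (hv : v = (r Lv.root2).det) {A : T}
    (hA : v * A = lineVal (twoPos S r) (r S.φ2)) :
    param D a r none = v * (A - algebraMap O T a) := by
  simp only [param, signDefect, mul_sub, hA]
  rw [hv, mul_comm (algebraMap O T a)]

theorem paramIdeal_eq {v : T} (hv : v = (r Lv.root2).det) {A : T}
    (hA : v * A = lineVal (twoPos S r) (r S.φ2)) :
    paramIdeal D a r = Ideal.span (Set.range (fun i => (r (D.τ i)).det - 1) ∪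
      {v * (A - algebraMap O T a)}) := by
  refine congrArg Ideal.span ?_
  ext t
  constructor
  · rintro ⟨(- | i), rfl⟩
    · exact Or.inr (param_none hv hA)
    · exact Or.inl ⟨i, rfl⟩
  · rintro (⟨i, rfl⟩ | rfl)
    · exact ⟨some i, rfl⟩
    · exact ⟨none, param_none hv hA⟩

variable {M : Type} [AddCommGroup M] [Module T M] [Module O M] [IsScalarTower O T M]
  {d : ℕ} {b : Fin d → M} {A v : T}
  (bas : Module.Basis (Fin d × (D.ι → Fin (2 ^ n)) × Fin 2) O M)
  (hbas : ∀ p, bas p =
    ((∏ l, (r (D.τ l)).det ^ (p.2.1 l : ℕ)) * A ^ (p.2.2 : ℕ)) • b p.1)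
  (hord : ∀ i, (r (D.τ i)).det ^ 2 ^ n = 1) (hinv : ∀ m : M, A • A • m = m)
  (hv : v = (r Lv.root2).det) (hA : v * A = lineVal (twoPos S r) (r S.φ2))
  (ha : a = 1 ∨ a = -1)

include hbas hord hinv hv hA ha in
/-- The field `freeSq`. -/
theorem freeSq_field (hn : 2 ≤ n) (hunit : IsUnit v) (u : Option D.ι → M)
    (h : ∑ o, param D a r o • u o ∈
      normIdeal D n r • (⊤ : Submodule T M) ⊔ Ideal.span {(2 : T)} • ⊤) (o : Option D.ι) :
    u o ∈ paramIdeal D a r • (⊤ : Submodule T M) ⊔ Ideal.span {(2 : T)} • ⊤ := by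
  rw [Fintype.sum_option, param_none hv hA, add_comm] at h
  have := Free.freeSq bas hbas hord hinv hn hunit ha (fun i => u (some i)) (u none) h
  rw [paramIdeal_eq hv hA]
  cases o with
  | none => exact this.2
  | some i => exact this.1 i

include hbas hord in
/-- The field `regular`. -/
theorem regular_field [IsDomain O] (h2 : (2 : O) ≠ 0) (i : D.ι) {m : M}
    (h : param D a r (some i) • m ∈ normIdeal D n r • (⊤ : Submodule T M)) :
    m ∈ normIdeal D n r • (⊤ : Submodule T M) :=
  Free.regular bas hbas hord h2 i h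

include hbas hord in
/-- The field `modFree`. -/
theorem modFree_field [IsDomain O] (h2 : (2 : O) ≠ 0) (i : D.ι) {m : M}
    (h : (2 : T) • m ∈ Ideal.span {param D a r (some i)} • (⊤ : Submodule T M)) :
    m ∈ Ideal.span {param D a r (some i)} • (⊤ : Submodule T M) := by
  rw [← map_ofNat (algebraMap O T) 2, algebraMap_smul] at h
  exact Free.modFree bas hbas hord h2 i h

include hbas hord hinv hv hA ha in
/-- The field `zeroFree`. -/
theorem zeroFree_field [IsDomain O] (h2 : (2 : O) ≠ 0) (hunit : IsUnit v) {m : M}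
    (h : (2 : T) • m ∈ paramIdeal D a r • (⊤ : Submodule T M)) :
    m ∈ paramIdeal D a r • (⊤ : Submodule T M) := by
  rw [← map_ofNat (algebraMap O T) 2, algebraMap_smul, paramIdeal_eq hv hA] at h
  rw [paramIdeal_eq hv hA]
  exact Free.zeroFree bas hbas hord hinv (by rcases ha with rfl | rfl <;> ring) h2 hunit h

include hbas hord hinv hv hA ha in
/-- The field `nontrivial`. -/
theorem nontrivial_field (h2 : ¬ IsUnit (2 : O)) (hd : 0 < d) :
    paramIdeal D a r • (⊤ : Submodule T M) ⊔ Ideal.span {(2 : T)} • ⊤ ≠ ⊤ := by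
  rw [paramIdeal_eq hv hA]
  exact Free.param_sup_two_ne_top bas hbas hord hinv (by rcases ha with rfl | rfl <;> ring) h2 hd

end Fermat.Agent.TwoAdic.Patch
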