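import Fermat.Agent.TwoAdic.Patch.Big
import Fermat.Agent.TwoAdic.Patch.FreeFields
import Fermat.Agent.TwoAdic.Deform.Forced
import Fermat.Agent.Arith.RootsOfUnity

/-!
# The level datum of a big datum

Dividing the big module by `g - 1` and the algebra by the annihilator gives a `LevelDatum`; a
polynomial in the entries killing the big module modulo `δ - 1` and `g - 1` kills the new module
modulo its parameters.
-/

set_option autoImplicit false
set_option linter.style.haveILetI false

noncomputable section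

namespace Fermat.Agent.TwoAdic.Patch

open IsLocalRing Fermat.Agent.Deform Fermat.Agent.TwoAdic.Deform Fermat.Agent.Arith

variable {O : Type} [CommRing O] [IsLocalRing O] {S : Setting O} {Lv : Level S} {D : Aux S Lv}
  {n : ℕ}

theorem eq_of_sub_mem_two_pow {A : Type} [CommRing A] [IsLocalRing A] [IsNoetherianRing A]
    [Algebra O A] (S : Setting O) (h : IsResAlg O A) {x y : A}
    (hxy : ∀ N : ℕ, x - y ∈ Ideal.span {((2 ^ N : ℕ) : A)}) : x = y := by
  rw [← sub_eq_zero, ← Ideal.mem_bot, ← Ideal.iInf_pow_eq_bot_of_isLocalRing (maximalIdeal A)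
    (IsLocalRing.maximalIdeal.isMaximal A).ne_top]
  refine Submodule.mem_iInf _ |>.mpr fun N => ?_
  refine (Ideal.span_singleton_le_iff_mem _).mpr ?_ (hxy N)
  push_cast
  exact Ideal.pow_mem_pow (two_mem_maximalIdeal S h) N

variable [IsNoetherianRing O]

namespace BigDatum

variable (B : BigDatum D n)

/-- The determinant is exactly `char · c` where the cyclotomic character is the constant `c`. -/
theorem det_eq {σ : Gal} {c : ℕ}
    (hσ : ∀ (N : ℕ) (μ : QBar), μ ^ 2 ^ N = 1 → σ μ = μ ^ c) :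
    (B.r σ).det = B.char σ * c := by
  haveI : IsNoetherianRing B.T := IsNoetherianRing.of_finite O B.T
  exact eq_of_sub_mem_two_pow S B.res fun N => B.det_congr N σ c (hσ N)

theorem det_τ (i : D.ι) : (B.r (D.τ i)).det = B.δ i := by
  have hq := Lv.prime_of_mem _ (D.q_mem i)
  rw [B.det_eq (c := 1) fun N μ hμ => ?_, Nat.cast_one, mul_one, B.char_τ]
  rw [pow_one]
  exact inertia_root (D.P_over i) hq (D.τ_mem i) hμ fun hd =>
    Lv.ne_two _ (D.q_mem i) ((Nat.prime_dvd_prime_iff_eq hq Nat.prime_two).mp (hq.dvd_of_dvd_pow hd))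

theorem det_φ (i : D.ι) : (B.r (D.φ i)).det = B.char (D.φ i) * D.q i := by
  have hq := Lv.prime_of_mem _ (D.q_mem i)
  exact B.det_eq fun N μ hμ => frobenius_root (D.P_over i) hq (D.φ_frob i) hμ fun hd =>
    Lv.ne_two _ (D.q_mem i) ((Nat.prime_dvd_prime_iff_eq hq Nat.prime_two).mp (hq.dvd_of_dvd_pow hd))

theorem det_root2 : (B.r Lv.root2).det = B.char Lv.root2 := by
  rw [B.det_eq (c := 1) fun N μ hμ => by rw [pow_one]; exact Lv.root2_roots N μ hμ, Nat.cast_one,
    mul_one]

theorem isUnit_char (σ : Gal) : IsUnit (B.char σ) := (Group.isUnit σ).map B.char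

/-- The operator `α₂ / det r(root2)`. -/
def signOp : B.T :=
  lineVal (twoPos S B.r) (B.r S.φ2) * ((B.isUnit_char Lv.root2).unit⁻¹ : B.Tˣ)

theorem root2_mul_signOp :
    B.char Lv.root2 * B.signOp = lineVal (twoPos S B.r) (B.r S.φ2) := by
  rw [signOp, mul_left_comm, IsUnit.mul_val_inv, mul_one]

theorem signOp_sq : B.signOp ^ 2 = B.g := by
  haveI : IsNoetherianRing B.T := IsNoetherianRing.of_finite O B.T
  obtain ⟨x, hx⟩ := B.two
  have hp := hx.eq_twoPos (isUnit_σ2_entry B.lifts)
  have h2 := lineVal_sq_eq_of_congr B.cont B.lifts hx B.char B.char_inertia_two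
    fun N σ c hc => by
      have := B.det_congr N σ c hc
      rwa [Nat.cast_pow, Nat.cast_ofNat] at this
  rw [hp, B.char_φ2, ← B.root2_mul_signOp, mul_pow, mul_comm B.g] at h2
  exact ((B.isUnit_char Lv.root2).pow 2).mul_left_cancel h2

/-- The module modulo `g - 1`. -/
abbrev Quot : Type := B.M ⧸ (Ideal.span {B.g - 1} • (⊤ : Submodule B.T B.M))

theorem mk_g : Ideal.Quotient.mk (Module.annihilator B.T B.Quot) B.g = 1 := by
  rw [← map_one (Ideal.Quotient.mk _)]
  refine Ideal.Quotient.eq.mpr (Module.mem_annihilator.mpr ?_)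
  rintro ⟨m⟩
  exact (Submodule.Quotient.mk_eq_zero _).mpr
    (Submodule.smul_mem_smul (Ideal.mem_span_singleton_self _) Submodule.mem_top)

theorem mk_sub_one_of_mem {t : B.T} (ht : t - 1 ∈ Ideal.span {B.g - 1}) :
    Ideal.Quotient.mk (Module.annihilator B.T B.Quot) t = 1 := by
  obtain ⟨c, hc⟩ := Ideal.mem_span_singleton'.mp ht
  have := congrArg (Ideal.Quotient.mk (Module.annihilator B.T B.Quot)) hc
  rw [map_mul, map_sub, map_sub, mk_g, map_one, sub_self, mul_zero] at this
  exact (sub_eq_zero.mp this.symm)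

theorem annihilator_ne_top (hne : Nontrivial B.Quot) :
    Module.annihilator B.T B.Quot ≠ ⊤ := fun h => by
  obtain ⟨v, hv⟩ := exists_ne (0 : B.Quot)
  exact hv (by simpa using Module.mem_annihilator.mp ((Ideal.eq_top_iff_one _).mp h) v)

end BigDatum

/-- A polynomial in the entries kills a module modulo an ideal. -/
def KillsMod {T : Type} [CommRing T] [Algebra O T] (M : Type) [AddCommGroup M] [Module T M]
    (r : Gal →* M2 T) (I : Ideal T) (p : MvPolynomial (Gal × Fin 2 × Fin 2) O) : Prop :=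
  ∀ m : M, MvPolynomial.aeval (fun x : Gal × Fin 2 × Fin 2 => r x.1 x.2.1 x.2.2) p • m ∈
    I • (⊤ : Submodule T M)

set_option maxHeartbeats 800000 in
/-- **The level datum.** -/
theorem exists_levelDatum [IsDomain O] [CharZero O] (h2O : (2 : O) ∈ maximalIdeal O)
    (B : BigDatum D n) (hn : 2 ≤ n) (hq : ∀ i, D.q i ≡ 1 [MOD 2 ^ n]) {a : O}
    (ha : a = 1 ∨ a = -1) :
    ∃ X : LevelDatum D n a, ∀ p : MvPolynomial (Gal × Fin 2 × Fin 2) O,
      KillsMod B.M B.r (Ideal.span (Set.range (fun i => B.δ i - 1) ∪ {B.g - 1})) p →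
        KillsMod X.M X.r (paramIdeal D a X.r) p := by
  classical
  obtain ⟨d', b', bas', hd', hAA, hbas'⟩ := Free.exists_block (δ := B.δ) (A := B.signOp) (b := B.b)
    (g := B.g) B.bas h2O B.bas_eq B.δ_pow B.g_sq B.signOp_sq
  have hd0 : 0 < d' := by have := B.d_pos; omega
  haveI : Nontrivial B.Quot :=
    nontrivial_of_ne _ _ (bas'.ne_zero (⟨0, hd0⟩, 0, 0))
  set J := Module.annihilator B.T B.Quot with hJ
  haveI : Nontrivial (B.T ⧸ J) := Ideal.Quotient.nontrivial_iff.mpr (B.annihilator_ne_top ‹_›)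
  haveI : IsLocalRing (B.T ⧸ J) := IsLocalRing.of_surjective' _ Ideal.Quotient.mk_surjective
  haveI hloc : IsLocalHom (Ideal.Quotient.mk J) :=
    IsLocalHom.of_surjective _ Ideal.Quotient.mk_surjective
  letI mod : Module (B.T ⧸ J) B.Quot := Module.quotientAnnihilator
  haveI : IsScalarTower O (B.T ⧸ J) B.Quot :=
    (Module.isTorsionBySet_annihilator B.T B.Quot).isScalarTower
  haveI : Module.Finite O B.Quot := Module.Finite.of_basis bas'
  let mk : B.T →ₐ[O] B.T ⧸ J := Ideal.Quotient.mkₐ O J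
  have hres : IsResAlg O (B.T ⧸ J) := by
    haveI := B.res.isLocalHom
    refine ⟨⟨fun o ho => (isUnit_map_iff (algebraMap O B.T) o).mp
      (isUnit_of_map_unit (Ideal.Quotient.mk J) _ ho)⟩, fun z => ?_⟩
    obtain ⟨y, rfl⟩ := residue_surjective z
    obtain ⟨y, rfl⟩ := Ideal.Quotient.mk_surjective y
    obtain ⟨o, ho⟩ := exists_sub_mem B.res y
    refine ⟨o, (sub_eq_zero.mp ?_).symm⟩
    show residue (B.T ⧸ J) (Ideal.Quotient.mk J y) -
      residue (B.T ⧸ J) (Ideal.Quotient.mk J (algebraMap O B.T o)) = 0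
    rw [← map_sub, ← map_sub, residue_eq_zero_iff]
    exact map_nonunit (Ideal.Quotient.mk J) _ ho
  set r' : Gal →* M2 (B.T ⧸ J) := mapM (mk : B.T →+* B.T ⧸ J) B.r with hr'
  have hdet : ∀ σ, (r' σ).det = mk (B.r σ).det := fun σ =>
    ((mk : B.T →+* B.T ⧸ J).map_det (B.r σ)).symm
  have hl : Lifts S.W hres r' := B.lifts.map hres mk hloc
  have hlift : IsLift S Lv r' :=
    { det := fun σ hσ N c hc => by
        obtain ⟨z, hz⟩ := Ideal.mem_span_singleton'.mp (B.det_congr N σ c hc)
        refine Ideal.mem_span_singleton'.mpr ⟨mk z, ?_⟩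
        have h1 : mk (B.char σ) = 1 := B.mk_sub_one_of_mem (B.char_H σ hσ)
        rw [hdet, ← map_natCast mk (2 ^ N), ← map_mul, hz, map_sub, map_mul, h1, one_mul,
          map_natCast]
      unramified := fun q hq' hq2 hqT hqQ P hP σ hσ => Matrix.ext fun j l => by
        rw [← sub_eq_zero]
        have h0 : mk ((B.r σ - 1) j l) = 0 := Ideal.Quotient.eq_zero_iff_mem.mpr
          (Module.mem_annihilator.mpr (by
            rintro ⟨m⟩
            exact (Submodule.Quotient.mk_eq_zero _).mpr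
              (B.unramified q hq' hq2 hqT hqQ P hP σ hσ j l m)))
        rw [Matrix.sub_apply, map_sub] at h0
        have h1 : mk ((1 : M2 B.T) j l) = (1 : M2 (B.T ⧸ J)) j l := by
          by_cases hjl : j = l
          · subst hjl; simp
          · simp [hjl]
        rw [h1] at h0
        exact h0
      steinberg := fun q hq' P hP σ hσ => by
        obtain ⟨h1, h2⟩ := B.steinberg q hq' P hP σ hσ
        refine ⟨?_, by rw [hdet, h2, map_one]⟩
        rw [Matrix.trace_fin_two] at h1 ⊢
        show mk (B.r σ 0 0) + mk (B.r σ 1 1) = 2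
        rw [← map_add, h1, map_ofNat]
      qdet := fun q hq' P hP σ hσ => by
        show ((mk : B.T →+* B.T ⧸ J).mapMatrix (B.r σ) - 1).det = 0
        rw [← map_one (mk : B.T →+* B.T ⧸ J).mapMatrix, ← map_sub, ← RingHom.map_det,
          B.qdet q hq' P hP σ hσ, map_zero]
      two := B.two.elim fun x hx => ⟨_, hx.map (mk : B.T →+* B.T ⧸ J)⟩ }
  have hτ : ∀ i, (r' (D.τ i)).det = mk (B.δ i) := fun i => by rw [hdet, B.det_τ]
  have hord : ∀ i, (r' (D.τ i)).det ^ 2 ^ n = 1 := fun i => by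
    rw [hτ, ← map_pow, B.δ_pow, map_one]
  have hv : mk (B.char Lv.root2) = (r' Lv.root2).det := by rw [hdet, B.det_root2]
  have hA : mk (B.char Lv.root2) * mk B.signOp = lineVal (twoPos S r') (r' S.φ2) := by
    obtain ⟨x, hx⟩ := B.two
    rw [← map_mul, B.root2_mul_signOp, ← hx.eq_twoPos (isUnit_σ2_entry B.lifts),
      ← (hx.map (mk : B.T →+* B.T ⧸ J)).eq_twoPos (isUnit_σ2_entry hl)]
    exact (lineVal_map x (B.r S.φ2) (mk : B.T →+* B.T ⧸ J)).symm
  have hinv : ∀ m : B.Quot, mk B.signOp • mk B.signOp • m = m := hAA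
  have hbas : ∀ p, bas' p = ((∏ l, (r' (D.τ l)).det ^ (p.2.1 l : ℕ)) *
      mk B.signOp ^ (p.2.2 : ℕ)) • b' p.1 := fun p => by
    have e : (∏ l, (r' (D.τ l)).det ^ (p.2.1 l : ℕ)) * mk B.signOp ^ (p.2.2 : ℕ) =
        mk ((∏ l, B.δ l ^ (p.2.1 l : ℕ)) * B.signOp ^ (p.2.2 : ℕ)) := by
      simp only [hτ, map_mul, map_prod, map_pow]
    rw [hbas', e]
    rfl
  have hunit : IsUnit (mk (B.char Lv.root2)) := (B.isUnit_char _).map mk
  have h2 : (2 : O) ≠ 0 := two_ne_zero
  have hδmem : ∀ i, mk (B.δ i - 1) ∈ paramIdeal D a r' := fun i =>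
    Ideal.subset_span ⟨some i, by show _ - 1 = _; rw [hτ, map_sub, map_one]⟩
  have hmkI : ∀ t ∈ Ideal.span (Set.range (fun i => B.δ i - 1) ∪ {B.g - 1}),
      mk t ∈ paramIdeal D a r' := fun t ht => by
    refine (Ideal.span_le.mpr ?_ : Ideal.span _ ≤ (paramIdeal D a r').comap mk) ht
    rintro _ (⟨i, rfl⟩ | rfl)
    · exact hδmem i
    · show mk (B.g - 1) ∈ paramIdeal D a r'
      rw [map_sub, map_one, show mk B.g = 1 from B.mk_g, sub_self]
      exact Ideal.zero_mem _
  refine ⟨{
    T := B.T ⧸ J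
    finiteT := inferInstance
    res := hres
    r := r'
    lifts := hl
    normal := B.normal.map mk
    cont := B.cont.map _ hloc
    isLift := hlift
    M := B.Quot
    two_le := hn
    q_mod := hq
    order := hord
    det_frob := fun i v => Submodule.smul_mem_smul (by
      have h1 := hmkI _ (B.char_mem (D.φ i))
      rw [hdet, B.det_φ, map_mul, map_natCast]
      rw [map_sub, map_one] at h1
      have := Ideal.mul_mem_right (D.q i : B.T ⧸ J) _ h1
      rwa [sub_mul, one_mul] at this) Submodule.mem_top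
    freeSq := fun u h => freeSq_field bas' hbas hord hinv hv hA ha hn hunit u h
    regular := fun i v h => regular_field bas' hbas hord h2 i h
    modFree := fun i v h => modFree_field bas' hbas hord h2 i h
    zeroFree := fun v h => zeroFree_field bas' hbas hord hinv hv hA ha h2 hunit h
    nontrivial := nontrivial_field bas' hbas hord hinv hv hA ha h2O hd0 }, fun p hp => ?_⟩
  show ∀ v : B.Quot, _ ∈ paramIdeal D a r' • (⊤ : Submodule (B.T ⧸ J) B.Quot)
  rintro ⟨m⟩
  have he : MvPolynomial.aeval (fun x : Gal × Fin 2 × Fin 2 => r' x.1 x.2.1 x.2.2) p =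
      mk (MvPolynomial.aeval (fun x : Gal × Fin 2 × Fin 2 => B.r x.1 x.2.1 x.2.2) p) := by
    rw [← AlgHom.comp_apply, MvPolynomial.comp_aeval]
    rfl
  show MvPolynomial.aeval (fun x : Gal × Fin 2 × Fin 2 => r' x.1 x.2.1 x.2.2) p •
    Submodule.Quotient.mk m ∈ _
  rw [he]
  show Submodule.Quotient.mk (p := Ideal.span {B.g - 1} • (⊤ : Submodule B.T B.M))
    (MvPolynomial.aeval _ p • m) ∈ _
  refine Submodule.smul_induction_on (hp m) ?_ ?_
  · intro t ht x _
    rw [Submodule.Quotient.mk_smul]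
    show mk t • (Submodule.Quotient.mk x : B.Quot) ∈ paramIdeal D a r' • (⊤ : Submodule (B.T ⧸ J) B.Quot)
    exact Submodule.smul_mem_smul (hmkI t ht) Submodule.mem_top
  · intro x y hx hy
    rw [Submodule.Quotient.mk_add]
    exact Submodule.add_mem _ hx hy

end Fermat.Agent.TwoAdic.Patch
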