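import Fermat.Agent.Lifting.Curve.End
import Fermat.Agent.TwoAdic.Module.Twist.Basic

/-!
# A system with trivial diamonds makes the curve modular

With trivial nebentypus the square root is trivial and the newform behind the system has
squarefree level, so the end of lifting applies.
-/

set_option autoImplicit false

noncomputable section

namespace Fermat.Agent.TwoAdic.Patch

open IsLocalRing ModularFormClass Fermat.Agent.TwoAdic.Module

theorem eq_one_of_isRoot_one {L : ℕ} [NeZero L] (hL : Squarefree L) {et : DirichletCharacter ℂ L}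
    (hr : IsRoot (1 : DirichletCharacter ℂ L) et) : et = 1 := by
  have hbad : RT.GammaH.badPrimes et⁻¹ = ∅ := by
    refine Finset.eq_empty_of_forall_notMem fun v hv => ?_
    exact (hr.mem_badPrimes_iff.1 hv).2.2 fun u _ => MulChar.one_apply_coe u
  have h := RT.GammaH.prod_etaLift_eq_pow (χ := et⁻¹) (e := 1) hL
  rw [hbad, Finset.prod_empty, pow_one] at h
  exact inv_eq_one.1 h.symm

variable {O : Type} [CommRing O] [IsLocalRing O] {L : ℕ} [NeZero L] {Δ : Type} [CommGroup Δ]
  {ψ : (ZMod L)ˣ →* Δ} {S : Finset ℕ} {abar : ℕ → ResidueField O}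

omit [NeZero L] in
theorem nebChar_eq_one (H : HeckeData L ψ S abar) (θ : H.algebra →+* ℂ)
    (hθ : ∀ δ, θ ⟨H.dia δ, Algebra.subset_adjoin (Or.inl ⟨δ, rfl⟩)⟩ = 1) : H.nebChar θ = 1 := by
  ext u
  rw [MulChar.one_apply_coe, HeckeData.nebChar, MulChar.ofUnitHom_coe]
  exact hθ (ψ u)

/-- **The endgame**: a system trivial on the diamonds with the traces of `W` at almost all primes
makes `W` modular at exactly its conductor level. -/
theorem isExact_of_system (h35 : ConductorLevel.NewformRepInput) {W : WeierstrassCurve ℤ}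
    (hΔ0 : W.Δ ≠ 0) (hss : W.IsSemistableModel) (hL : Squarefree L)
    (H : HeckeData L ψ S abar) (hn : H.HasNewforms) (θ : H.algebra →+* ℂ)
    (hθ : ∀ δ, θ ⟨H.dia δ, Algebra.subset_adjoin (Or.inl ⟨δ, rfl⟩)⟩ = 1)
    (T0 : Finset ℕ)
    (hsys : ∀ ℓ : ℕ, ℓ.Prime → ℓ ∉ T0 → H.system θ ℓ = (W.apOfModel ℓ : ℂ)) :
    Mlc1IsModularModelOfExactConductorLevel W := by
  classical
  obtain ⟨et, hr, L', g, hg, hdvd, hsq, ha, -⟩ := hn θ
  rw [nebChar_eq_one H θ hθ] at hr hsq
  have het := eq_one_of_isRoot_one hL hr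
  have hne : L' ≠ 0 := ne_zero_of_dvd_ne_zero (pow_ne_zero 2 (NeZero.ne L)) hdvd
  have : NeZero L' := ⟨hne⟩
  have hL' : Squarefree L' := Nat.squarefree_iff_prime_squarefree.2 fun v hv hvv =>
    hsq v hv (hv.dvd_of_dvd_pow ((dvd_mul_right v v).trans (hvv.trans hdvd)))
      (fun u _ => MulChar.one_apply_coe u) (by rwa [pow_two])
  refine Lifting.Curve.isModularModelOfExactConductorLevel_of_newform h35 hΔ0 hss hg hL'
    (T0 ∪ S ∪ L.primeFactors) fun ℓ hℓ h => ?_
  simp only [Finset.mem_union, Nat.mem_primeFactors, not_or] at h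
  have hunit : IsUnit (ℓ : ZMod L) := (ZMod.isUnit_iff_coprime _ _).2
    (hℓ.coprime_iff_not_dvd.2 fun hd => h.2 ⟨hℓ, hd, NeZero.ne L⟩)
  have := ha ℓ hℓ h.1.2
  rw [hsys ℓ hℓ h.1.1, het, MulChar.one_apply hunit, one_mul] at this
  exact this.symm

end Fermat.Agent.TwoAdic.Patch
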