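import Fermat.Agent.TwoAdic.Patch.Main
import Fermat.Prelude.Thm_IsLocalRing_isAdicComplete_of_module_finite

/-!
# Solving the line equations without losing the base

The ring adjoining the eigenlines of finitely many matrices, with no condition at inertia, is
local, and the functional "coefficient of `1`" splits off the base.
-/

set_option autoImplicit false
set_option linter.style.haveILetI false

noncomputable section

namespace Fermat.Agent.TwoAdic.Patch

open IsLocalRing Fermat.Agent.Deform Fermat.Agent.TwoAdic.Deform

section Functional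

variable {R : Type} [CommRing R]

/-- The sequence with `c 0 = 1`, `c 1 = 0` annihilated by the quadratic of a line. -/
def lineSeq (F : M2 R) : ℕ → R
  | 0 => 1
  | 1 => 0
  | k + 2 => Ring.inverse (F 0 1) *
      ((F 0 0 - F 1 1) * lineSeq F (k + 1) + F 1 0 * lineSeq F k)

theorem lineSeq_rec {F : M2 R} (hu : IsUnit (F 0 1)) (k : ℕ) :
    F 0 1 * lineSeq F (k + 2) =
      (F 0 0 - F 1 1) * lineSeq F (k + 1) + F 1 0 * lineSeq F k := by
  rw [lineSeq, ← mul_assoc, Ring.mul_inverse_cancel _ hu, one_mul]

variable [IsLocalRing R] {ι : Type} [Fintype ι]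

/-- The values of the functional on the powers of one variable. -/
def lineWeight (F : M2 R) (b : Bool) (k : ℕ) : R :=
  if b then lineSeq F k else eigenRoot F ^ k

/-- The functional on polynomials. -/
def lineFunctional (F : ι → M2 R) (isU : ι → Bool) : MvPolynomial ι R →ₗ[R] R :=
  (MvPolynomial.basisMonomials ι R).constr R fun m => ∏ i, lineWeight (F i) (isU i) (m i)

theorem lineFunctional_monomial (F : ι → M2 R) (isU : ι → Bool) (m : ι →₀ ℕ) (r : R) :
    lineFunctional F isU (MvPolynomial.monomial m r) =
      r * ∏ i, lineWeight (F i) (isU i) (m i) := by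
  have h : MvPolynomial.monomial m r = r • (MvPolynomial.basisMonomials ι R) m := by
    rw [MvPolynomial.coe_basisMonomials, MvPolynomial.smul_monomial, smul_eq_mul, mul_one]
  rw [h, map_smul, lineFunctional, Module.Basis.constr_basis, smul_eq_mul]

theorem lineFunctional_mul_pow (F : ι → M2 R) (isU : ι → Bool) (m : ι →₀ ℕ) (r : R) (i : ι) :
    ∃ rest : R, ∀ (a : R) (k : ℕ),
      lineFunctional F isU (MvPolynomial.monomial m r * (MvPolynomial.C a * MvPolynomial.X i ^ k)) =
        a * lineWeight (F i) (isU i) (m i + k) * rest := by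
  classical
  refine ⟨r * ∏ j ∈ Finset.univ.erase i, lineWeight (F j) (isU j) (m j), fun a k => ?_⟩
  rw [MvPolynomial.C_mul_X_pow_eq_monomial, MvPolynomial.monomial_mul, lineFunctional_monomial,
    ← Finset.mul_prod_erase _ _ (Finset.mem_univ i)]
  rw [Finset.prod_congr rfl fun j hj => by
    rw [Finsupp.add_apply, Finsupp.single_eq_of_ne (Finset.ne_of_mem_erase hj), add_zero]]
  rw [Finsupp.add_apply, Finsupp.single_eq_same]
  ring

/-- The ideal of polynomials all of whose multiples the functional kills. -/
def lineKer (F : ι → M2 R) (isU : ι → Bool) : Ideal (MvPolynomial ι R) where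
  carrier := {x | ∀ p, lineFunctional F isU (p * x) = 0}
  add_mem' {x y} hx hy p := by rw [mul_add, map_add, hx, hy, add_zero]
  zero_mem' p := by rw [mul_zero, map_zero]
  smul_mem' a x hx p := by rw [smul_eq_mul, ← mul_assoc]; exact hx _

theorem mem_lineKer_of_monomial {F : ι → M2 R} {isU : ι → Bool} {x : MvPolynomial ι R}
    (h : ∀ m r, lineFunctional F isU (MvPolynomial.monomial m r * x) = 0) :
    x ∈ lineKer F isU := by
  intro p
  induction p using MvPolynomial.induction_on' with
  | monomial m r => exact h m r
  | add p q hp hq => rw [add_mul, map_add, hp, hq, add_zero]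

theorem eigenIdeal_le_lineKer [IsAdicComplete (maximalIdeal R) R] {F : ι → M2 R}
    {isU : ι → Bool} (h : EigenData F (fun _ => 1) isU ⊥) :
    eigenIdeal F (fun _ => 1) isU ⊥ ≤ lineKer F isU := by
  refine sup_le ?_ (by rw [Ideal.map_bot]; exact bot_le)
  rw [Ideal.span_le]
  rintro q (((⟨i, rfl⟩ | ⟨i, rfl⟩) | ⟨i, rfl⟩) | ⟨i, hi, rfl⟩)
  · refine mem_lineKer_of_monomial fun m r => ?_
    obtain ⟨rest, hrest⟩ := lineFunctional_mul_pow F isU m r i
    have hexp : MvPolynomial.X i * MvPolynomial.C (F i 0 0) + MvPolynomial.C (F i 1 0) -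
        (MvPolynomial.X i * MvPolynomial.C (F i 0 1) + MvPolynomial.C (F i 1 1)) *
          MvPolynomial.X i =
        MvPolynomial.C (F i 0 0 - F i 1 1) * MvPolynomial.X i ^ 1 +
          MvPolynomial.C (F i 1 0) * MvPolynomial.X i ^ 0 -
          MvPolynomial.C (F i 0 1) * MvPolynomial.X i ^ 2 := by
      rw [map_sub]; ring
    beta_reduce
    rw [hexp, mul_sub, mul_add, map_sub (lineFunctional F isU), map_add (lineFunctional F isU),
      hrest, hrest, hrest, add_zero]
    cases hi : isU i
    · obtain ⟨-, hs⟩ := eigenRoot_spec (h.lower i) (h.upper i) (h.notMem hi)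
      unfold StableLine at hs
      simp only [lineWeight, Bool.false_eq_true, if_false]
      linear_combination (eigenRoot (F i) ^ m i) * rest * hs
    · simp only [lineWeight, if_true]
      linear_combination (-rest) * lineSeq_rec (h.upper i) (m i)
  · simp
  · simp
  · refine mem_lineKer_of_monomial fun m r => ?_
    obtain ⟨rest, hrest⟩ := lineFunctional_mul_pow F isU m r i
    have hexp : MvPolynomial.X i - MvPolynomial.C (eigenRoot (F i)) =
        MvPolynomial.C (1 : R) * MvPolynomial.X i ^ 1 -
          MvPolynomial.C (eigenRoot (F i)) * MvPolynomial.X i ^ 0 := by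
      rw [map_one]; ring
    simp only [hexp, mul_sub, map_sub, hrest]
    simp only [lineWeight, show isU i = false from hi, Bool.false_eq_true, if_false]
    ring

end Functional

variable {O : Type} [CommRing O] [IsLocalRing O] [IsNoetherianRing O]
  [IsAdicComplete (maximalIdeal O) O]

/-- **The line equations can be solved keeping the base a direct summand.** -/
theorem hasLineRing : HasLineRing O := by
  intro R _ _ _ _ hR ι _ F isU h10 h01 hdiag
  haveI := hR.isLocalHom
  haveI : IsAdicComplete (maximalIdeal R) R :=
    IsLocalRing.isAdicComplete_of_module_finite (𝒪 := O)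
  have h : EigenData F (fun _ => 1) isU ⊥ := ⟨h10, h01, hdiag, fun i a b => by simp, bot_le⟩
  haveI := h.isLocalRing
  set I := eigenIdeal F (fun _ => (1 : M2 R)) isU ⊥
  let π : EigenRing F (fun _ => 1) isU ⊥ →ₗ[R] R :=
    ((I.restrictScalars R).liftQ (lineFunctional F isU) fun x hx => by
      have := eigenIdeal_le_lineKer h hx 1
      rwa [one_mul] at this).comp (Submodule.Quotient.restrictScalarsEquiv R I).symm.toLinearMap
  refine ⟨EigenRing F (fun _ => 1) isU ⊥, inferInstance, inferInstance, inferInstance,
    h.isLocalHom, eigenX F _ isU ⊥, π, h.eigenX_mem, fun i => stableLine_eigenX _ _ _ _ i, ?_⟩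
  show lineFunctional F isU 1 = 1
  rw [show (1 : MvPolynomial ι R) = MvPolynomial.monomial 0 1 from rfl, lineFunctional_monomial,
    one_mul]
  refine Finset.prod_eq_one fun i _ => ?_
  cases hi : isU i <;> simp [lineWeight, lineSeq]

end Fermat.Agent.TwoAdic.Patch
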