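import Fermat.Agent.TwoAdic.Deform.CurvePoint
import Fermat.Agent.TwoAdic.Deform.Make
import Fermat.Agent.TwoAdic.Deform.Flip
import Fermat.Agent.TwoAdic.Deform.Tangent
import Fermat.Agent.TwoAdic.Selmer.SelectBound
import Fermat.Agent.TwoAdic.Selmer.SelectThree
import Fermat.Agent.TwoAdic.Selmer.Finite
import Fermat.Agent.TwoAdic.Selmer.Bound

/-!
# The auxiliary primes of the final assembly

`exists_selection`: one level exponent `n` and primes `q i ≡ 1 mod 2 ^ (n + 1)` with the Selmer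
bound for every choice of eigenvalues and with `2 ^ n` not dividing
`∏ (trace² - (q + 1)²)` at the point, and two further primes `q₀ ≡ 5 mod 8`, `l ≡ 3 mod 4`.
-/

set_option autoImplicit false
set_option linter.style.haveILetI false

noncomputable section

namespace Fermat.Agent.TwoAdic.Patch

open IsLocalRing Fermat.Agent.Arith Fermat.Agent.Deform Fermat.Agent.TwoAdic.Curve
  Fermat.Agent.CFT.Tangent Fermat.Agent.Arith.Chebotarev
open Fermat.Agent.TwoAdic.Deform (Setting Level Aux curveSetting curveFrame IsLift SelmerBound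
  resTwo badOdd)

local instance factTwoPatchSelect : Fact (Nat.Prime 2) := ⟨Nat.prime_two⟩

section Algebra

variable {R : Type} [CommRing R] [IsDomain R] {p : R}

theorem pow_dvd_of_dvd_mul_of_not_pow_dvd (hp : Prime p) :
    ∀ (c k : ℕ) {a b : R}, ¬ p ^ c ∣ a → p ^ (c + k) ∣ a * b → p ^ (k + 1) ∣ b := by
  intro c
  induction c with
  | zero => exact fun k a b ha _ => absurd (by rw [pow_zero]; exact one_dvd a) ha
  | succ c ih =>
    intro k a b ha h
    by_cases hpa : p ∣ a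
    · obtain ⟨a', rfl⟩ := hpa
      rw [pow_succ'] at ha
      rw [show c + 1 + k = c + k + 1 by omega, pow_succ', mul_assoc,
        mul_dvd_mul_iff_left hp.ne_zero] at h
      exact ih k (fun h' => ha (mul_dvd_mul_left p h')) h
    · exact (pow_dvd_pow p (by omega)).trans (hp.pow_dvd_of_dvd_mul_left (c + 1 + k) hpa h)

theorem not_pow_dvd_prod (hp : Prime p) {ι : Type} (s : Finset ι) (f : ι → R) (c : ℕ)
    (hf : ∀ i ∈ s, ¬ p ^ c ∣ f i) : ¬ p ^ (s.card * c + 1) ∣ ∏ i ∈ s, f i := by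
  classical
  induction s using Finset.induction with
  | empty => simpa using fun h => hp.not_isUnit (isUnit_of_dvd_one h)
  | insert i s hi ih =>
    rw [Finset.prod_insert hi, Finset.card_insert_of_notMem hi]
    intro h
    rw [show (s.card + 1) * c + 1 = c + (s.card * c + 1) by ring] at h
    exact ih (fun j hj => hf j (Finset.mem_insert_of_mem hj))
      ((pow_dvd_pow p (Nat.le_succ _)).trans
        (pow_dvd_of_dvd_mul_of_not_pow_dvd hp c _ (hf i (Finset.mem_insert_self i s)) h))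

end Algebra

variable {W : WeierstrassCurve ℤ} (h : IsTwoAdicCurve W)
variable {O : Type} [CommRing O] [IsDomain O] [IsDiscreteValuationRing O]
  (h2 : (2 : O) ∈ maximalIdeal O)

/-- The trace of a residual matrix coming from `F₂`. -/
theorem trace_rb (σ : Gal) :
    ((curveSetting h h2).W.rb σ).trace = resTwo h2 ((curveFrame h).ρ σ).trace := by
  rw [Deform.curveSetting_rb, Matrix.trace_fin_two, Matrix.trace_fin_two, mapM_apply, mapM_apply,
    map_add]

/-- If one Frobenius has image the rotation, all have residual trace one, and `a_q` is odd. -/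
theorem trace_eq_one_of_frob {q : ℕ} (hq : q.Prime) (hq2 : q ≠ 2) (hqT : q ∉ badOdd W)
    {P : ValuationSubring QBar} (hP : P.LiesOverPrime q) {φ : Gal} (hφ : P.IsFrobeniusAt φ q)
    (hρ : (curveFrame h).ρ φ = Selmer.rotM) :
    W.IsGoodPrimeFor q ∧ Odd (W.apOfModel q) ∧
      ∀ (P' : ValuationSubring QBar), P'.LiesOverPrime q → ∀ σ : Gal, P'.IsFrobeniusAt σ q →
        ((curveSetting h h2).W.rb σ).trace = 1 := by
  have hgood : W.IsGoodPrimeFor q :=
    Deform.good_of_notMem_badOdd h.delta_ne_zero hq hq2 hqT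
  have h1 : (W.apOfModel q : ResidueField O) = 1 := by
    rw [← Deform.trace_rb_frobenius h h2 hq hgood hq2 hP hφ, trace_rb, hρ,
      show Selmer.rotM.trace = 1 by decide, map_one]
  refine ⟨hgood, ?_, fun P' hP' σ hσ => by
    rw [Deform.trace_rb_frobenius h h2 hq hgood hq2 hP' hσ, h1]⟩
  rw [← Int.not_even_iff_odd]
  rintro ⟨b, hb⟩
  rw [hb, Int.cast_add] at h1
  refine one_ne_zero (α := ResidueField O) ?_
  rw [← h1, ← two_mul, Deform.two_eq_zero_residue h2, zero_mul]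

/-- **The auxiliary primes.** -/
theorem exists_selection [CharZero O] (hπ : maximalIdeal O = Ideal.span {(2 : O)})
    {ω : ResidueField O} (hω : ω ^ 2 + ω + 1 = 0) {hO : IsResAlg O O} {rW : Gal →* M2 O}
    (hcW : IsCont rW) (hlW : Lifts (curveSetting h h2).W hO rW)
    (hiW : IsLift (curveSetting h h2) (Level.base (curveSetting h h2)) rW) :
    ∃ n : ℕ, 2 ≤ n ∧ ∀ avoid : Finset ℕ,
      ∃ (ι : Type) (_ : Fintype ι) (_ : DecidableEq ι) (q : ι → ℕ)
        (P : ι → ValuationSubring QBar) (φ : ι → Gal) (isU : ι → Bool) (q₀ l : ℕ),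
        Function.Injective q ∧
        (∀ i, (q i).Prime ∧ q i ∉ avoid ∧ q i ∉ (curveSetting h h2).T ∧ q i ≠ 2 ∧
          W.IsGoodPrimeFor (q i) ∧ 2 ^ (n + 1) ∣ q i - 1 ∧ q i % 8 = 1 ∧
          (P i).LiesOverPrime (q i) ∧ (P i).IsFrobeniusAt (φ i) (q i) ∧
          (isU i = true → (curveSetting h h2).W.rb (φ i) ≠ 1 ∧
            ((curveSetting h h2).W.rb (φ i)).trace = 0) ∧
          (isU i = false → ((curveSetting h h2).W.rb (φ i)).trace = 1)) ∧
        (q₀.Prime ∧ q₀ % 8 = 5 ∧ q₀ ∉ avoid ∧ q₀ ∉ (curveSetting h h2).T ∧ (∀ i, q i ≠ q₀) ∧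
          W.IsGoodPrimeFor q₀ ∧ Odd (W.apOfModel q₀) ∧
          ∀ Q : ValuationSubring QBar, Q.LiesOverPrime q₀ → ∀ σ : Gal, Q.IsFrobeniusAt σ q₀ →
            ((curveSetting h h2).W.rb σ).trace = 1) ∧
        (l.Prime ∧ l % 4 = 3 ∧ l ∉ avoid ∧ l ∉ (curveSetting h h2).T ∧ (∀ i, q i ≠ l) ∧ l ≠ q₀ ∧
          W.IsGoodPrimeFor l ∧ Odd (W.apOfModel l) ∧
          ∀ Q : ValuationSubring QBar, Q.LiesOverPrime l → ∀ σ : Gal, Q.IsFrobeniusAt σ l →
            ((curveSetting h h2).W.rb σ).trace = 1) ∧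
        ∀ Lv : Level (curveSetting h h2), Lv.Q = Finset.univ.image q →
          ∃ (D : Aux (curveSetting h h2) Lv) (e : ι ≃ D.ι),
            (∀ i, D.q (e i) = q i ∧ D.P (e i) = P i ∧ D.φ (e i) = φ i ∧ D.isU (e i) = isU i) ∧
            (∀ s, SelmerBound (D.flip s) (curveSetting h h2).T.card) ∧
            (curveSetting h h2).T.card + D.numU = Fintype.card D.ι + 1 ∧
            ¬ (2 : O) ^ n ∣ ∏ i, ((rW (D.φ i)).trace ^ 2 - ((D.q i : O) + 1) ^ 2) := by
  classical
  set S := curveSetting h h2 with hS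
  set Fr := curveFrame h with hFr
  letI algk : Algebra (ZMod 2) (ResidueField O) := (resTwo h2).toAlgebra
  have hrb : S.W.rb = mapM (algebraMap (ZMod 2) (ResidueField O)) Fr.ρ :=
    Deform.curveSetting_rb_eq h h2 _
  have hres : ∀ σ, (residue O).mapMatrix (rW σ) =
      (Fr.ρ σ).map (algebraMap (ZMod 2) (ResidueField O)) := fun σ => Matrix.ext fun i j => by
    have h1 := hlW σ i j
    rw [show augment hO (rW σ i j) = residue O (rW σ i j) from (augment hO).commutes _, hrb,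
      mapM_apply] at h1
    exact h1
  have htr : ∀ σ, residue O (rW σ).trace = (S.W.rb σ).trace := fun σ => by
    rw [trace_rb, Matrix.trace_fin_two, Matrix.trace_fin_two, map_add, map_add]
    exact congrArg₂ (· + ·) (congrFun (congrFun (hres σ) 0) 0) (congrFun (congrFun (hres σ) 1) 1)
  have h20 : (2 : O) ≠ 0 := two_ne_zero
  have hsep : ∀ x : O, (∀ c : ℕ, (2 : O) ^ c ∣ x) → x = 0 := fun x hx => by
    rw [← Ideal.mem_bot, ← Ideal.iInf_pow_eq_bot_of_isLocalRing (maximalIdeal O)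
      (IsLocalRing.maximalIdeal.isMaximal O).ne_top]
    refine Submodule.mem_iInf _ |>.mpr fun c => ?_
    rw [hπ, Ideal.span_singleton_pow, Ideal.mem_span_singleton]
    exact hx c
  have hlev : ∀ c : ℕ, GaloisFactorsThroughFiniteLevel
      (mapM (Ideal.Quotient.mk (Ideal.span {(2 : O) ^ c})) rW) := fun c => by
    obtain ⟨L, hL, hL1⟩ := hcW c
    refine ⟨L, hL, fun σ hσ => Matrix.ext fun i j => ?_⟩
    rw [mapM_apply, show (1 : M2 (O ⧸ Ideal.span {(2 : O) ^ c})) i j =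
        Ideal.Quotient.mk (Ideal.span {(2 : O) ^ c}) ((1 : M2 O) i j) by
      rw [Matrix.one_apply, Matrix.one_apply]; split <;> simp,
      Ideal.Quotient.eq, ← Ideal.span_singleton_pow, ← hπ]
    exact hL1 σ hσ i j
  have hst : ∃ q ∈ Fr.T, ∀ P : ValuationSubring QBar, P.LiesOverPrime q →
      ∀ σ ∈ P.inertiaSubgroupIn ℚ, (rW σ).trace = 2 ∧ (rW σ).det = 1 := by
    obtain ⟨q, hq, -⟩ := Fr.exists_three_five
    exact ⟨q, hq, hiW.steinberg q hq⟩
  -- the basis, the transpositions, the exponent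
  obtain ⟨r, cs, hcs, hspan, hind⟩ := Selmer.exists_basis_SV Fr
  obtain ⟨c, σU, -, -, -, hUall⟩ :=
    Selmer.Select.exists_uPrimes_bound Fr (residue O) h20 hsep rW hres hlev hst cs hcs hspan hind
  set n := r * c + 2 with hn
  obtain ⟨σD, -, -, hDall⟩ := Selmer.Select.exists_dPrimes Fr ∅ (by simp) (by simp) (by simp)
  obtain ⟨σ₀, -, hfive⟩ := Selmer.Select.exists_five Fr
  obtain ⟨σ₁, -, hthree⟩ := Selmer.Select.exists_three Fr
  refine ⟨n, by omega, fun avoid => ?_⟩
  set av := avoid ∪ Fr.T ∪ {2} with hav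
  obtain ⟨U, hU⟩ := hUall (n + 1) av ⊥
  obtain ⟨D₀, hD₀⟩ := hDall (n + 1) (av ∪ Finset.univ.image U.q) ⊥
  obtain ⟨q₀, P₀, φ₀, hq₀, hq₀8, hq₀av, hP₀, hφ₀, hρ₀, -⟩ :=
    hfive (av ∪ Finset.univ.image U.q ∪ Finset.univ.image D₀.q) ⊥
  obtain ⟨l, Pl, φl, hl, hl4, hlav, hPl, hφl, hρl, -, -⟩ :=
    hthree (av ∪ Finset.univ.image U.q ∪ Finset.univ.image D₀.q ∪ {q₀}) ⊥
  let q := Sum.elim D₀.q U.q
  let P := Sum.elim D₀.P U.P
  let φ := Sum.elim D₀.φ U.φ
  let isU : Fin (Fr.T.card - 1) ⊕ Fin r → Bool := Sum.elim (fun _ => false) fun _ => true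
  have hinj : Function.Injective q := D₀.injective.sumElim U.injective fun i j he =>
    (hD₀ i).2.1 (Finset.mem_union_right _ (he ▸ Finset.mem_image_of_mem _ (Finset.mem_univ j)))
  simp only [hav, Finset.mem_union, Finset.mem_singleton, not_or, Finset.mem_image,
    Finset.mem_univ, true_and, not_exists] at hU hD₀ hq₀av hlav
  have hP : ∀ i, (P i).LiesOverPrime (q i) := by
    rintro (i | i)
    exacts [D₀.liesOver i, U.liesOver i]
  have hφ : ∀ i, (P i).IsFrobeniusAt (φ i) (q i) := by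
    rintro (i | i)
    exacts [D₀.frob i, U.frob i]
  have hrbU : ∀ i, isU i = true → S.W.rb (φ i) ≠ 1 ∧ (S.W.rb (φ i)).trace = 0 := by
    rintro (i | i) hi
    · exact absurd hi Bool.false_ne_true
    · refine ⟨fun he => ?_, ?_⟩
      · have h1 : (S.W.rb (U.φ i)) 0 1 = (1 : M2 (ResidueField O)) 0 1 := by
          rw [show S.W.rb (U.φ i) = 1 from he]
        rw [hrb, mapM_apply, U.ρ_φ, Matrix.one_apply_ne (by decide),
          show Selmer.refM 0 1 = 1 from rfl, map_one] at h1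
        exact one_ne_zero h1
      · show (S.W.rb (U.φ i)).trace = 0
        rw [trace_rb, U.ρ_φ, show Selmer.refM.trace = 0 by decide, map_zero]
  have hrbD : ∀ i, isU i = false → (S.W.rb (φ i)).trace = 1 := by
    rintro (i | i) hi
    · show (S.W.rb (D₀.φ i)).trace = 1
      rw [trace_rb, D₀.ρ_φ, show Selmer.rotM.trace = 1 by decide, map_one]
    · exact absurd hi (by simp [isU])
  obtain ⟨hg₀, ho₀, ht₀⟩ :=
    trace_eq_one_of_frob h h2 hq₀ (by omega) hq₀av.1.1.1.2 hP₀ hφ₀ hρ₀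
  obtain ⟨hgl, hol, htl⟩ :=
    trace_eq_one_of_frob h h2 hl (by omega) hlav.1.1.1.1.2 hPl hφl hρl
  refine ⟨Fin (Fr.T.card - 1) ⊕ Fin r, inferInstance, inferInstance, q, P, φ, isU, q₀, l, hinj,
    fun i => ?_, ⟨hq₀, hq₀8, hq₀av.1.1.1.1, hq₀av.1.1.1.2, ?_, hg₀, ho₀, ht₀⟩,
    ⟨hl, hl4, hlav.1.1.1.1.1, hlav.1.1.1.1.2, ?_, hlav.2, hgl, hol, htl⟩, fun Lv hLv => ?_⟩
  · obtain ⟨hp, hd, ha, hT, hne⟩ : (q i).Prime ∧ 2 ^ (n + 1) ∣ q i - 1 ∧ q i ∉ avoid ∧
        q i ∉ Fr.T ∧ q i ≠ 2 := by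
      rcases i with i | i
      · exact ⟨D₀.prime i, (hD₀ i).1, (hD₀ i).2.1.1.1.1, (hD₀ i).2.1.1.1.2, (hD₀ i).2.1.1.2⟩
      · exact ⟨U.prime i, (hU i).1, (hU i).2.1.1.1, (hU i).2.1.1.2, (hU i).2.1.2⟩
    have h8 : q i % 8 = 1 := by
      have := (pow_dvd_pow 2 (show 3 ≤ n + 1 by omega)).trans hd
      have := hp.one_le
      omega
    exact ⟨hp, ha, hT, hne, Deform.good_of_notMem_badOdd h.delta_ne_zero hp hne hT, hd, h8, hP i,
      hφ i, hrbU i, hrbD i⟩
  · rintro (i | i) he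
    exacts [hq₀av.2 i he, hq₀av.1.2 i he]
  · rintro (i | i) he
    exacts [hlav.1.2 i he, hlav.1.1.2 i he]
  · have hmem : ∀ i, q i ∈ Lv.Q := fun i => hLv ▸ Finset.mem_image_of_mem q (Finset.mem_univ i)
    have hsurj : ∀ v ∈ Lv.Q, ∃ i, q i = v := fun v hv => by
      rw [hLv] at hv
      obtain ⟨i, -, hi⟩ := Finset.mem_image.mp hv
      exact ⟨i, hi⟩
    let D := Aux.ofFrobenius S Lv q hmem hinj hsurj P hP φ hφ isU hrbU hrbD hω
    refine ⟨D, Equiv.refl _, fun i => ⟨rfl, rfl, rfl, rfl⟩, fun s => ?_, ?_, ?_⟩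
    · exact Selmer.selmerBound_of_bound (DP := D₀) (UP := U) (D := D.flip s) hrb rfl rfl rfl
        (Equiv.refl _) (fun _ => rfl) (fun _ => rfl) (fun _ => rfl) (fun _ => rfl)
        fun V _ hV hdisj => Selmer.finrank_le_card D₀ U V hV hdisj
    · have hnumU : D.numU = r := by
        refine (Fintype.card_congr (β := Fin r) (Equiv.ofBijective
          (fun j => (⟨Sum.inr j, rfl⟩ : {i : D.ι // D.isU i = true})) ⟨fun a b hab => ?_, ?_⟩).symm).trans
            (Fintype.card_fin r)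
        · exact Sum.inr_injective (Subtype.ext_iff.mp hab)
        · rintro ⟨i | i, hi⟩
          · exact absurd hi Bool.false_ne_true
          · exact ⟨i, rfl⟩
      have hpos : 0 < Fr.T.card := by
        obtain ⟨q', hq', -⟩ := Fr.exists_three_five
        exact Finset.card_pos.mpr ⟨q', hq'⟩
      rw [hnumU]
      show Fr.T.card + r = Fintype.card (Fin (Fr.T.card - 1) ⊕ Fin r) + 1
      rw [Fintype.card_sum, Fintype.card_fin, Fintype.card_fin]
      omega
    · have hp : Prime (2 : O) := IsDiscreteValuationRing.irreducible_iff_uniformizer _ |>.mpr hπ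
        |>.prime
      show ¬ (2 : O) ^ n ∣ ∏ i : Fin (Fr.T.card - 1) ⊕ Fin r,
        ((rW (φ i)).trace ^ 2 - ((q i : O) + 1) ^ 2)
      rw [Fintype.prod_sum_type]
      have hunit : IsUnit (∏ i : Fin (Fr.T.card - 1),
          ((rW (D₀.φ i)).trace ^ 2 - ((D₀.q i : O) + 1) ^ 2)) := by
        refine IsUnit.prod_iff.mpr fun i _ => (residue_ne_zero_iff_isUnit _).mp ?_
        obtain ⟨b, hb⟩ : 2 ∣ D₀.q i + 1 := by have := D₀.one_mod_eight i; omega
        have h2' : residue O ((D₀.q i : O) + 1) = 0 := by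
          rw [← Nat.cast_one (R := O), ← Nat.cast_add, hb, Nat.cast_mul, map_mul, Nat.cast_two,
            map_ofNat, Deform.two_eq_zero_residue h2, zero_mul]
        rw [map_sub, map_pow, map_pow, h2', htr,
          show (S.W.rb (D₀.φ i)).trace = 1 from hrbD (Sum.inl i) rfl]
        simp
      rw [show (∏ i, ((rW (φ (Sum.inl i))).trace ^ 2 - ((q (Sum.inl i) : O) + 1) ^ 2)) =
        ∏ i : Fin (Fr.T.card - 1), ((rW (D₀.φ i)).trace ^ 2 - ((D₀.q i : O) + 1) ^ 2) from rfl,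
        hunit.dvd_mul_left]
      intro hdvd
      refine not_pow_dvd_prod hp Finset.univ
        (fun i : Fin r => (rW (U.φ i)).trace ^ 2 - ((U.q i : O) + 1) ^ 2) c
        (fun i _ => (hU i).2.2.2) ((pow_dvd_pow (2 : O) ?_).trans hdvd)
      simp [hn]

end Fermat.Agent.TwoAdic.Patch
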