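import Fermat.Agent.TwoAdic.Patch.Defs

/-!
# The datum at the level with the auxiliary prime `q₀`

`BigDatum` is what the glued representation over the localised module of level `Γ_H(L)` provides:
a module free over the group ring of the diamonds `δ i` and `g`, a lift of determinant
`char · cyclotomic`, and the local conditions. Dividing by `g - 1` gives a `LevelDatum`.
-/

set_option autoImplicit false

noncomputable section

namespace Fermat.Agent.TwoAdic.Patch

open IsLocalRing Fermat.Agent.Deform Fermat.Agent.TwoAdic.Deform Fermat.Agent.Arith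

variable {O : Type} [CommRing O] [IsLocalRing O] {S : Setting O} {Lv : Level S}

/-- The localised module with the glued representation at the big level. -/
structure BigDatum (D : Aux S Lv) (n : ℕ) : Type 1 where
  T : Type
  [commRing : CommRing T]
  [isLocalRing : IsLocalRing T]
  [algebra : Algebra O T]
  [finiteT : Module.Finite O T]
  res : IsResAlg O T
  r : Gal →* M2 T
  lifts : Lifts S.W res r
  normal : IsNormal S.W r
  cont : IsCont r
  M : Type
  [addCommGroup : AddCommGroup M]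
  [moduleO : Module O M]
  [module : Module T M]
  [tower : IsScalarTower O T M]
  δ : D.ι → T
  g : T
  δ_pow : ∀ i, δ i ^ 2 ^ n = 1
  g_sq : g ^ 2 = 1
  d : ℕ
  d_pos : 0 < d
  b : Fin d → M
  bas : Module.Basis (Fin d × (D.ι → Fin (2 ^ n)) × Fin 2) O M
  bas_eq : ∀ p : Fin d × (D.ι → Fin (2 ^ n)) × Fin 2,
    bas p = ((∏ l, δ l ^ (p.2.1 l : ℕ)) * g ^ (p.2.2 : ℕ)) • b p.1
  /-- The diamond part of the determinant. -/
  char : Gal →* T
  det_congr : ∀ (N : ℕ) (σ : Gal) (c : ℕ), (∀ μ : QBar, μ ^ 2 ^ N = 1 → σ μ = μ ^ c) →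
    (r σ).det - char σ * c ∈ Ideal.span {((2 ^ N : ℕ) : T)}
  char_τ : ∀ i, char (D.τ i) = δ i
  char_mem : ∀ σ, char σ - 1 ∈ Ideal.span (Set.range (fun i => δ i - 1) ∪ {g - 1})
  char_H : ∀ σ ∈ Lv.H, char σ - 1 ∈ Ideal.span {g - 1}
  char_inertia_two : ∀ σ ∈ S.P2.inertiaSubgroupIn ℚ, char σ = 1
  char_φ2 : char S.φ2 = g * char Lv.root2 ^ 2
  /-- Unramified outside `2`, `S.T` and `Q` modulo `g - 1`. -/
  unramified : ∀ q : ℕ, q.Prime → q ≠ 2 → q ∉ S.T → q ∉ Lv.Q →
    ∀ P : ValuationSubring QBar, P.LiesOverPrime q → ∀ σ ∈ P.inertiaSubgroupIn ℚ,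
      ∀ (j l : Fin 2) (m : M),
        (r σ - 1) j l • m ∈ Ideal.span {g - 1} • (⊤ : Submodule T M)
  steinberg : ∀ q ∈ S.T, ∀ P : ValuationSubring QBar, P.LiesOverPrime q →
    ∀ σ ∈ P.inertiaSubgroupIn ℚ, (r σ).trace = 2 ∧ (r σ).det = 1
  qdet : ∀ q ∈ Lv.Q, ∀ P : ValuationSubring QBar, P.LiesOverPrime q →
    ∀ σ ∈ P.inertiaSubgroupIn ℚ, (r σ - 1).det = 0
  two : ∃ x : T, TwoLine S r x

attribute [instance] BigDatum.commRing BigDatum.isLocalRing BigDatum.algebra BigDatum.finiteT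
  BigDatum.addCommGroup BigDatum.moduleO BigDatum.module BigDatum.tower

end Fermat.Agent.TwoAdic.Patch
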