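import Fermat.Agent.TwoAdic.Deform.CurvePoint
import Fermat.Agent.TwoAdic.Deform.AuxRing
import Fermat.Agent.RT.GammaH.Embed
import Fermat.Agent.ConductorLevel.Elliptic
import Fermat.Prelude.Thm_IsLocalRing_isAdicComplete_of_module_finite

/-!
# The coefficient ring `ℤ₂[ω]` and the point of the curve at every auxiliary level
-/

set_option autoImplicit false
set_option linter.style.haveILetI false

noncomputable section

namespace Fermat.Agent.TwoAdic.Patch

open IsLocalRing Fermat.Agent.Arith Fermat.Agent.Deform Fermat.Agent.TwoAdic.Curve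
open Fermat.Agent.TwoAdic.Deform (Setting Level Aux curveSetting IsLift signDefect TwoLine)
open scoped Pointwise Polynomial

local instance factTwoPatchPoint : Fact (Nat.Prime 2) := ⟨Nat.prime_two⟩

/-- An element of `ℤ₂` which is zero modulo `2` is a multiple of `2`. -/
theorem two_dvd_of_toZMod_eq_zero {x : ℤ_[2]} (h : PadicInt.toZMod x = 0) : (2 : ℤ_[2]) ∣ x := by
  rw [← RingHom.mem_ker, PadicInt.ker_toZMod, PadicInt.maximalIdeal_eq_span_p,
    Ideal.mem_span_singleton] at h
  exact_mod_cast h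

/-- `X ^ 2 + X + 1`. -/
abbrev omegaPoly : ℤ_[2][X] := Polynomial.X ^ 2 + Polynomial.X + 1

theorem omegaPoly_monic : omegaPoly.Monic := by
  unfold omegaPoly; monicity!

theorem omegaPoly_natDegree : omegaPoly.natDegree = 2 := by
  unfold omegaPoly; compute_degree!

/-- The unramified quadratic extension of `ℤ₂`. -/
abbrev Coeff : Type := AdjoinRoot omegaPoly

/-- The cube root of unity. -/
abbrev omega : Coeff := AdjoinRoot.root omegaPoly

theorem omega_sq : omega ^ 2 + omega + 1 = 0 := by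
  have := AdjoinRoot.eval₂_root omegaPoly
  simpa [omegaPoly] using this

theorem exists_repr (x : Coeff) : ∃ a b : ℤ_[2],
    x = algebraMap ℤ_[2] Coeff a + algebraMap ℤ_[2] Coeff b * omega := by
  obtain ⟨p, rfl⟩ := AdjoinRoot.mk_surjective x
  refine ⟨(p %ₘ omegaPoly).coeff 0, (p %ₘ omegaPoly).coeff 1, ?_⟩
  have hdeg : (p %ₘ omegaPoly).natDegree ≤ 1 := by
    have h := Polynomial.natDegree_modByMonic_lt p omegaPoly_monic
      (fun h => by have := omegaPoly_natDegree; rw [h] at this; simp at this)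
    rw [omegaPoly_natDegree] at h
    omega
  have he : AdjoinRoot.mk omegaPoly p = AdjoinRoot.mk omegaPoly (p %ₘ omegaPoly) := by
    conv_lhs => rw [← Polynomial.modByMonic_add_div p omegaPoly]
    rw [map_add, map_mul, AdjoinRoot.mk_self, zero_mul, add_zero]
  conv_lhs => rw [he, Polynomial.eq_X_add_C_of_natDegree_le_one hdeg]
  rw [map_add, map_mul, AdjoinRoot.mk_X, AdjoinRoot.mk_C, AdjoinRoot.mk_C, add_comm]
  rfl

instance : Module.Finite ℤ_[2] Coeff := omegaPoly_monic.finite_adjoinRoot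

theorem algebraMap_coeff_injective : Function.Injective (algebraMap ℤ_[2] Coeff) :=
  AdjoinRoot.of.injective_of_degree_ne_zero (by
    rw [Polynomial.degree_eq_natDegree omegaPoly_monic.ne_zero, omegaPoly_natDegree]; norm_num)

/-- An element outside `(2)` is a unit. -/
theorem isUnit_or_mem_span_two (x : Coeff) :
    IsUnit x ∨ x ∈ Ideal.span {(2 : Coeff)} := by
  obtain ⟨a, b, rfl⟩ := exists_repr x
  by_cases h : PadicInt.toZMod a = 0 ∧ PadicInt.toZMod b = 0
  · refine Or.inr (Ideal.mem_span_singleton.mpr ?_)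
    obtain ⟨a', rfl⟩ := two_dvd_of_toZMod_eq_zero h.1
    obtain ⟨b', rfl⟩ := two_dvd_of_toZMod_eq_zero h.2
    exact ⟨algebraMap ℤ_[2] Coeff a' + algebraMap ℤ_[2] Coeff b' * omega, by
      rw [map_mul, map_mul, map_ofNat]; ring⟩
  · refine Or.inl (isUnit_of_mul_isUnit_left (y := algebraMap ℤ_[2] Coeff (a - b) -
      algebraMap ℤ_[2] Coeff b * omega) ?_)
    have e : (algebraMap ℤ_[2] Coeff a + algebraMap ℤ_[2] Coeff b * omega) *
        (algebraMap ℤ_[2] Coeff (a - b) - algebraMap ℤ_[2] Coeff b * omega) =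
        algebraMap ℤ_[2] Coeff (a ^ 2 - a * b + b ^ 2) := by
      simp only [map_sub, map_add, map_mul, map_pow]
      linear_combination (-(algebraMap ℤ_[2] Coeff b) ^ 2) * omega_sq
    rw [e]
    refine IsUnit.map _ ?_
    by_contra hn
    have h0 : PadicInt.toZMod (a ^ 2 - a * b + b ^ 2) = 0 := by
      rw [← RingHom.mem_ker, PadicInt.ker_toZMod]
      exact hn
    rw [map_add, map_sub, map_pow, map_pow, map_mul] at h0
    exact h ((show ∀ u v : ZMod 2, u ^ 2 - u * v + v ^ 2 = 0 → u = 0 ∧ v = 0 by decide) _ _ h0)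

theorem two_not_isUnit : ¬ IsUnit (2 : Coeff) := by
  intro hu
  obtain ⟨y, hy⟩ := hu.exists_right_inv
  have hroot : ∀ q : ℤ_[2][X], q.natDegree ≤ 1 → AdjoinRoot.mk omegaPoly q = 1 → q = 1 := by
    intro q hq h1
    have h2 : omegaPoly ∣ q - 1 := by
      rw [← AdjoinRoot.mk_eq_zero, map_sub, h1, map_one, sub_self]
    refine sub_eq_zero.mp (Polynomial.eq_zero_of_dvd_of_natDegree_lt h2 ?_)
    rw [omegaPoly_natDegree]
    exact lt_of_le_of_lt (Polynomial.natDegree_sub_le _ _) (by simp; omega)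
  obtain ⟨a, b, rfl⟩ := exists_repr y
  have h := hroot (Polynomial.C (2 * b) * Polynomial.X + Polynomial.C (2 * a))
    (by compute_degree!) (by
      rw [map_add, map_mul, AdjoinRoot.mk_C, AdjoinRoot.mk_C, AdjoinRoot.mk_X, map_mul, map_mul,
        map_ofNat, ← hy]
      show _ = 2 * (AdjoinRoot.of omegaPoly a + AdjoinRoot.of omegaPoly b * omega)
      ring)
  have h0 := congrArg (fun q => PadicInt.toZMod (Polynomial.coeff q 0)) h
  simp [map_mul] at h0
  exact absurd h0.1 (by rw [map_ofNat]; decide)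

instance : IsLocalRing Coeff := by
  haveI : Nontrivial Coeff := ⟨2, 1, fun h => two_not_isUnit (h ▸ isUnit_one)⟩
  refine IsLocalRing.of_nonunits_add fun x y hx hy hxy => ?_
  refine two_not_isUnit ?_
  obtain ⟨u, hu⟩ := Ideal.mem_span_singleton.mp
    (Ideal.add_mem _ ((isUnit_or_mem_span_two x).resolve_left hx)
      ((isUnit_or_mem_span_two y).resolve_left hy))
  rw [hu] at hxy
  exact isUnit_of_mul_isUnit_left hxy

theorem maximalIdeal_coeff : maximalIdeal Coeff = Ideal.span {(2 : Coeff)} :=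
  le_antisymm (fun x hx => (isUnit_or_mem_span_two x).resolve_left hx)
    ((Ideal.span_singleton_le_iff_mem _).mpr two_not_isUnit)

instance : IsLocalHom (algebraMap ℤ_[2] Coeff) :=
  Deform.isLocalHom_algebraMap_padic (by
    rw [maximalIdeal_coeff]; exact Ideal.mem_span_singleton_self _)

theorem omegaPoly_prime : Prime omegaPoly := by
  rw [← irreducible_iff_prime, omegaPoly_monic.irreducible_iff_roots_eq_zero_of_degree_le_three
    omegaPoly_natDegree.ge (omegaPoly_natDegree.trans_le (by norm_num))]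
  refine Multiset.eq_zero_of_forall_notMem fun x hx => ?_
  rw [Polynomial.mem_roots omegaPoly_monic.ne_zero, Polynomial.IsRoot] at hx
  have h := congrArg PadicInt.toZMod hx
  simp only [omegaPoly, Polynomial.eval_add, Polynomial.eval_pow, Polynomial.eval_X,
    Polynomial.eval_one, map_add, map_pow, map_one, map_zero] at h
  exact (show ∀ u : ZMod 2, u ^ 2 + u + 1 ≠ 0 by decide) _ h

instance : IsDomain Coeff := AdjoinRoot.isDomain_of_prime omegaPoly_prime

instance : CharZero Coeff := charZero_of_injective_algebraMap algebraMap_coeff_injective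

instance : IsNoetherianRing Coeff := (Algebra.FiniteType.isNoetherianRing ℤ_[2] Coeff)

instance : IsDiscreteValuationRing Coeff := by
  have hne : ¬ IsField Coeff := fun hf => by
    have h0 : (2 : Coeff) ∈ maximalIdeal Coeff := two_not_isUnit
    rw [IsLocalRing.isField_iff_maximalIdeal_eq.mp hf, Ideal.mem_bot] at h0
    exact two_ne_zero h0
  refine ((IsDiscreteValuationRing.TFAE Coeff hne).out 0 4).mpr ?_
  exact ⟨⟨2, maximalIdeal_coeff⟩⟩

instance : IsAdicComplete (maximalIdeal Coeff) Coeff :=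
  isAdicComplete_of_module_finite (𝒪 := ℤ_[2])

theorem residue_coeff (a : ℤ_[2]) :
    residue Coeff (algebraMap ℤ_[2] Coeff a) = ((PadicInt.toZMod a).val : ResidueField Coeff) := by
  have h0 : PadicInt.toZMod (a - ((PadicInt.toZMod a).val : ℤ_[2])) = 0 := by
    rw [map_sub, map_natCast, ZMod.natCast_zmod_val, sub_self]
  obtain ⟨c, hc⟩ := two_dvd_of_toZMod_eq_zero h0
  rw [sub_eq_iff_eq_add] at hc
  conv_lhs => rw [hc, map_add, map_add, map_mul, map_mul, map_ofNat, map_natCast, map_natCast]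
  have h2 : residue Coeff 2 = 0 := (residue_eq_zero_iff _).mpr two_not_isUnit
  rw [h2, zero_mul, zero_add]

instance : Finite (ResidueField Coeff) := by
  refine Finite.of_surjective (fun p : ZMod 2 × ZMod 2 => (p.1.val : ResidueField Coeff) +
    (p.2.val : ResidueField Coeff) * residue Coeff omega) fun z => ?_
  obtain ⟨x, rfl⟩ := residue_surjective z
  obtain ⟨a, b, rfl⟩ := exists_repr x
  exact ⟨(PadicInt.toZMod a, PadicInt.toZMod b), by
    simp only [map_add, map_mul, residue_coeff]⟩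

theorem isResAlg_self (O : Type) [CommRing O] [IsLocalRing O] : IsResAlg O O :=
  ⟨⟨fun _ h => h⟩, fun z => residue_surjective z⟩

/-- **The coefficient ring**: `ℤ₂[ω]`. -/
theorem exists_coeffRing : ∃ (O : Type) (_ : CommRing O) (_ : IsDomain O)
    (_ : IsDiscreteValuationRing O) (_ : IsAdicComplete (maximalIdeal O) O)
    (_ : Finite (ResidueField O)) (_ : CharZero O) (_ : Algebra ℤ_[2] O)
    (_ : Module.Finite ℤ_[2] O),
    maximalIdeal O = Ideal.span {(2 : O)} ∧ (∃ ω : ResidueField O, ω ^ 2 + ω + 1 = 0) ∧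
      IsResAlg O O ∧ ∃ j : O →+* ℂ, Function.Injective j :=
  ⟨Coeff, inferInstance, inferInstance, inferInstance, inferInstance, inferInstance,
    inferInstance, inferInstance, inferInstance, maximalIdeal_coeff,
    ⟨residue Coeff omega, by rw [← map_pow, ← map_add, ← map_one (residue Coeff), ← map_add,
      omega_sq, map_zero]⟩,
    isResAlg_self Coeff, RT.GammaH.exists_injective_complex Coeff⟩

section Point

variable {W : WeierstrassCurve ℤ} (h : IsTwoAdicCurve W)
variable {O : Type} [CommRing O] [IsDomain O] [IsDiscreteValuationRing O]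
  [IsAdicComplete (maximalIdeal O) O] [Algebra ℤ_[2] O] (h2 : (2 : O) ∈ maximalIdeal O)

/-- **The point of the curve**, at every auxiliary level. -/
theorem exists_point (hO : IsResAlg O O) :
    ∃ (rW : Gal →* M2 O) (a : O), IsCont rW ∧ Lifts (curveSetting h h2).W hO rW ∧
      IsNormal (curveSetting h h2).W rW ∧
      IsLift (curveSetting h h2) (Level.base (curveSetting h h2)) rW ∧
      (∀ ℓ : ℕ, ℓ.Prime → W.IsGoodPrimeFor ℓ → ℓ ≠ 2 →
        ∀ P : ValuationSubring QBar, P.LiesOverPrime ℓ → ∀ σ : Gal, P.IsFrobeniusAt σ ℓ →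
          (rW σ).trace = (W.apOfModel ℓ : O) ∧ (rW σ).det = (ℓ : O)) ∧
      residue O a = 1 ∧ a * a = 1 ∧
      ∀ Lv : Level (curveSetting h h2), (rW Lv.root2).det = 1 ∧
        signDefect (curveSetting h h2) Lv rW a = 0 ∧
        ∀ (D : Aux (curveSetting h h2) Lv) (i : D.ι), rW (D.τ i) = 1 ∧
          W.IsGoodPrimeFor (D.q i) ∧ (rW (D.φ i)).trace = (W.apOfModel (D.q i) : O) ∧
          (rW (D.φ i)).det = (D.q i : O) ∧
          W.apOfModel (D.q i) ^ 2 ≠ ((D.q i : ℤ) + 1) ^ 2 := by
  set S := curveSetting h h2 with hS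
  obtain ⟨r, hc, hl, hn, hD, htr, a, haa, x, hx, ha⟩ := Deform.exists_curvePoint h h2 hO
  rw [show (Level.base S).root2 = 1 from rfl, map_one, Matrix.det_one, mul_one] at ha
  have hdet : ∀ (σ : Gal) (c : ℕ), (∀ (n : ℕ) (μ : QBar), μ ^ 2 ^ n = 1 → σ μ = μ ^ c) →
      (r σ).det = (c : O) := fun σ c hσ => by
    rw [← sub_eq_zero, ← Ideal.mem_bot, ← Ideal.iInf_pow_eq_bot_of_isLocalRing (maximalIdeal O)
      (IsLocalRing.maximalIdeal.isMaximal O).ne_top]
    refine Submodule.mem_iInf _ |>.mpr fun K => ?_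
    refine (Ideal.span_singleton_le_iff_mem _).mpr ?_ (hD.det σ trivial K c (hσ K))
    push_cast
    exact Ideal.pow_mem_pow h2 K
  have hfrob : ∀ ℓ : ℕ, ℓ.Prime → ℓ ≠ 2 → ∀ P : ValuationSubring QBar, P.LiesOverPrime ℓ →
      ∀ σ : Gal, P.IsFrobeniusAt σ ℓ → (r σ).det = (ℓ : O) := fun ℓ hℓ hℓ2 P hP σ hσ =>
    hdet σ ℓ fun n μ hμ => frobenius_root hP hℓ hσ hμ fun hd =>
      hℓ2 ((Nat.prime_dvd_prime_iff_eq hℓ Nat.prime_two).mp (hℓ.dvd_of_dvd_pow hd))
  have haug : ∀ y : O, augment hO y = residue O y := fun y => (augment hO).commutes y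
  have hres : residue O a = 1 := by
    rw [← ha, ← haug, Deform.lineVal, map_add, map_mul, Deform.augment_twoLine hl hx, zero_mul,
      zero_add, hl S.φ2,
      (Deform.rb_decomp_entries S.φ2_frob.mem_decompositionSubgroup).2.2]
  refine ⟨r, a, hc, hl, hn, hD, fun ℓ hℓ hg hℓ2 P hP σ hσ =>
    ⟨htr ℓ hℓ hg hℓ2 P hP σ hσ, hfrob ℓ hℓ hℓ2 P hP σ hσ⟩, hres, haa, fun Lv => ?_⟩
  have hroot : (r Lv.root2).det = 1 := by
    rw [← Nat.cast_one]
    exact hdet _ 1 fun n μ hμ => by rw [pow_one]; exact Lv.root2_roots n μ hμ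
  refine ⟨hroot, ?_, fun D i => ?_⟩
  · rw [signDefect, ← hx.eq_twoPos (Deform.isUnit_σ2_entry hl), hroot, mul_one, ha,
      Algebra.algebraMap_self, RingHom.id_apply, sub_self]
  · have hqQ := D.q_mem i
    have hq := Lv.prime_of_mem _ hqQ
    have hq2 := Lv.ne_two _ hqQ
    have hqT := Lv.notMem_T _ hqQ
    have hgood : W.IsGoodPrimeFor (D.q i) :=
      Deform.good_of_notMem_badOdd h.delta_ne_zero hq hq2 hqT
    refine ⟨hD.unramified _ hq hq2 hqT (Finset.notMem_empty _) _ (D.P_over i) _ (D.τ_mem i),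
      hgood, htr _ hq hgood hq2 _ (D.P_over i) _ (D.φ_frob i),
      hfrob _ hq hq2 _ (D.P_over i) _ (D.φ_frob i), fun he => ?_⟩
    haveI := Fact.mk hq
    obtain ⟨h1, h2'⟩ := ConductorLevel.apOfModel_ne (W := W) hgood
    rcases sq_eq_sq_iff_eq_or_eq_neg.mp he with e | e
    · exact h1 e
    · exact h2' e

end Point

end Fermat.Agent.TwoAdic.Patch
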