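import Fermat.Agent.TwoAdic.Deform.Line

/-!
# The algebra of one auxiliary prime

`X = ρ(τ) - 1` has determinant zero and trace `y`, `F = ρ(φ)` satisfies `F (1 + X) = (1 + X) ^ q F`.
Then `F` and `X` commute when `1 + y` is a root of unity of order dividing `q - 1` whose norm
vanishes, and on a module on which `y` is injective and divides `tr (X F)` there is an eigenvalue
`α` of `F` on the functional killing `X`.
-/

set_option autoImplicit false

noncomputable section

namespace Fermat.Agent.TwoAdic.Patch

open Fermat.Agent.Deform Fermat.Agent.TwoAdic.Deform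
open scoped Matrix

section Powers

variable {A : Type*} [CommRing A] {X F : Matrix (Fin 2) (Fin 2) A}

theorem mul_self_eq_trace_smul (hdX : X.det = 0) : X * X = X.trace • X := by
  rw [Matrix.det_fin_two] at hdX
  ext i j
  fin_cases i <;> fin_cases j <;>
    simp only [Fin.zero_eta, Fin.mk_one, Matrix.mul_apply, Fin.sum_univ_two, Matrix.smul_apply,
      Matrix.trace_fin_two, smul_eq_mul]
  · linear_combination -hdX
  · ring
  · ring
  · linear_combination -hdX

theorem mul_self_eq_trace_smul_sub (G : Matrix (Fin 2) (Fin 2) A) :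
    G * G = G.trace • G - G.det • (1 : Matrix (Fin 2) (Fin 2) A) := by
  ext i j
  fin_cases i <;> fin_cases j <;>
    simp [Matrix.mul_apply, Fin.sum_univ_two, Matrix.trace_fin_two, Matrix.det_fin_two] <;> ring

theorem one_add_pow_eq (hdX : X.det = 0) (k : ℕ) :
    (1 + X) ^ k = 1 + (∑ j ∈ Finset.range k, (1 + X.trace) ^ j) • X := by
  induction k with
  | zero => simp
  | succ k ih =>
    set s := ∑ j ∈ Finset.range k, (1 + X.trace) ^ j with hs
    have hrec : ∑ j ∈ Finset.range (k + 1), (1 + X.trace) ^ j = 1 + s * (1 + X.trace) := by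
      rw [Finset.sum_range_succ', pow_zero, add_comm, hs, Finset.sum_mul]
      simp only [pow_succ]
    rw [pow_succ, ih, hrec, mul_add, mul_one, add_mul, one_mul, smul_mul_assoc,
      mul_self_eq_trace_smul hdX, smul_smul, add_smul, one_smul, mul_add, mul_one, add_smul]
    abel

/-- The relation `F (1 + X) = (1 + X) ^ q F`, linearised. -/
theorem mul_eq_sum_smul_mul {q : ℕ} (hdX : X.det = 0) (hrel : F * (1 + X) = (1 + X) ^ q * F) :
    F * X = (∑ j ∈ Finset.range q, (1 + X.trace) ^ j) • (X * F) := by
  rw [one_add_pow_eq hdX, mul_add, mul_one, add_mul, one_mul, smul_mul_assoc] at hrel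
  exact add_left_cancel hrel

theorem geom_sum_eq_one_of_mod {q n : ℕ} {z : A} (hq : q % 2 ^ n = 1 % 2 ^ n)
    (hnorm : ∑ j ∈ Finset.range (2 ^ n), z ^ j = 0) :
    ∑ j ∈ Finset.range q, z ^ j = 1 := by
  rcases Nat.eq_zero_or_pos n with rfl | hn
  · have h10 : (1 : A) = 0 := by simpa using hnorm
    have : Subsingleton A := subsingleton_of_zero_eq_one h10.symm
    exact Subsingleton.elim _ _
  set N := 2 ^ n with hN
  have hN1 : 1 % N = 1 := Nat.one_mod_eq_one.mpr (Nat.one_lt_two_pow hn.ne').ne'
  have hblock : ∀ k, ∑ j ∈ Finset.range (N * k), z ^ j = 0 := by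
    intro k
    induction k with
    | zero => simp
    | succ k ih =>
      rw [Nat.mul_succ, Finset.sum_range_add, ih]
      simp only [pow_add, ← Finset.mul_sum, hnorm, mul_zero, add_zero]
  have hzN : z ^ N = 1 := by
    have := geom_sum_mul z N
    rw [hnorm, zero_mul] at this
    exact (sub_eq_zero.mp this.symm)
  rw [← Nat.div_add_mod q N, hq, hN1, Finset.sum_range_succ, hblock, zero_add, pow_mul, hzN,
    one_pow]

/-- `ρ(φ)` and `ρ(τ)` commute where the norm of `1 + y` vanishes. -/
theorem commute_of_norm_eq_zero {q n : ℕ} (hdX : X.det = 0)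
    (hrel : F * (1 + X) = (1 + X) ^ q * F) (hq : q % 2 ^ n = 1 % 2 ^ n)
    (hnorm : ∑ j ∈ Finset.range (2 ^ n), (1 + X.trace) ^ j = 0) : F * X = X * F := by
  rw [mul_eq_sum_smul_mul hdX hrel, geom_sum_eq_one_of_mod hq hnorm, one_smul]

theorem cast_sub_one_mul_trace_mem {q : ℕ} (hdX : X.det = 0)
    (hrel : F * (1 + X) = (1 + X) ^ q * F) :
    ((q : A) - 1) * (X * F).trace ∈ Ideal.span {X.trace} := by
  have h := congrArg Matrix.trace (mul_eq_sum_smul_mul hdX hrel)
  rw [Matrix.trace_mul_comm, Matrix.trace_smul, smul_eq_mul] at h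
  set s := ∑ j ∈ Finset.range q, (1 + X.trace) ^ j with hs
  have hmem : s - (q : A) ∈ Ideal.span {X.trace} := by
    rw [← Ideal.Quotient.eq_zero_iff_mem, map_sub, hs, map_sum, map_natCast]
    have hy : Ideal.Quotient.mk (Ideal.span {X.trace}) X.trace = 0 :=
      Ideal.Quotient.eq_zero_iff_mem.mpr (Ideal.mem_span_singleton_self _)
    simp [map_pow, map_add, hy]
  have : ((q : A) - 1) * (X * F).trace = -((s - (q : A)) * (X * F).trace) := by
    linear_combination (-1 : A) * h
  rw [this]
  exact neg_mem (Ideal.mul_mem_right _ _ hmem)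

/-- At a point where the prime is unipotent, `X` vanishes unless `t ^ 2 = (q + 1) ^ 2`. -/
theorem trace_sq_sub_smul_eq_zero {q : ℕ} (hdX : X.det = 0)
    (hrel : F * (1 + X) = (1 + X) ^ q * F) (hy : X.trace = 0) (hdF : F.det = q)
    (hnz : ∀ a : A, (q : A) * ((q : A) - 1) * a = 0 → a = 0) :
    (F.trace ^ 2 - ((q : A) + 1) ^ 2) • X = 0 := by
  have h1 : F * X = (q : A) • (X * F) := by
    rw [mul_eq_sum_smul_mul hdX hrel, hy]
    simp
  have hF2 : F * F = F.trace • F - (q : A) • (1 : Matrix (Fin 2) (Fin 2) A) := by
    rw [mul_self_eq_trace_smul_sub F, hdF]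
  have h2 : F * F * X = ((q : A) * q) • (X * (F * F)) := by
    rw [mul_assoc, h1, mul_smul_comm, ← mul_assoc, h1, smul_mul_assoc, smul_smul, mul_assoc]
  rw [hF2, sub_mul, smul_mul_assoc, smul_mul_assoc, one_mul, h1, mul_sub, mul_smul_comm,
    mul_smul_comm, mul_one] at h2
  have h3 : F.trace • (X * F) = ((q : A) + 1) • X := by
    refine sub_eq_zero.mp (Matrix.ext fun i j => hnz _ ?_)
    have h := congrFun (congrFun h2 i) j
    simp only [Matrix.smul_apply, Matrix.sub_apply, smul_eq_mul] at h ⊢
    linear_combination -h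
  have h4 : F.trace • X = ((q : A) + 1) • (X * F) := by
    have h := congrArg (· * F) h3
    simp only [smul_mul_assoc, mul_assoc, hF2, mul_sub, mul_smul_comm, mul_one, smul_sub] at h
    rw [h3] at h
    refine Matrix.ext fun i j => ?_
    have h' := congrFun (congrFun h i) j
    simp only [Matrix.smul_apply, Matrix.sub_apply, smul_eq_mul] at h' ⊢
    linear_combination h'
  rw [sub_smul, pow_two, pow_two, mul_smul, mul_smul, h4, smul_comm, h3, sub_self]

/-- The quadratic relation between `tr (X F)` and `y = tr X`. -/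
theorem trace_mul_sq (hdX : X.det = 0) (hcomm : F * X = X * F) :
    (X * F).trace ^ 2 - X.trace * F.trace * (X * F).trace + X.trace ^ 2 * F.det = 0 := by
  have hG : X * F * (X * F) = (X * F).trace • (X * F) :=
    mul_self_eq_trace_smul (by rw [Matrix.det_mul, hdX, zero_mul])
  have hG' : X * F * (X * F) = X.trace • (F.trace • (X * F) - F.det • X) := by
    calc X * F * (X * F) = X * (F * X) * F := by simp only [mul_assoc]
      _ = X * (X * F) * F := by rw [hcomm]
      _ = X * X * (F * F) := by simp only [mul_assoc]
      _ = _ := by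
          rw [mul_self_eq_trace_smul hdX, mul_self_eq_trace_smul_sub F, smul_mul_assoc, mul_sub,
            mul_smul_comm, mul_smul_comm, mul_one]
  have h := congrArg Matrix.trace (hG.symm.trans hG')
  rw [Matrix.trace_smul, Matrix.trace_smul, Matrix.trace_sub, Matrix.trace_smul, Matrix.trace_smul,
    smul_eq_mul, smul_eq_mul, smul_eq_mul, smul_eq_mul] at h
  linear_combination h

/-- The first line relation, multiplied by `y`. -/
theorem trace_mul_lineRel_zero_one (hdX : X.det = 0) (hcomm : F * X = X * F) :
    (X.trace * F.trace - (X * F).trace - X.trace * F 1 1) * X 0 1 +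
      X.trace * (F 0 1 * X 1 1) = 0 := by
  have e00 := congrFun (congrFun hcomm 0) 0
  have e01 := congrFun (congrFun hcomm 0) 1
  simp only [Matrix.mul_apply, Fin.sum_univ_two] at e00 e01
  rw [Matrix.det_fin_two] at hdX
  simp only [Matrix.trace_fin_two, Matrix.mul_apply, Fin.sum_univ_two]
  linear_combination X 1 1 * e01 + X 0 1 * e00 + 2 * F 0 1 * hdX

/-- The second line relation, multiplied by `y`. -/
theorem trace_mul_lineRel_zero_zero (hdX : X.det = 0) (hcomm : F * X = X * F) :
    (X.trace * F.trace - (X * F).trace - X.trace * F 1 1) * X 0 0 +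
      X.trace * (F 0 1 * X 1 0) = 0 := by
  have e00 := congrFun (congrFun hcomm 0) 0
  have e01 := congrFun (congrFun hcomm 0) 1
  simp only [Matrix.mul_apply, Fin.sum_univ_two] at e00 e01
  rw [Matrix.det_fin_two] at hdX
  simp only [Matrix.trace_fin_two, Matrix.mul_apply, Fin.sum_univ_two]
  linear_combination X 1 0 * e01 + X 0 0 * e00 + (F 0 0 - F 1 1) * hdX

variable {M : Type*} [AddCommGroup M] [Module A M]

/-- **The eigenvalue operator** `α = t - tr (X F) / y`. -/
theorem exists_eigenOp (hdX : X.det = 0) (hcomm : F * X = X * F)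
    (hinj : ∀ m : M, X.trace • m = 0 → m = 0)
    (hdiv : ∀ m : M, ∃ m' : M, X.trace • m' = (X * F).trace • m) :
    ∃ α : Module.End A M,
      (∀ m, X.trace • (F.trace • m - α m) = (X * F).trace • m) ∧
      α * α - algebraMap A _ F.trace * α + algebraMap A _ F.det = 0 ∧
      (α - algebraMap A _ (F 1 1)) * algebraMap A _ (X 0 1) +
        algebraMap A _ (F 0 1 * X 1 1) = 0 ∧
      (α - algebraMap A _ (F 1 1)) * algebraMap A _ (X 0 0) +
        algebraMap A _ (F 0 1 * X 1 0) = 0 := by
  have hc : ∀ a b : M, X.trace • a = X.trace • b → a = b := fun a b h =>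
    sub_eq_zero.mp (hinj _ (by rw [smul_sub, h, sub_self]))
  choose f hf using hdiv
  let α : Module.End A M :=
    { toFun := fun m => F.trace • m - f m
      map_add' := fun a b => hc _ _ (by
        simp only [smul_sub, smul_add, hf]
        abel)
      map_smul' := fun r a => hc _ _ (by
        simp only [RingHom.id_apply]
        rw [smul_comm X.trace r]
        simp only [smul_sub, hf, smul_smul]
        simp only [mul_comm, mul_left_comm]) }
  have hα : ∀ m, X.trace • α m = (X.trace * F.trace - (X * F).trace) • m := fun m => by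
    show X.trace • (F.trace • m - f m) = _
    rw [smul_sub, hf, smul_smul, sub_smul]
  refine ⟨α, fun m => ?_, ?_, ?_, ?_⟩
  · show X.trace • (F.trace • m - (F.trace • m - f m)) = _
    rw [sub_sub_cancel, hf]
  · refine LinearMap.ext fun m => hinj _ (hinj _ ?_)
    simp only [Module.End.mul_apply, LinearMap.add_apply, LinearMap.sub_apply,
      Module.algebraMap_end_apply, smul_add, smul_sub]
    simp only [smul_comm X.trace, hα, smul_smul, ← sub_smul, ← add_smul]
    convert zero_smul A m using 2
    linear_combination trace_mul_sq hdX hcomm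
  · refine LinearMap.ext fun m => hinj _ ?_
    simp only [Module.End.mul_apply, LinearMap.add_apply, LinearMap.sub_apply,
      Module.algebraMap_end_apply, map_smul, smul_add, smul_sub]
    simp only [smul_comm X.trace, hα, smul_smul, ← sub_smul, ← add_smul]
    convert zero_smul A m using 2
    linear_combination trace_mul_lineRel_zero_one hdX hcomm
  · refine LinearMap.ext fun m => hinj _ ?_
    simp only [Module.End.mul_apply, LinearMap.add_apply, LinearMap.sub_apply,
      Module.algebraMap_end_apply, map_smul, smul_add, smul_sub]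
    simp only [smul_comm X.trace, hα, smul_smul, ← sub_smul, ← add_smul]
    convert zero_smul A m using 2
    linear_combination trace_mul_lineRel_zero_zero hdX hcomm

/-- The eigenvalue operator is determined by its defining equation. -/
theorem eigenOp_unique (hinj : ∀ m : M, X.trace • m = 0 → m = 0) {α β : Module.End A M}
    (hα : ∀ m, X.trace • (F.trace • m - α m) = (X * F).trace • m)
    (hβ : ∀ m, X.trace • (F.trace • m - β m) = (X * F).trace • m) : α = β := by
  refine LinearMap.ext fun m => sub_eq_zero.mp (hinj _ ?_)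
  have := (hβ m).trans (hα m).symm
  rw [smul_sub, smul_sub, sub_right_inj] at this
  rw [smul_sub, this, sub_self]

end Powers

section Line

variable {A B : Type} [CommRing A] [CommRing B] [Algebra A B] {X F : M2 A} {α : B} {u : A}

/-- The position of the eigenline. -/
def eigenPos (F : M2 A) (α : B) (u : A) : B :=
  (α - algebraMap A B (F 1 1)) * algebraMap A B u

theorem lineVal_eigenPos (hu : u * F 0 1 = 1) :
    lineVal (eigenPos F α u) ((algebraMap A B).mapMatrix F) = α := by
  have hu' := congrArg (algebraMap A B) hu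
  simp only [map_mul, map_one] at hu'
  simp only [lineVal, eigenPos, RingHom.mapMatrix_apply, Matrix.map_apply]
  linear_combination (α - algebraMap A B (F 1 1)) * hu'

theorem stableLine_eigenPos (hu : u * F 0 1 = 1)
    (hα : α * α - algebraMap A B F.trace * α + algebraMap A B F.det = 0) :
    StableLine (eigenPos F α u) ((algebraMap A B).mapMatrix F) := by
  have hu' := congrArg (algebraMap A B) hu
  simp only [map_mul, map_one] at hu'
  simp only [Matrix.trace_fin_two, Matrix.det_fin_two, map_add, map_sub, map_mul] at hα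
  simp only [StableLine, eigenPos, RingHom.mapMatrix_apply, Matrix.map_apply]
  linear_combination (-algebraMap A B u) * hα -
    (algebraMap A B (F 1 0) + (α - algebraMap A B (F 1 1)) ^ 2 * algebraMap A B u) * hu'

theorem fixesLine_eigenPos (hu : u * F 0 1 = 1)
    (h1 : (α - algebraMap A B (F 1 1)) * algebraMap A B (X 0 1) +
      algebraMap A B (F 0 1 * X 1 1) = 0)
    (h0 : (α - algebraMap A B (F 1 1)) * algebraMap A B (X 0 0) +
      algebraMap A B (F 0 1 * X 1 0) = 0) :
    FixesLine (eigenPos F α u) ((algebraMap A B).mapMatrix (1 + X)) := by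
  have hu' := congrArg (algebraMap A B) hu
  simp only [map_mul, map_one] at hu'
  simp only [map_mul] at h0 h1
  constructor <;>
    simp only [eigenPos, RingHom.mapMatrix_apply, Matrix.map_apply, Matrix.add_apply,
      Matrix.one_apply_eq, map_add, map_one,
      Matrix.one_apply_ne (zero_ne_one : (0 : Fin 2) ≠ 1),
      Matrix.one_apply_ne (one_ne_zero : (1 : Fin 2) ≠ 0), zero_add]
  · linear_combination algebraMap A B u * h0 - algebraMap A B (X 1 0) * hu'
  · linear_combination algebraMap A B u * h1 - algebraMap A B (X 1 1) * hu'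

end Line

section Idempotent

variable {B : Type*} [CommRing B] {α t d r₀ r₁ w : B}

/-- Two roots with unit difference split the quadratic. -/
theorem eigen_idempotent (hα : α * α - t * α + d = 0) (ht : r₀ + r₁ = t) (hd : r₀ * r₁ = d)
    (hw : w * (r₀ - r₁) = 1) :
    IsIdempotentElem ((α - r₁) * w) ∧ α * ((α - r₁) * w) = r₀ * ((α - r₁) * w) ∧
      α * (1 - (α - r₁) * w) = r₁ * (1 - (α - r₁) * w) := by
  have hprod : (α - r₀) * (α - r₁) = 0 := by linear_combination hα + hd - α * ht
  refine ⟨?_, ?_, ?_⟩
  · show (α - r₁) * w * ((α - r₁) * w) = (α - r₁) * w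
    linear_combination w * w * hprod + (α - r₁) * w * hw
  · linear_combination w * hprod
  · linear_combination -w * hprod - (α - r₁) * hw

end Idempotent

end Fermat.Agent.TwoAdic.Patch
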