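import Fermat.Agent.TwoAdic.Patch.Defs
import Fermat.Agent.TwoAdic.Patch.EigenAlg
import Fermat.Agent.TwoAdic.Deform.Tame
import Fermat.Prelude.Thm_IsLocalRing_isAdicComplete_of_module_finite

/-!
# A summand with eigen lines at every auxiliary prime

On the module modulo the norms the operators `α = t - tr (X F) / y` exist and commute. Where the
residual eigenvalues differ they split the module by the two Hensel roots; a summand nonzero
modulo the parameters and `2` carries an action of the ring adjoining the auxiliary lines.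
-/

set_option autoImplicit false
set_option linter.style.haveILetI false

noncomputable section

namespace Fermat.Agent.TwoAdic.Patch

open IsLocalRing Fermat.Agent.Deform Fermat.Agent.TwoAdic.Deform
open scoped Pointwise

section Modules

variable {R P Q : Type} [CommRing R] [AddCommGroup P] [Module R P] [AddCommGroup Q] [Module R Q]

theorem map_mem_smul_top (f : P →ₗ[R] Q) {I : Ideal R} {x : P}
    (hx : x ∈ I • (⊤ : Submodule R P)) : f x ∈ I • (⊤ : Submodule R Q) := by
  have := Submodule.mem_map_of_mem (f := f) hx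
  rw [Submodule.map_smul''] at this
  exact Submodule.smul_mono le_rfl le_top this

theorem map_mem_sup_smul_top (f : P →ₗ[R] Q) {I J : Ideal R} {x : P}
    (hx : x ∈ I • (⊤ : Submodule R P) ⊔ J • ⊤) :
    f x ∈ I • (⊤ : Submodule R Q) ⊔ J • ⊤ := by
  obtain ⟨a, ha, b, hb, rfl⟩ := Submodule.mem_sup.mp hx
  rw [map_add]
  exact Submodule.add_mem_sup (map_mem_smul_top f ha) (map_mem_smul_top f hb)

theorem mem_sup_of_mkQ_mem {G : Submodule R P} {W : Submodule R P} {x : P}
    (hx : G.mkQ x ∈ W.map G.mkQ) : x ∈ G ⊔ W := by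
  rw [← Submodule.comap_map_mkQ]
  exact hx

theorem map_mkQ_smul_top (G : Submodule R P) (I : Ideal R) :
    (I • (⊤ : Submodule R P)).map G.mkQ = I • ⊤ := by
  rw [Submodule.map_smul'', Submodule.map_top, Submodule.range_mkQ]

theorem exists_eq_smul_of_mem_span_singleton {r : R} {x : P}
    (hx : x ∈ Ideal.span {r} • (⊤ : Submodule R P)) : ∃ z, x = r • z := by
  rw [Submodule.ideal_span_singleton_smul] at hx
  obtain ⟨z, _, hz⟩ := hx
  exact ⟨z, hz.symm⟩

theorem smul_mem_span_singleton_smul_top (r : R) (z : P) :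
    r • z ∈ Ideal.span {r} • (⊤ : Submodule R P) :=
  Submodule.smul_mem_smul (Ideal.mem_span_singleton_self r) trivial

end Modules

theorem lineVal_mul_trace_sub {A : Type} [CommRing A] {y : A} {F : M2 A} (h : StableLine y F) :
    lineVal y F * (F.trace - lineVal y F) = F.det := by
  unfold StableLine at h
  simp only [lineVal, Matrix.trace_fin_two, Matrix.det_fin_two]
  linear_combination F 0 1 * h

variable {O : Type} [CommRing O] [IsLocalRing O] {S : Setting O} {Lv : Level S}
variable {D : Aux S Lv} {n : ℕ} {a : O}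

namespace LevelDatum

variable (X : LevelDatum D n a)

/-- `r(φ_i)` in the basis at the prime. -/
abbrev frobM (i : D.ι) : M2 X.T := D.loc i X.r (D.φ i)

/-- `r(τ_i) - 1` in the basis at the prime. -/
abbrev nilM (i : D.ι) : M2 X.T := D.loc i X.r (D.τ i) - 1

theorem det_loc (i : D.ι) (σ : Gal) : (D.loc i X.r σ).det = (X.r σ).det :=
  Matrix.det_units_conj' _ _

theorem det_nilM (i : D.ι) : (X.nilM i).det = 0 := by
  have h : X.nilM i =
      (↑(D.basis i X.T)⁻¹ : M2 X.T) * (X.r (D.τ i) - 1) * (D.basis i X.T : M2 X.T) := by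
    rw [mul_sub, sub_mul, mul_one, Units.inv_mul]
    rfl
  rw [h, Matrix.det_units_conj']
  exact X.isLift.qdet _ (D.q_mem i) _ (D.P_over i) _ (D.τ_mem i)

theorem trace_nilM (i : D.ι) : (X.nilM i).trace = (X.r (D.τ i)).det - 1 := by
  have h := X.det_nilM i
  rw [← X.det_loc i (D.τ i)]
  simp only [nilM, Matrix.det_fin_two, Matrix.trace_fin_two, Matrix.sub_apply,
    Matrix.one_apply_eq, Matrix.one_apply_ne (zero_ne_one : (0 : Fin 2) ≠ 1),
    Matrix.one_apply_ne (one_ne_zero : (1 : Fin 2) ≠ 0), sub_zero] at h ⊢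
  linear_combination -h

theorem trace_nilM_mem (i : D.ι) : (X.nilM i).trace ∈ maximalIdeal X.T := by
  have hE := eigenData_aux (D := D) X.lifts (bot_le : (⊥ : Ideal X.T) ≤ maximalIdeal X.T)
  rw [Matrix.trace_fin_two]
  exact add_mem (hE.tame i 0 0) (hE.tame i 1 1)

theorem normElt_sub_mem (i : D.ι) :
    normElt D n X.r i - 2 ^ n ∈ Ideal.span {param D a X.r (some i)} := by
  rw [← Ideal.Quotient.eq_zero_iff_mem, map_sub, normElt, map_sum]
  have h : Ideal.Quotient.mk (Ideal.span {param D a X.r (some i)}) (X.r (D.τ i)).det = 1 := by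
    rw [← map_one (Ideal.Quotient.mk _), Ideal.Quotient.eq]
    exact Ideal.mem_span_singleton_self _
  simp only [map_pow, h, one_pow, Finset.sum_const, Finset.card_range, nsmul_one, map_ofNat]
  push_cast
  exact sub_self _

theorem normIdeal_smul_le {j : ℕ} (hj : j ≤ n) :
    normIdeal D n X.r • (⊤ : Submodule X.T X.M) ≤
      paramIdeal D a X.r • ⊤ ⊔ Ideal.span {(2 : X.T) ^ j} • ⊤ := by
  rw [← Submodule.sup_smul]
  refine Submodule.smul_mono_left ?_
  rw [normIdeal, Ideal.span_le]
  rintro _ ⟨i, rfl⟩
  have h1 : normElt D n X.r i = (normElt D n X.r i - 2 ^ n) + 2 ^ j * 2 ^ (n - j) := by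
    rw [← pow_add, Nat.add_sub_cancel' hj, sub_add_cancel]
  rw [SetLike.mem_coe, h1]
  refine Submodule.add_mem_sup ?_ (Ideal.mul_mem_right _ _ (Ideal.mem_span_singleton_self _))
  exact Ideal.span_mono (Set.singleton_subset_iff.mpr (Set.mem_range_self (some i)))
    (X.normElt_sub_mem i)

theorem normIdeal_le : normIdeal D n X.r ≤ maximalIdeal X.T := by
  rw [normIdeal, Ideal.span_le]
  rintro _ ⟨i, rfl⟩
  have h1 : normElt D n X.r i = (normElt D n X.r i - 2 ^ n) + 2 ^ n := (sub_add_cancel _ _).symm
  rw [SetLike.mem_coe, h1]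
  refine add_mem ?_ (Ideal.pow_mem_of_mem _ (S.two_mem X.res) n (by linarith [X.two_le]))
  refine (Ideal.span_singleton_le_iff_mem _).mpr ?_ (X.normElt_sub_mem i)
  show (X.r (D.τ i)).det - 1 ∈ maximalIdeal X.T
  rw [← X.trace_nilM i]
  exact X.trace_nilM_mem i

variable [IsNoetherianRing O] [IsAdicComplete (maximalIdeal O) O]

omit [IsAdicComplete (maximalIdeal O) O] in
theorem isNoetherianRing : IsNoetherianRing X.T := IsNoetherianRing.of_finite O X.T

theorem isAdicComplete : IsAdicComplete (maximalIdeal X.T) X.T :=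
  haveI := X.res.isLocalHom
  IsLocalRing.isAdicComplete_of_module_finite (𝒪 := O)

omit [IsAdicComplete (maximalIdeal O) O] in
theorem frobM_mul_nilM (i : D.ι) :
    X.frobM i * (1 + X.nilM i) = (1 + X.nilM i) ^ D.q i * X.frobM i := by
  haveI := X.isNoetherianRing
  have hq := Lv.prime_of_mem _ (D.q_mem i)
  have h := frobenius_mul_inertia X.cont X.lifts hq (Lv.ne_two _ (D.q_mem i))
    (Lv.notMem_T _ (D.q_mem i)) (D.P_over i) (D.φ_frob i) (D.τ_mem i)
  rw [← map_pow X.r, ← map_mul, ← map_mul] at h
  rw [add_sub_cancel, ← map_pow (D.loc i X.r), ← map_mul, ← map_mul]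
  simp only [Aux.loc, conjM_apply, h]

/-- The module modulo the norms. -/
abbrev normQuot : Type := X.M ⧸ (normIdeal D n X.r • (⊤ : Submodule X.T X.M))

omit [IsNoetherianRing O] [IsAdicComplete (maximalIdeal O) O] in
theorem smul_normQuot_eq_zero {c : X.T} (hc : c ∈ normIdeal D n X.r) (m : X.normQuot) :
    c • m = 0 := by
  obtain ⟨m, rfl⟩ := Submodule.Quotient.mk_surjective _ m
  rw [← Submodule.Quotient.mk_smul, Submodule.Quotient.mk_eq_zero]
  exact Submodule.smul_mem_smul hc trivial

omit [IsAdicComplete (maximalIdeal O) O] in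
/-- `tr (X F)` is divisible by `y` on the module. -/
theorem exists_smul_eq (i : D.ι) (m : X.M) :
    ∃ z : X.M, (X.nilM i * X.frobM i).trace • m = param D a X.r (some i) • z := by
  have hy : (X.nilM i).trace = param D a X.r (some i) := X.trace_nilM i
  set g := (X.nilM i * X.frobM i).trace
  have h1 := cast_sub_one_mul_trace_mem (X.det_nilM i) (X.frobM_mul_nilM i)
  rw [hy] at h1
  have hq := Lv.prime_of_mem _ (D.q_mem i)
  obtain ⟨k, u, hu, hku⟩ : ∃ k u : ℕ, ¬ 2 ∣ u ∧ D.q i - 1 = 2 ^ k * u :=
    Nat.exists_eq_pow_mul_and_not_dvd (by have := hq.two_le; omega) 2 (by norm_num)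
  have hcast : (D.q i : X.T) - 1 = 2 ^ k * (u : X.T) := by
    have := congrArg (fun t : ℕ => (t : X.T)) hku
    simpa [Nat.cast_sub hq.one_le] using this
  have hunit : IsUnit (u : X.T) := by
    obtain ⟨j, rfl⟩ := Nat.odd_iff.mpr (Nat.two_dvd_ne_zero.mp hu)
    by_contra hn
    refine (maximalIdeal.isMaximal X.T).ne_top ((Ideal.eq_top_iff_one _).mpr ?_)
    have := sub_mem (show ((2 * j + 1 : ℕ) : X.T) ∈ maximalIdeal X.T from hn)
      (Ideal.mul_mem_right (j : X.T) _ (S.two_mem X.res))
    push_cast at this
    simp at this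
  have key : ∀ (k : ℕ) (w : X.M),
      (2 : X.T) ^ k • w ∈ Ideal.span {param D a X.r (some i)} • (⊤ : Submodule X.T X.M) →
        w ∈ Ideal.span {param D a X.r (some i)} • (⊤ : Submodule X.T X.M) := by
    intro k
    induction k with
    | zero => intro w hw; simpa using hw
    | succ k ih =>
      intro w hw
      rw [pow_succ, mul_smul] at hw
      exact X.modFree i w (ih _ hw)
  have h2 : (u : X.T) • (g • m) ∈
      Ideal.span {param D a X.r (some i)} • (⊤ : Submodule X.T X.M) := by
    refine key k _ ?_
    rw [smul_smul, smul_smul, ← hcast]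
    exact Submodule.smul_mem_smul h1 trivial
  have h3 := Submodule.smul_mem _ (↑hunit.unit⁻¹ : X.T) h2
  rw [smul_smul, IsUnit.val_inv_mul, one_smul] at h3
  exact exists_eq_smul_of_mem_span_singleton h3

omit [IsAdicComplete (maximalIdeal O) O] in
theorem exists_alpha (i : D.ι) : ∃ α : Module.End X.T X.normQuot,
    (∀ m, param D a X.r (some i) • ((X.frobM i).trace • m - α m) =
      (X.nilM i * X.frobM i).trace • m) ∧
    α * α - algebraMap X.T _ (X.frobM i).trace * α + algebraMap X.T _ (X.frobM i).det = 0 ∧
    (α - algebraMap X.T _ (X.frobM i 1 1)) * algebraMap X.T _ (X.nilM i 0 1) +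
      algebraMap X.T _ (X.frobM i 0 1 * X.nilM i 1 1) = 0 ∧
    (α - algebraMap X.T _ (X.frobM i 1 1)) * algebraMap X.T _ (X.nilM i 0 0) +
      algebraMap X.T _ (X.frobM i 0 1 * X.nilM i 1 0) = 0 := by
  let f := Ideal.Quotient.mk (normIdeal D n X.r)
  have hsmul : ∀ (c : X.T) (m : X.normQuot), f c • m = c • m := fun c m => rfl
  have htr' : ∀ G : M2 X.T, (f.mapMatrix G).trace = f G.trace := fun G => by
    rw [Matrix.trace_fin_two, Matrix.trace_fin_two, map_add]; rfl
  have htr : (f.mapMatrix (X.nilM i)).trace = f (param D a X.r (some i)) :=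
    (htr' _).trans (congrArg f (X.trace_nilM i))
  have hdX : (f.mapMatrix (X.nilM i)).det = 0 := by
    rw [← RingHom.map_det, X.det_nilM, map_zero]
  have hnorm : ∑ j ∈ Finset.range (2 ^ n), (1 + (f.mapMatrix (X.nilM i)).trace) ^ j = 0 := by
    have h : f (normElt D n X.r i) = 0 :=
      Ideal.Quotient.eq_zero_iff_mem.mpr (Ideal.subset_span (Set.mem_range_self i))
    rw [normElt, map_sum] at h
    simp only [map_pow] at h
    rw [htr]
    simp only [param, map_sub, map_one, add_sub_cancel]
    exact h
  have hcomm : f.mapMatrix (X.frobM i) * f.mapMatrix (X.nilM i) =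
      f.mapMatrix (X.nilM i) * f.mapMatrix (X.frobM i) :=
    commute_of_norm_eq_zero (q := D.q i) hdX
      (by
        have := congrArg f.mapMatrix (X.frobM_mul_nilM i)
        rwa [map_mul, map_mul, map_pow, map_add, map_one] at this)
      (X.q_mod i) hnorm
  obtain ⟨α, hα, hq, h1, h0⟩ :=
    exists_eigenOp (M := X.normQuot) hdX hcomm
      (fun m hm => by
        rw [htr, hsmul] at hm
        obtain ⟨m, rfl⟩ := Submodule.Quotient.mk_surjective _ m
        rw [← Submodule.Quotient.mk_smul, Submodule.Quotient.mk_eq_zero] at hm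
        exact (Submodule.Quotient.mk_eq_zero _).mpr (X.regular i m hm))
      (fun m => by
        obtain ⟨m, rfl⟩ := Submodule.Quotient.mk_surjective _ m
        obtain ⟨z, hz⟩ := X.exists_smul_eq i m
        refine ⟨Submodule.Quotient.mk z, ?_⟩
        rw [htr, ← map_mul, htr', hsmul, hsmul,
          ← Submodule.Quotient.mk_smul, ← Submodule.Quotient.mk_smul, hz])
  refine ⟨α.restrictScalars X.T, fun m => ?_, LinearMap.ext fun m => ?_,
    LinearMap.ext fun m => ?_, LinearMap.ext fun m => ?_⟩
  · have := hα m
    rw [htr, ← map_mul, htr', htr', hsmul, hsmul, hsmul] at this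
    exact this
  · have := LinearMap.congr_fun hq m
    simp only [Module.End.mul_apply, LinearMap.add_apply, LinearMap.sub_apply,
      LinearMap.zero_apply, Module.algebraMap_end_apply, ← RingHom.map_det, htr', hsmul] at this
    exact this
  · have := LinearMap.congr_fun h1 m
    simp only [Module.End.mul_apply, LinearMap.add_apply, LinearMap.sub_apply,
      LinearMap.zero_apply, Module.algebraMap_end_apply, RingHom.mapMatrix_apply, Matrix.map_apply,
      ← map_mul, hsmul] at this
    exact this
  · have := LinearMap.congr_fun h0 m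
    simp only [Module.End.mul_apply, LinearMap.add_apply, LinearMap.sub_apply,
      LinearMap.zero_apply, Module.algebraMap_end_apply, RingHom.mapMatrix_apply, Matrix.map_apply,
      ← map_mul, hsmul] at this
    exact this

/-- The eigenvalue operator at an auxiliary prime. -/
def alpha (i : D.ι) : Module.End X.T X.normQuot := (X.exists_alpha i).choose

omit [IsAdicComplete (maximalIdeal O) O] in
theorem alpha_commute (i j : D.ι) : X.alpha i * X.alpha j = X.alpha j * X.alpha i := by
  have hinj : ∀ (i : D.ι) (m m' : X.normQuot),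
      param D a X.r (some i) • m = param D a X.r (some i) • m' → m = m' := by
    intro i m m' h
    rw [← sub_eq_zero, ← smul_sub] at h
    rw [← sub_eq_zero]
    obtain ⟨v, hv⟩ := Submodule.Quotient.mk_surjective _ (m - m')
    rw [← hv, ← Submodule.Quotient.mk_smul, Submodule.Quotient.mk_eq_zero] at h
    rw [← hv]
    exact (Submodule.Quotient.mk_eq_zero _).mpr (X.regular i v h)
  have hα : ∀ i m, param D a X.r (some i) • X.alpha i m =
      (param D a X.r (some i) * (X.frobM i).trace - (X.nilM i * X.frobM i).trace) • m := by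
    intro i m
    have := (X.exists_alpha i).choose_spec.1 m
    rw [smul_sub, sub_eq_iff_eq_add] at this
    rw [sub_smul, mul_smul, this]
    exact (add_sub_cancel_left _ _).symm
  refine LinearMap.ext fun m => hinj i _ _ (hinj j _ _ ?_)
  simp only [Module.End.mul_apply]
  rw [hα i, ← map_smul (X.alpha j) _ (X.alpha i m), hα i, map_smul]

/-- The algebra generated by the eigenvalue operators. -/
def alphaAlg : Subalgebra X.T (Module.End X.T X.normQuot) :=
  Algebra.adjoin X.T (Set.range X.alpha)

instance instCommRingAlphaAlg : CommRing X.alphaAlg :=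
  { (inferInstance : Ring X.alphaAlg) with
    mul_comm := (Algebra.isMulCommutative_adjoin X.T (s := Set.range X.alpha) (by
      rintro _ ⟨i, rfl⟩ _ ⟨j, rfl⟩
      exact X.alpha_commute i j)).is_comm.comm }

/-- The eigenvalue operator in the commutative algebra. -/
def alphaC (i : D.ι) : X.alphaAlg :=
  ⟨X.alpha i, Algebra.subset_adjoin (Set.mem_range_self i)⟩

omit [IsAdicComplete (maximalIdeal O) O] in
theorem alphaC_quad (i : D.ι) :
    X.alphaC i * X.alphaC i - algebraMap X.T _ (X.frobM i).trace * X.alphaC i +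
      algebraMap X.T _ (X.frobM i).det = 0 :=
  Subtype.ext (X.exists_alpha i).choose_spec.2.1

/-- The eigenvalue with residual value the entry `(1, 1)`. -/
def rootZero (i : D.ι) : X.T := lineVal (eigenRoot (X.frobM i)) (X.frobM i)

/-- The chosen root. -/
def root (i : D.ι) (b : Bool) : X.T :=
  if b then (X.frobM i).trace - X.rootZero i else X.rootZero i

theorem root_facts (i : D.ι) (hi : D.isU i = false) :
    X.rootZero i - X.frobM i 1 1 ∈ maximalIdeal X.T ∧
      X.rootZero i * ((X.frobM i).trace - X.rootZero i) = (X.frobM i).det ∧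
      IsUnit (X.root i false - X.root i true) := by
  haveI := X.isAdicComplete
  have hE := eigenData_aux (D := D) X.lifts (bot_le : (⊥ : Ideal X.T) ≤ maximalIdeal X.T)
  obtain ⟨hy, hyF⟩ := eigenRoot_spec (hE.lower i) (hE.upper i) (hE.notMem hi)
  refine ⟨?_, lineVal_mul_trace_sub hyF, ?_⟩
  · rw [rootZero, lineVal, add_sub_cancel_right]
    exact Ideal.mul_mem_right _ _ hy
  · by_contra h
    refine hE.notMem hi ?_
    have := sub_mem (Ideal.mul_mem_left (maximalIdeal X.T) (2 * X.frobM i 0 1) hy)
      (show X.root i false - X.root i true ∈ maximalIdeal X.T from h)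
    simp only [root, Bool.false_eq_true, if_false, if_true, rootZero, lineVal,
      Matrix.trace_fin_two] at this
    convert this using 1
    show X.frobM i 0 0 - X.frobM i 1 1 = _
    ring

/-- The idempotent selecting a root. -/
def idem (i : D.ι) (b : Bool) : X.alphaAlg :=
  let e := (X.alphaC i - algebraMap X.T _ (X.root i true)) *
    algebraMap X.T _ (Ring.inverse (X.root i false - X.root i true))
  if D.isU i then (if b then 0 else 1) else (if b then 1 - e else e)

theorem idem_spec (i : D.ι) :
    X.idem i false + X.idem i true = 1 ∧ ∀ b, IsIdempotentElem (X.idem i b) ∧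
      (D.isU i = false → X.alphaC i * X.idem i b = algebraMap X.T _ (X.root i b) * X.idem i b) := by
  cases hi : D.isU i
  swap
  · refine ⟨by simp [idem, hi], fun b => ⟨?_, by simp⟩⟩
    cases b <;> simp [idem, hi, IsIdempotentElem]
  obtain ⟨-, hd, hu⟩ := X.root_facts i hi
  have h := eigen_idempotent (α := X.alphaC i) (r₀ := algebraMap X.T _ (X.root i false))
    (r₁ := algebraMap X.T _ (X.root i true))
    (w := algebraMap X.T _ (Ring.inverse (X.root i false - X.root i true))) (X.alphaC_quad i)
    (by rw [← map_add]; congr 1; simp [root])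
    (by rw [← map_mul]; congr 1)
    (by rw [← map_sub, ← map_mul, Ring.inverse_mul_cancel _ hu, map_one])
  obtain ⟨he, h0, h1⟩ := h
  refine ⟨by simp [idem, hi], fun b => ?_⟩
  cases b
  · exact ⟨by simpa [idem, hi] using he, fun _ => by simpa [idem, hi] using h0⟩
  · exact ⟨by simpa [idem, hi] using he.one_sub, fun _ => by simpa [idem, hi] using h1⟩

/-- The idempotent of a choice of roots at all primes. -/
def totalIdem (s : D.ι → Bool) : X.alphaAlg := ∏ i, X.idem i (s i)

theorem sum_totalIdem : ∑ s : D.ι → Bool, X.totalIdem s = 1 := by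
  simp only [totalIdem]
  rw [← Fintype.prod_sum fun i b => X.idem i b]
  refine Finset.prod_eq_one fun i _ => ?_
  rw [Fintype.sum_bool, add_comm]
  exact (X.idem_spec i).1

theorem isIdempotentElem_totalIdem (s : D.ι → Bool) : IsIdempotentElem (X.totalIdem s) := by
  show _ * _ = _
  rw [totalIdem, ← Finset.prod_mul_distrib]
  exact Finset.prod_congr rfl fun i _ => ((X.idem_spec i).2 (s i)).1

theorem alphaC_mul_totalIdem (s : D.ι → Bool) (i : D.ι) (hi : D.isU i = false) :
    X.alphaC i * X.totalIdem s = algebraMap X.T _ (X.root i (s i)) * X.totalIdem s := by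
  rw [totalIdem, ← Finset.mul_prod_erase _ _ (Finset.mem_univ i), ← mul_assoc, ← mul_assoc,
    ((X.idem_spec i).2 (s i)).2 hi]

/-- Some choice of roots survives modulo the parameters and `2`. -/
theorem exists_choice : ∃ (s : D.ι → Bool) (m : X.normQuot),
    X.totalIdem s • m ∉
      paramIdeal D a X.r • (⊤ : Submodule X.T X.normQuot) ⊔ Ideal.span {(2 : X.T)} • ⊤ := by
  by_contra h
  simp only [not_exists, not_not] at h
  refine X.nontrivial (eq_top_iff.mpr fun v _ => ?_)
  set G := normIdeal D n X.r • (⊤ : Submodule X.T X.M)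
  have hv : G.mkQ v ∈
      (paramIdeal D a X.r • (⊤ : Submodule X.T X.M) ⊔ Ideal.span {(2 : X.T)} • ⊤).map G.mkQ := by
    rw [Submodule.map_sup, map_mkQ_smul_top, map_mkQ_smul_top,
      show G.mkQ v = ∑ s : D.ι → Bool, X.totalIdem s • G.mkQ v by
        rw [← Finset.sum_smul, X.sum_totalIdem, one_smul]]
    exact sum_mem fun s _ => h s _
  have hle := X.normIdeal_smul_le (j := 1) (by linarith [X.two_le])
  rw [pow_one] at hle
  exact sup_le hle le_rfl (mem_sup_of_mkQ_mem hv)

theorem lineVal_eigenRoot_flip (s : D.ι → Bool) (i : D.ι) (hi : D.isU i = false) :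
    lineVal (eigenRoot ((D.flip s).frobMat X.r i) - algebraMap O X.T (D.flipShift s i))
      (X.frobM i) = X.root i (s i) := by
  haveI := X.isAdicComplete
  have hE := eigenData_aux (D := D) X.lifts (bot_le : (⊥ : Ideal X.T) ≤ maximalIdeal X.T)
  have hE' := eigenData_aux (D := D.flip s) X.lifts (bot_le : (⊥ : Ideal X.T) ≤ maximalIdeal X.T)
  obtain ⟨hz, hzF⟩ := eigenRoot_spec (hE'.lower i) (hE'.upper i) (hE'.notMem hi)
  obtain ⟨hr0, hd0, hu⟩ := X.root_facts i hi
  set z := eigenRoot ((D.flip s).frobMat X.r i)
  set c := algebraMap O X.T (D.flipShift s i)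
  have hst : StableLine (z - c) (X.frobM i) := by
    refine (D.stableLine_flip_iff s i X.r (D.φ i) (z - c)).mp ?_
    rw [sub_add_cancel]
    exact hzF
  set ρ := lineVal (z - c) (X.frobM i) with hρ
  have hd := lineVal_mul_trace_sub hst
  rw [← hρ] at hd
  have hprod : (ρ - X.root i false) * (ρ - X.root i true) = 0 := by
    simp only [root, Bool.false_eq_true, if_false, if_true]
    linear_combination hd0 - hd
  have hclose : ρ - X.root i (s i) ∈ maximalIdeal X.T := by
    cases hs : s i
    · have hc : D.flipShift s i = 0 := by simp [Aux.flipShift, hs]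
      simp only [root, Bool.false_eq_true, if_false]
      have := sub_mem (Ideal.mul_mem_right (X.frobM i 0 1) _ hz) hr0
      rw [hρ, lineVal, show c = 0 by simp [c, hc]]
      convert this using 1
      ring
    · have hc : residue O (D.flipShift s i) * residualAt S (D.g i) (D.φ i) 0 1 =
          residualAt S (D.g i) (D.φ i) 1 1 - residualAt S (D.g i) (D.φ i) 0 0 := by
        rw [← D.residue_flipShift i hi]
        simp [Aux.flipShift, hs, hi]
      have hcm : c * X.frobM i 0 1 - (X.frobM i 1 1 - X.frobM i 0 0) ∈ maximalIdeal X.T := by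
        rw [← augment_eq_zero_iff X.res, map_sub, map_mul, map_sub, AlgHom.commutes,
          ResidueField.algebraMap_eq, augment_loc X.lifts, augment_loc X.lifts,
          augment_loc X.lifts, hc, sub_self]
      simp only [root, if_true]
      have := add_mem (sub_mem (Ideal.mul_mem_right (X.frobM i 0 1) _ hz) hcm) hr0
      rw [hρ, lineVal, Matrix.trace_fin_two]
      convert this using 1
      ring
  cases hs : s i <;> rw [hs] at hclose
  · refine sub_eq_zero.mp ((IsUnit.mul_left_eq_zero ?_).mp hprod)
    by_contra hn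
    refine (IsLocalRing.mem_maximalIdeal _).mp ?_ hu
    have := sub_mem (show ρ - X.root i true ∈ maximalIdeal X.T from hn) hclose
    rwa [sub_sub_sub_cancel_left] at this
  · refine sub_eq_zero.mp ((IsUnit.mul_right_eq_zero ?_).mp hprod)
    by_contra hn
    refine (IsLocalRing.mem_maximalIdeal _).mp ?_ hu
    have := sub_mem hclose (show ρ - X.root i false ∈ maximalIdeal X.T from hn)
    rwa [sub_sub_sub_cancel_left] at this

end LevelDatum

variable [IsNoetherianRing O] [IsAdicComplete (maximalIdeal O) O]

/-- **The eigen module.** -/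
theorem exists_eigenModule (X : LevelDatum D n a) : Nonempty (EigenModule X) := by
  classical
  obtain ⟨s, m₀, hm₀⟩ := X.exists_choice
  haveI := X.isAdicComplete
  haveI := X.isNoetherianRing
  haveI : Module.Finite X.T X.M := Module.Finite.of_restrictScalars_finite O X.T X.M
  set e := X.totalIdem s with he
  let J : Ideal X.alphaAlg := Ideal.span {1 - e}
  let W : Submodule X.alphaAlg X.normQuot := J • ⊤
  let N := X.normQuot ⧸ W
  let A := X.alphaAlg ⧸ J
  -- the relations in `A`
  have hsplit : ∀ i, D.isU i = false →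
      algebraMap X.alphaAlg A (X.alphaC i) = algebraMap X.T A (X.root i (s i)) := by
    intro i hi
    have h1 : algebraMap X.alphaAlg A e = 1 := by
      rw [← map_one (algebraMap X.alphaAlg A)]
      refine (Ideal.Quotient.eq.mpr ?_).symm
      exact Ideal.mem_span_singleton_self _
    have := congrArg (algebraMap X.alphaAlg A) (X.alphaC_mul_totalIdem s i hi)
    rwa [map_mul, map_mul, ← he, h1, mul_one, mul_one, ← IsScalarTower.algebraMap_apply] at this
  have hG : ∀ c ∈ normIdeal D n X.r, algebraMap X.T A c = 0 := by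
    intro c hc
    have : algebraMap X.T X.alphaAlg c = 0 :=
      Subtype.ext (LinearMap.ext fun m => X.smul_normQuot_eq_zero hc m)
    rw [IsScalarTower.algebraMap_apply X.T X.alphaAlg A, this, map_zero]
  have hE := eigenData_aux (D := D) X.lifts (bot_le : (⊥ : Ideal X.T) ≤ maximalIdeal X.T)
  let u : D.ι → X.T := fun i => Ring.inverse (X.frobM i 0 1)
  have hu : ∀ i, u i * X.frobM i 0 1 = 1 := fun i => Ring.inverse_mul_cancel _ (hE.upper i)
  let x : D.ι → A := fun i =>
    eigenPos (X.frobM i) (algebraMap X.alphaAlg A (X.alphaC i)) (u i) +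
      algebraMap X.T A (algebraMap O X.T (D.flipShift s i))
  have hmap : ∀ i (σ : Gal), (algebraMap X.T A).mapMatrix ((D.flip s).loc i X.r σ) =
      shear (algebraMap X.T A (algebraMap O X.T (D.flipShift s i)))
        ((algebraMap X.T A).mapMatrix (D.loc i X.r σ)) := fun i σ => by
    rw [D.loc_flip, shear_map]
  have hS : ∀ i, StableLine (x i) ((algebraMap X.T A).mapMatrix ((D.flip s).frobMat X.r i)) := by
    intro i
    rw [show (D.flip s).frobMat X.r i = (D.flip s).loc i X.r (D.φ i) from rfl, hmap,
      stableLine_shear_iff]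
    refine stableLine_eigenPos (hu i) ?_
    have := congrArg (algebraMap X.alphaAlg A) (X.alphaC_quad i)
    simpa [← IsScalarTower.algebraMap_apply] using this
  have hT : ∀ i, FixesLine (x i) ((algebraMap X.T A).mapMatrix ((D.flip s).tameMat X.r i)) := by
    intro i
    rw [show (D.flip s).tameMat X.r i = (D.flip s).loc i X.r (D.τ i) from rfl, hmap,
      fixesLine_shear_iff, show D.loc i X.r (D.τ i) = 1 + X.nilM i from (add_sub_cancel _ _).symm]
    have h := (X.exists_alpha i).choose_spec.2.2
    refine fixesLine_eigenPos (hu i) ?_ ?_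
    · have h' : (X.alphaC i - algebraMap X.T _ (X.frobM i 1 1)) *
          algebraMap X.T _ (X.nilM i 0 1) +
            algebraMap X.T X.alphaAlg (X.frobM i 0 1 * X.nilM i 1 1) = 0 := Subtype.ext h.1
      have := congrArg (algebraMap X.alphaAlg A) h'
      simpa [← IsScalarTower.algebraMap_apply] using this
    · have h' : (X.alphaC i - algebraMap X.T _ (X.frobM i 1 1)) *
          algebraMap X.T _ (X.nilM i 0 0) +
            algebraMap X.T X.alphaAlg (X.frobM i 0 1 * X.nilM i 1 0) = 0 := Subtype.ext h.2
      have := congrArg (algebraMap X.alphaAlg A) h'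
      simpa [← IsScalarTower.algebraMap_apply] using this
  have hroot : ∀ i, (D.flip s).isU i = false →
      x i = algebraMap X.T A (eigenRoot ((D.flip s).frobMat X.r i)) := by
    intro i hi
    have hr := congrArg (algebraMap X.T A) (X.lineVal_eigenRoot_flip s i hi)
    have hu' := congrArg (algebraMap X.T A) (hu i)
    rw [← hsplit i hi, lineVal] at hr
    simp only [map_add, map_mul, map_sub, map_one] at hr hu'
    simp only [x, eigenPos, ← hr]
    linear_combination (algebraMap X.T A (eigenRoot ((D.flip s).frobMat X.r i)) -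
      algebraMap X.T A (algebraMap O X.T (D.flipShift s i))) * hu'
  -- the ring and the summand
  have hloc := isLocalRing_ring (D := D.flip s) X.lifts X.normIdeal_le
  have sp := ringSpec (D := D.flip s) X.lifts X.normal X.cont X.isLift X.normIdeal_le
  let B := (D.flip s).Ring X.r (normIdeal D n X.r)
  obtain ⟨φ, hφ⟩ := exists_eigenHom ((D.flip s).frobMat X.r) ((D.flip s).tameMat X.r)
    (D.flip s).isU (normIdeal D n X.r) x hS hT hroot hG
  let modB : Module B N := Module.compHom N φ.toRingHom
  haveI towerN : IsScalarTower X.T B N := by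
    refine ⟨fun c b v => ?_⟩
    show φ (c • b) • v = c • (φ b • v)
    rw [show φ (c • b) = c • φ b from φ.toLinearMap.map_smul c b]
    exact smul_assoc c (φ b) v
  let π : X.M →ₗ[X.T] N := (W.mkQ.restrictScalars X.T).comp (Submodule.mkQ _)
  have hπ : Function.Surjective π :=
    W.mkQ_surjective.comp (Submodule.mkQ_surjective _)
  let σ : N →ₗ[X.T] X.normQuot :=
    (W.liftQ (LinearMap.lsmul X.alphaAlg X.normQuot e) (by
      refine Submodule.smul_le.mpr fun c hc v _ => ?_
      obtain ⟨d, rfl⟩ := Ideal.mem_span_singleton'.mp hc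
      show e • (d * (1 - e)) • v = 0
      rw [smul_smul, ← mul_assoc, mul_comm e d, mul_assoc, mul_sub, mul_one,
        (X.isIdempotentElem_totalIdem s).eq, sub_self, mul_zero, zero_smul])).restrictScalars X.T
  have hσ : ∀ v, W.mkQ (σ v) = v := by
    intro v
    obtain ⟨v, rfl⟩ := W.mkQ_surjective v
    show W.mkQ (e • v) = W.mkQ v
    refine (Submodule.Quotient.eq W).mpr ?_
    rw [show e • v - v = -((1 - e) • v) by rw [sub_smul, one_smul, neg_sub]]
    exact neg_mem (Submodule.smul_mem_smul (Ideal.mem_span_singleton_self _) trivial)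
  have hlift : ∀ v : N, ∃ w : X.M, Submodule.Quotient.mk w = σ v ∧ π w = v := fun v => by
    obtain ⟨w, hw⟩ := Submodule.Quotient.mk_surjective _ (σ v)
    exact ⟨w, hw, (congrArg W.mkQ hw).trans (hσ v)⟩
  choose lift hlift hπlift using hlift
  haveI := sp.finite
  haveI := sp.localHom
  haveI : Module.Finite X.T N := Module.Finite.of_surjective π hπ
  refine ⟨{
    s := s
    B := B
    isLocalRing := hloc
    finiteB := Module.Finite.trans X.T B
    res := sp.resAlg
    isLocalHom := sp.localHom
    x := eigenX _ _ _ _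
    x_mem := sp.mem
    eigen := sp.eigen
    N := N
    moduleB := modB
    towerN := towerN
    finiteN := Module.Finite.of_restrictScalars_finite X.T B N
    π := π
    π_surjective := hπ
    freeSq := ?_
    modFree := ?_
    nontrivial := ?_ }⟩
  · intro u hu o
    rw [← hπlift (u o)]
    refine map_mem_sup_smul_top π (X.freeSq (fun o => lift (u o)) ?_ o)
    refine mem_sup_of_mkQ_mem ?_
    rw [map_mkQ_smul_top, map_sum]
    simpa only [map_sum, map_smul, Submodule.mkQ_apply, hlift] using map_mem_smul_top σ hu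
  · intro j hj v hv
    rw [← hπlift v]
    refine map_mem_sup_smul_top π ?_
    have := map_mem_sup_smul_top σ hv
    rw [map_smul, ← hlift, ← Submodule.Quotient.mk_smul, ← map_mkQ_smul_top, ← map_mkQ_smul_top,
      ← Submodule.map_sup] at this
    obtain ⟨p, hp, t, ht, hpt⟩ := Submodule.mem_sup.mp
      (sup_le (X.normIdeal_smul_le hj) le_rfl (mem_sup_of_mkQ_mem this))
    obtain ⟨z, rfl⟩ := exists_eq_smul_of_mem_span_singleton ht
    have h2 : lift v - (2 : X.T) ^ j • z ∈ paramIdeal D a X.r • (⊤ : Submodule X.T X.M) := by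
      refine X.zeroFree _ ?_
      rw [smul_sub, smul_smul, ← pow_succ', ← hpt, add_sub_cancel_right]
      exact hp
    rw [show lift v = (lift v - (2 : X.T) ^ j • z) + (2 : X.T) ^ j • z from
      (sub_add_cancel _ _).symm]
    exact Submodule.add_mem_sup h2 (smul_mem_span_singleton_smul_top _ _)
  · intro htop
    refine hm₀ ?_
    exact map_mem_sup_smul_top σ (htop.symm ▸ Submodule.mem_top (x := W.mkQ m₀))

end Fermat.Agent.TwoAdic.Patch
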