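import Fermat.Agent.TwoAdic.Patch.Conclude
import Fermat.Agent.TwoAdic.Patch.Point
import Fermat.Agent.TwoAdic.Patch.Datum
import Fermat.Agent.TwoAdic.Patch.Star

/-!
# The point of the curve is a system of the big level
-/

set_option autoImplicit false
set_option linter.style.haveILetI false

noncomputable section

namespace Fermat.Agent.TwoAdic.Patch

open IsLocalRing Fermat.Agent.Deform Fermat.Agent.Arith Fermat.Agent.TwoAdic.Curve
open Fermat.Agent.TwoAdic.Deform (Setting Level Aux curveSetting IsLift signDefect SelmerBound)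

variable {O : Type} [CommRing O] [IsDomain O] [IsDiscreteValuationRing O]
  [IsAdicComplete (maximalIdeal O) O] [Finite (ResidueField O)] [CharZero O] [Algebra ℤ_[2] O]

variable {W : WeierstrassCurve ℤ} {h : IsTwoAdicCurve W} {h2 : (2 : O) ∈ maximalIdeal O}
variable {Lv : Level (curveSetting h h2)} {D : Aux (curveSetting h h2) Lv} {n : ℕ}

/-- **The system of the curve at the big level.** -/
theorem exists_curve_system (hπ : maximalIdeal O = Ideal.span {(2 : O)}) (hO : IsResAlg O O)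
    (hL : HasLineRing O) (B : BigDatum D n) (hn2 : 2 ≤ n)
    (hq : ∀ i, D.q i ≡ 1 [MOD 2 ^ n])
    (hgen : ∀ t : B.T, ∃ p : MvPolynomial (Gal × Fin 2 × Fin 2) O,
      t - MvPolynomial.aeval (fun s : Gal × Fin 2 × Fin 2 => B.r s.1 s.2.1 s.2.2) p ∈ bigDiaIdeal B)
    {m : ℕ} (hsel : ∀ s, SelmerBound (D.flip s) m) (hm : m + D.numU = Fintype.card D.ι + 1)
    (hZ : ¬ (2 : O) ^ n ∣ ∏ i, ((W.apOfModel (D.q i) : O) ^ 2 - ((D.q i : O) + 1) ^ 2)) :
    ∃ θ : B.T →ₐ[O] O, (∀ i, θ (B.δ i) = 1) ∧ θ B.g = 1 ∧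
      ∀ ℓ : ℕ, ℓ.Prime → W.IsGoodPrimeFor ℓ → ℓ ≠ 2 →
        ∀ P : ValuationSubring QBar, P.LiesOverPrime ℓ → ∀ σ : Gal, P.IsFrobeniusAt σ ℓ →
          θ ((B.r σ).trace) = (W.apOfModel ℓ : O) := by
  obtain ⟨rW, a, hc, hl, hn, hi, hfr, hres, haa, hpt⟩ := exists_point h h2 hO
  obtain ⟨-, hdef, hD⟩ := hpt Lv
  obtain ⟨X, hXp⟩ := exists_levelDatum h2 B hn2 hq (a := a) (by
    rcases mul_self_eq_one_iff.mp haa with e | e
    exacts [Or.inl e, Or.inr e])
  obtain ⟨E⟩ := exists_eigenModule X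
  obtain ⟨θ, hθ, hθδ, hθg⟩ := exists_system hπ hL hres B X E hXp hgen hl hn hc hi hdef
    (fun i => (hD D i).1) hsel hm (by simpa only [(hD D _).2.2.1] using hZ)
  refine ⟨θ, hθδ, hθg, fun ℓ hℓ hg hℓ2 P hP σ hσ => ?_⟩
  rw [← (hfr ℓ hℓ hg hℓ2 P hP σ hσ).1, Matrix.trace_fin_two, Matrix.trace_fin_two, map_add, hθ, hθ]

end Fermat.Agent.TwoAdic.Patch
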