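import Fermat.Agent.TwoAdic.Module.Glue.Algebra
import Fermat.Agent.Arith.Frobenius
import Fermat.Prelude.Def_EllipticCurve_FrobeniusTrace

/-!
# The entries generate the Hecke algebra modulo the diamonds

The hypothesis `hgen` of `Patch.exists_system` for a `HeckeData`, and the system of the complex
point given by an algebra map with the entries of the curve.
-/

set_option autoImplicit false

noncomputable section

namespace Fermat.Agent.TwoAdic.Patch

open IsLocalRing Fermat.Agent.Deform Fermat.Agent.Arith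
open Fermat.Agent.TwoAdic.Module (HeckeData diaA TA)

/-- If `d δ ≡ 1` modulo `J` on a generating set, then everywhere. -/
theorem sub_one_mem_of_closure_eq_top {T : Type} [CommRing T] {Δ : Type} [Group Δ] (d : Δ →* T)
    (J : Ideal T) {G : Set Δ} (hG : Subgroup.closure G = ⊤) (h : ∀ δ ∈ G, d δ - 1 ∈ J) (δ : Δ) :
    d δ - 1 ∈ J := by
  have hδ : δ ∈ Subgroup.closure G := hG ▸ Subgroup.mem_top δ
  induction hδ using Subgroup.closure_induction with
  | mem x hx => exact h x hx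
  | one => rw [map_one, sub_self]; exact J.zero_mem
  | mul x y _ _ hx hy =>
    rw [map_mul, show d x * d y - 1 = d x * (d y - 1) + (d x - 1) by ring]
    exact J.add_mem (J.mul_mem_left _ hy) hx
  | inv x _ hx =>
    have e : d x⁻¹ * d x = 1 := by rw [← map_mul, inv_mul_cancel, map_one]
    rw [show d x⁻¹ - 1 = -(d x⁻¹ * (d x - 1)) by rw [mul_sub, e, mul_one, neg_sub]]
    exact J.neg_mem (J.mul_mem_left _ hx)

/-- The trace read off a characteristic polynomial, as `Glue` provides it. -/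
theorem trace_eq_of_charpoly_eq {T : Type} [CommRing T] [Nontrivial T] {X : M2 T} {t d : T}
    (h : X.charpoly = Polynomial.X ^ 2 - Polynomial.C t * Polynomial.X + Polynomial.C d) :
    X.trace = t := by
  rw [Matrix.charpoly_fin_two] at h
  have := congrArg (fun p => Polynomial.coeff p 1) h
  simpa [Polynomial.coeff_X_pow] using this

variable {O : Type} [CommRing O] [IsDomain O] [IsDiscreteValuationRing O]
  {L : ℕ} {Δ : Type} [CommGroup Δ] {ψ : (ZMod L)ˣ →* Δ} {Sset : Finset ℕ}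
  {abar : ℕ → ResidueField O}

/-- **The entries generate modulo the diamonds.** -/
theorem exists_aeval_sub_mem (H : HeckeData L ψ Sset abar) (R : Gal →* M2 H.algebra)
    (J : Ideal H.algebra) (hdia : ∀ δ, diaA H δ - 1 ∈ J)
    (htr : ∀ (ℓ : ℕ) (hℓ : ℓ.Prime) (hℓS : ℓ ∉ Sset), ∃ σ, (R σ).trace = TA H hℓ hℓS)
    (t : H.algebra) : ∃ p : MvPolynomial (Gal × Fin 2 × Fin 2) O,
      t - MvPolynomial.aeval (fun s : Gal × Fin 2 × Fin 2 => R s.1 s.2.1 s.2.2) p ∈ J := by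
  obtain ⟨t, ht⟩ := t
  induction ht using Algebra.adjoin_induction with
  | mem y hy =>
    rcases hy with ⟨δ, rfl⟩ | ⟨ℓ, ⟨hℓ, hℓS⟩, rfl⟩
    · exact ⟨1, by rw [map_one]; exact hdia δ⟩
    · obtain ⟨σ, hσ⟩ := htr ℓ hℓ hℓS
      refine ⟨MvPolynomial.X (σ, 0, 0) + MvPolynomial.X (σ, 1, 1), ?_⟩
      rw [map_add, MvPolynomial.aeval_X, MvPolynomial.aeval_X, ← Matrix.trace_fin_two, hσ]
      exact (sub_self (TA H hℓ hℓS)).symm ▸ J.zero_mem
  | algebraMap r => exact ⟨MvPolynomial.C r, by simp⟩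
  | add y z hy hz iy iz =>
    obtain ⟨p, hp⟩ := iy
    obtain ⟨q, hq⟩ := iz
    refine ⟨p + q, ?_⟩
    rw [map_add, show (⟨y + z, add_mem hy hz⟩ : H.algebra) = ⟨y, hy⟩ + ⟨z, hz⟩ from rfl,
      add_sub_add_comm]
    exact J.add_mem hp hq
  | mul y z hy hz iy iz =>
    obtain ⟨p, hp⟩ := iy
    obtain ⟨q, hq⟩ := iz
    refine ⟨p * q, ?_⟩
    rw [map_mul, show (⟨y * z, mul_mem hy hz⟩ : H.algebra) = ⟨y, hy⟩ * ⟨z, hz⟩ from rfl]
    set a := MvPolynomial.aeval (fun s : Gal × Fin 2 × Fin 2 => R s.1 s.2.1 s.2.2) p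
    set b := MvPolynomial.aeval (fun s : Gal × Fin 2 × Fin 2 => R s.1 s.2.1 s.2.2) q
    rw [show (⟨y, hy⟩ : H.algebra) * ⟨z, hz⟩ - a * b =
      (⟨y, hy⟩ - a) * ⟨z, hz⟩ + a * (⟨z, hz⟩ - b) by ring]
    exact J.add_mem (J.mul_mem_right _ hp) (J.mul_mem_left _ hq)

/-- **The system of the point.** An algebra map with the entries of `rW` gives, in `ℂ`, the
traces of Frobenius of the curve. -/
theorem system_eq_apOfModel (W : WeierstrassCurve ℤ) (H : HeckeData L ψ Sset abar)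
    (R : Gal →* M2 H.algebra)
    (htr : ∀ (ℓ : ℕ) (hℓ : ℓ.Prime) (hℓS : ℓ ∉ Sset) (P : ValuationSubring QBar),
      P.LiesOverPrime ℓ → ∀ σ : Gal, P.IsFrobeniusAt σ ℓ → (R σ).trace = TA H hℓ hℓS)
    (θ : H.algebra →ₐ[O] O) (rW : Gal →* M2 O) (hθ : ∀ σ i l, θ (R σ i l) = rW σ i l)
    {ℓ : ℕ} (hℓ : ℓ.Prime) (hℓS : ℓ ∉ Sset)
    (hW : ∀ P : ValuationSubring QBar, P.LiesOverPrime ℓ → ∀ σ : Gal, P.IsFrobeniusAt σ ℓ →
      (rW σ).trace = (W.apOfModel ℓ : O))
    (j : O →+* ℂ) : H.system (j.comp θ.toRingHom) ℓ = (W.apOfModel ℓ : ℂ) := by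
  obtain ⟨P, hP⟩ := exists_liesOverPrime hℓ
  obtain ⟨σ, hσ⟩ := exists_isFrobeniusAt hP hℓ
  rw [HeckeData.system, dif_pos ⟨hℓ, hℓS⟩]
  show j (θ (TA H hℓ hℓS)) = _
  rw [← htr ℓ hℓ hℓS P hP σ hσ, Matrix.trace_fin_two, map_add, hθ, hθ, ← Matrix.trace_fin_two,
    hW P hP σ hσ, map_intCast]

end Fermat.Agent.TwoAdic.Patch
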