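import Fermat.Agent.TwoAdic.Deform.CurvePoint
import Fermat.Agent.TwoAdic.Module.Glue.Algebra
import Fermat.Agent.TwoAdic.Module.Local.Base
import Fermat.Agent.TwoAdic.Module.Local.LevelPsi
import Fermat.Agent.TwoAdic.Module.Local.Main

/-!
# The Hecke module and the level of the auxiliary primes of a two-adic curve

`L = 2 m (∏ q i) q₀ l` with `m` the product of the odd bad primes. `Setup` collects the character
`ψ`, the localised module `H` with its newforms and the level of the projection of `ψ`;
`exists_setup` gives one at every admissible choice of the primes.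
-/

set_option autoImplicit false

noncomputable section

namespace Fermat.Agent.TwoAdic.Patch

open IsLocalRing Fermat.Agent.Arith Fermat.Agent.Deform Fermat.Agent.TwoAdic.Curve
open Fermat.Agent.TwoAdic.Deform (curveSetting badOdd mem_badOdd)
open Fermat.Agent.TwoAdic.Module

local instance factTwoPatchSetup : Fact (Nat.Prime 2) := ⟨Nat.prime_two⟩

variable {O : Type} [CommRing O] [IsLocalRing O]
variable {W : WeierstrassCurve ℤ} (h : IsTwoAdicCurve W) (h2 : (2 : O) ∈ maximalIdeal O)

/-! ### The modulus -/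

variable {ι : Type} [Fintype ι] (q : ι → ℕ) (q₀ l : ℕ)

/-- The modulus of the auxiliary level. -/
def levelModulus (W : WeierstrassCurve ℤ) : ℕ := 2 * (∏ p ∈ badOdd W, p) * (∏ i, q i) * q₀ * l

/-- The primes of the modulus. -/
def levelPrimes (W : WeierstrassCurve ℤ) : Finset ℕ :=
  open Classical in insert l (insert q₀ (insert 2 (badOdd W) ∪ Finset.univ.image q))

/-- Admissible auxiliary primes. -/
structure Admissible (W : WeierstrassCurve ℤ) (n : ℕ) : Prop where
  two_le : 2 ≤ n
  prime : ∀ i, (q i).Prime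
  injective : Function.Injective q
  dvd : ∀ i, 2 ^ (n + 1) ∣ q i - 1
  notMem : ∀ i, q i ∉ badOdd W
  prime₀ : q₀.Prime
  five_mod : q₀ % 8 = 5
  notMem₀ : q₀ ∉ badOdd W
  prime_l : l.Prime
  three_mod : l % 4 = 3
  notMem_l : l ∉ badOdd W
  ne_l : ∀ i, q i ≠ l

variable {q q₀ l} {n : ℕ}

theorem Admissible.mod_eight (ha : Admissible q q₀ l W n) (i : ι) : q i % 8 = 1 := by
  obtain ⟨k, hk⟩ := (pow_dvd_pow 2 (show 3 ≤ n + 1 by have := ha.two_le; omega)).trans (ha.dvd i)
  have := (ha.prime i).one_le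
  omega

theorem Admissible.ne_two (ha : Admissible q q₀ l W n) (i : ι) : q i ≠ 2 := fun e => by
  have := ha.mod_eight i
  omega

theorem Admissible.ne₀ (ha : Admissible q q₀ l W n) (i : ι) : q i ≠ q₀ := fun e => by
  have := ha.mod_eight i
  have := ha.five_mod
  omega

theorem Admissible.ne₀_l (ha : Admissible q q₀ l W n) : q₀ ≠ l := fun e => by
  have := ha.three_mod
  have := ha.five_mod
  omega

include h in
theorem Admissible.prime_of_mem_levelPrimes (ha : Admissible q q₀ l W n) {v : ℕ}
    (hv : v ∈ levelPrimes q q₀ l W) : v.Prime := by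
  simp only [levelPrimes, Finset.mem_insert, Finset.mem_union, Finset.mem_image,
    Finset.mem_univ, true_and] at hv
  rcases hv with rfl | rfl | (rfl | hv) | ⟨i, rfl⟩
  exacts [ha.prime_l, ha.prime₀, Nat.prime_two, ((mem_badOdd h.delta_ne_zero).mp hv).2.1,
    ha.prime i]

include h in
theorem Admissible.prod_levelPrimes (ha : Admissible q q₀ l W n) :
    ∏ v ∈ levelPrimes q q₀ l W, v = levelModulus q q₀ l W := by
  classical
  have h2T : (2 : ℕ) ∉ badOdd W := fun e => ((mem_badOdd h.delta_ne_zero).mp e).1 rfl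
  have hd : Disjoint (insert 2 (badOdd W)) (Finset.univ.image q) := by
    rw [Finset.disjoint_right]
    intro v hv
    obtain ⟨i, -, rfl⟩ := Finset.mem_image.mp hv
    rw [Finset.mem_insert, not_or]
    exact ⟨ha.ne_two i, ha.notMem i⟩
  have h0 : q₀ ∉ insert 2 (badOdd W) ∪ Finset.univ.image q := by
    simp only [Finset.mem_union, Finset.mem_insert, Finset.mem_image, Finset.mem_univ, true_and,
      not_or, not_exists]
    exact ⟨⟨by have := ha.five_mod; omega, ha.notMem₀⟩, fun i => ha.ne₀ i⟩
  have hl : l ∉ insert q₀ (insert 2 (badOdd W) ∪ Finset.univ.image q) := by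
    simp only [Finset.mem_union, Finset.mem_insert, Finset.mem_image, Finset.mem_univ, true_and,
      not_or, not_exists]
    exact ⟨ha.ne₀_l.symm, ⟨by have := ha.three_mod; omega, ha.notMem_l⟩, fun i => ha.ne_l i⟩
  rw [levelPrimes, Finset.prod_insert hl, Finset.prod_insert h0, Finset.prod_union hd,
    Finset.prod_insert h2T, Finset.prod_image fun i _ j _ e => ha.injective e, levelModulus]
  ring

include h in
theorem Admissible.primeFactors_levelModulus (ha : Admissible q q₀ l W n) :
    (levelModulus q q₀ l W).primeFactors = levelPrimes q q₀ l W := by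
  rw [← ha.prod_levelPrimes h]
  exact Nat.primeFactors_prod fun v hv => ha.prime_of_mem_levelPrimes h hv

include h in
theorem Admissible.levelModulus_pos (ha : Admissible q q₀ l W n) :
    0 < levelModulus q q₀ l W := by
  rw [← ha.prod_levelPrimes h]
  exact Finset.prod_pos fun v hv => (ha.prime_of_mem_levelPrimes h hv).pos

include h in
theorem Admissible.mem_levelPrimes_iff (ha : Admissible q q₀ l W n) {v : ℕ} (hv : v.Prime) :
    v ∈ levelPrimes q q₀ l W ↔ v ∣ levelModulus q q₀ l W := by
  rw [← ha.primeFactors_levelModulus h]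
  exact ⟨fun e => Nat.dvd_of_mem_primeFactors e,
    fun e => Nat.mem_primeFactors.mpr ⟨hv, e, (ha.levelModulus_pos h).ne'⟩⟩

include h in
theorem Admissible.squarefree (ha : Admissible q q₀ l W n) :
    Squarefree (levelModulus q q₀ l W) := by
  rw [Nat.squarefree_iff_nodup_primeFactorsList (ha.levelModulus_pos h).ne']
  rw [List.nodup_iff_count_le_one]
  intro v
  rw [Nat.primeFactorsList_count_eq]
  by_contra hlt
  rw [not_le] at hlt
  have hv : v.Prime := by
    by_contra hv
    rw [Nat.factorization_eq_zero_of_not_prime _ hv] at hlt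
    omega
  have hsum : (levelModulus q q₀ l W).factorization v =
      ∑ w ∈ levelPrimes q q₀ l W, w.factorization v := by
    rw [← ha.prod_levelPrimes h, Nat.factorization_prod fun w hw =>
      (ha.prime_of_mem_levelPrimes h hw).ne_zero, Finsupp.finsetSum_apply]
  rw [hsum] at hlt
  have : ∑ w ∈ levelPrimes q q₀ l W, w.factorization v ≤
      ∑ w ∈ levelPrimes q q₀ l W, if w = v then 1 else 0 := by
    refine Finset.sum_le_sum fun w hw => ?_
    rw [(ha.prime_of_mem_levelPrimes h hw).factorization, Finsupp.single_apply]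
  rw [Finset.sum_ite_eq'] at this
  split_ifs at this <;> omega

theorem two_dvd_levelModulus : 2 ∣ levelModulus q q₀ l W := by
  unfold levelModulus
  exact (((dvd_mul_right 2 _).mul_right _).mul_right _).mul_right _

theorem dvd_levelModulus (i : ι) : q i ∣ levelModulus q q₀ l W :=
  ((dvd_mul_of_dvd_right (Finset.dvd_prod_of_mem q (Finset.mem_univ i)) _).mul_right _).mul_right _

theorem q₀_dvd_levelModulus : q₀ ∣ levelModulus q q₀ l W := (dvd_mul_left _ _).mul_right _

theorem l_dvd_levelModulus : l ∣ levelModulus q q₀ l W := dvd_mul_left _ _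

theorem baseLevel_dvd_levelModulus : Local.baseLevel W ∣ levelModulus q q₀ l W :=
  ((dvd_mul_right _ _).mul_right _).mul_right _

/-! ### The setup -/

variable [DecidableEq ι] (q q₀ l n)

/-- The character, the localised module and the level at auxiliary primes. -/
structure Setup : Type 1 where
  ψ : (ZMod (levelModulus q q₀ l W))ˣ →* Local.PsiGroup ι n
  ψ_surjective : Function.Surjective ψ
  ψ_even : HasEvenComponents ψ
  ψ_neg_one : ψ (-1) = 1
  ψ_comp : ∀ v : ℕ, v.Prime → v ∣ levelModulus q q₀ l W → ∀ u : (ZMod (levelModulus q q₀ l W))ˣ,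
    ((u : ZMod (levelModulus q q₀ l W)).cast : ZMod (levelModulus q q₀ l W / v)) = 1 →
      (∀ i, q i ≠ v → (ψ u).toAdd.1 i = 0) ∧ (q₀ ≠ v → (ψ u).toAdd.2 = 0)
  ψ_comp_trivial : ∀ v : ℕ, v.Prime → v ∣ levelModulus q q₀ l W → (∀ i, q i ≠ v) → q₀ ≠ v →
    ∀ u : (ZMod (levelModulus q q₀ l W))ˣ,
      ((u : ZMod (levelModulus q q₀ l W)).cast : ZMod (levelModulus q q₀ l W / v)) = 1 → ψ u = 1
  ψ_gen : ∀ i, ∃ u : (ZMod (levelModulus q q₀ l W))ˣ,
    ((u : ZMod (levelModulus q q₀ l W)).cast : ZMod (levelModulus q q₀ l W / q i)) = 1 ∧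
      ψ u = Local.genElt i
  ψ_gen₀ : ∃ u : (ZMod (levelModulus q q₀ l W))ˣ,
    ((u : ZMod (levelModulus q q₀ l W)).cast : ZMod (levelModulus q q₀ l W / q₀)) = 1 ∧
      ψ u = Local.gElt
  w : (ZMod (levelModulus q q₀ l W))ˣ
  ψ_two : ∀ t : (ZMod (levelModulus q q₀ l W))ˣ,
    ((t : ZMod (levelModulus q q₀ l W)).cast : ZMod (levelModulus q q₀ l W / 2)) = 2 →
      ψ t = Local.gElt * ψ w ^ 2
  H : HeckeData (levelModulus q q₀ l W) ψ (levelPrimes q q₀ l W) (Local.curveAbar O W)
  hasNewforms : H.HasNewforms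
  d_pos : 0 < H.d
  isLocalRing : IsLocalRing H.algebra
  isLocalHom : IsLocalHom (algebraMap O H.algebra)

variable {q q₀ l n}

include h in
/-- The hypothesis on fixed cosets at the level. -/
theorem Admissible.sFree (ha : Admissible q q₀ l W n) :
    RT.GammaH.SFree (RT.GammaH.gammaH (levelModulus q q₀ l W)
      (⊤ : Subgroup (ZMod (levelModulus q q₀ l W))ˣ)) :=
  RT.GammaH.sFree_gammaH ha.prime_l l_dvd_levelModulus ha.three_mod

include h in
theorem exists_setup [IsDomain O] [IsDiscreteValuationRing O] [IsAdicComplete (maximalIdeal O) O]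
    [Finite (ResidueField O)] [CharZero O] (h2 : (2 : O) ∈ maximalIdeal O)
    (ha : Admissible q q₀ l W n) : Nonempty (Setup (O := O) (W := W) q q₀ l n) := by
  have : CharP (ResidueField O) 2 :=
    CharTwo.of_one_ne_zero_of_two_eq_zero one_ne_zero (Deform.two_eq_zero_residue h2)
  have : NeZero (levelModulus q q₀ l W) := ⟨(ha.levelModulus_pos h).ne'⟩
  have hL := ha.squarefree h
  obtain ⟨ψ, hs, hev, hneg, hcomp, htriv, hgen, hgen₀, w, hw⟩ :=
    Local.exists_levelPsi_two (L := levelModulus q q₀ l W) ha.two_le hL two_dvd_levelModulus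
      ha.prime dvd_levelModulus ha.injective ha.dvd ha.prime₀ q₀_dvd_levelModulus ha.five_mod
  obtain ⟨e, he, b, hb, hred, -, hnew, hpos⟩ :=
    Local.exists_heckeData_two (abar := Local.curveAbar O W) (S := levelPrimes q q₀ l W) hL (ha.sFree h)
      Local.isPGroup_psiGroup hs hev (fun v hv hvL => (ha.mem_levelPrimes_iff h hv).2 hvL)
      (Local.not_eisenstein_curve h h2 _)
  have hd : 0 < Module.finrank O (Local.locModTop e) := hpos _ dvd_rfl
    (Local.isCongruentLevel_curve_of_dvd h h2 baseLevel_dvd_levelModulus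
      fun v hv hvL => (ha.mem_levelPrimes_iff h hv).2 hvL)
  let H := Local.heckeData hs e he b hb hred
  have hp : ((2 : ℕ) : O) ∈ maximalIdeal O := by exact_mod_cast h2
  have hloc := Module.isLocalRing_algebra H hp Local.isPGroup_psiGroup hd
  exact ⟨⟨ψ, hs, hev, hneg, hcomp, htriv, hgen, hgen₀, w, hw, H, hnew, hd, hloc,
    Module.isLocalHom_algebraMap H hp Local.isPGroup_psiGroup⟩⟩

/-- The level cut out by the projection of the character. -/
def Setup.level [NeZero (levelModulus q q₀ l W)] [NeZero (levelModulus q q₀ l W / 2)]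
    (X : Setup (O := O) (W := W) q q₀ l n) (ha : Admissible q q₀ l W n) :
    Deform.Level (curveSetting h h2) :=
  Local.levelOfChar (curveSetting h h2) (ha.squarefree h) two_dvd_levelModulus
    (Local.toQ.comp X.ψ) (Finset.univ.image q)
    (fun v hv => by obtain ⟨i, -, rfl⟩ := Finset.mem_image.mp hv; exact ha.prime i)
    (fun v hv => by obtain ⟨i, -, rfl⟩ := Finset.mem_image.mp hv; exact ha.ne_two i)
    (fun v hv => by obtain ⟨i, -, rfl⟩ := Finset.mem_image.mp hv; exact ha.notMem i)
    (Local.toQ_comp_spec X.ψ_surjective X.ψ_even X.ψ_comp X.ψ_two).2.2.1 X.w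
    (Local.toQ_comp_spec X.ψ_surjective X.ψ_even X.ψ_comp X.ψ_two).2.2.2

theorem Setup.level_Q [NeZero (levelModulus q q₀ l W)] [NeZero (levelModulus q q₀ l W / 2)]
    (X : Setup (O := O) (W := W) q q₀ l n) (ha : Admissible q q₀ l W n) :
    (X.level h h2 ha).Q = Finset.univ.image q := rfl

theorem Setup.mem_level_H [NeZero (levelModulus q q₀ l W)] [NeZero (levelModulus q q₀ l W / 2)]
    (X : Setup (O := O) (W := W) q q₀ l n) (ha : Admissible q q₀ l W n) (σ : Deform.Gal) :
    σ ∈ (X.level h h2 ha).H ↔ Local.toQ (X.ψ (cycHom (levelModulus q q₀ l W) σ)) = 1 :=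
  Local.mem_levelOfChar_H _ _ _ _ _ _ _ _ _ _ _ σ

theorem Setup.cycHom_root2 [NeZero (levelModulus q q₀ l W)] [NeZero (levelModulus q q₀ l W / 2)]
    (X : Setup (O := O) (W := W) q q₀ l n) (ha : Admissible q q₀ l W n) :
    cycHom (levelModulus q q₀ l W) (X.level h h2 ha).root2 = X.w :=
  Local.cycHom_levelOfChar_root2 _ _ _ _ _ _ _ _ _ _ _

end Fermat.Agent.TwoAdic.Patch
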