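import Fermat.Agent.TwoAdic.Module.BigModel
import Fermat.Agent.TwoAdic.Module.Local.BigHyp
import Fermat.Agent.TwoAdic.Module.Local.Monomials
import Fermat.Agent.TwoAdic.Patch.Final
import Fermat.Agent.TwoAdic.Patch.Generators
import Fermat.Agent.TwoAdic.Patch.Setup

/-!
# The big datum at a setup of a two-adic curve

The glued representation over the localised module of a `Setup` gives a `BigDatum` whose entries
generate modulo the diamonds; a point of it with the traces of the curve is a complex system of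
the module with trivial diamonds.
-/

set_option autoImplicit false
set_option linter.style.haveILetI false

noncomputable section

namespace Fermat.Agent.TwoAdic.Patch

open IsLocalRing Fermat.Agent.Arith Fermat.Agent.Deform Fermat.Agent.TwoAdic.Curve
open Fermat.Agent.TwoAdic.Deform (Aux curveSetting badOdd mem_badOdd)
open Fermat.Agent.TwoAdic.Module

local instance factTwoPatchSetupBig : Fact (Nat.Prime 2) := ⟨Nat.prime_two⟩

variable {O : Type} [CommRing O] [IsDomain O] [IsDiscreteValuationRing O]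
  [IsAdicComplete (maximalIdeal O) O] [Finite (ResidueField O)] [CharZero O]
variable {W : WeierstrassCurve ℤ} (h : IsTwoAdicCurve W) (h2 : (2 : O) ∈ maximalIdeal O)
variable {ι : Type} [Fintype ι] [DecidableEq ι] {q : ι → ℕ} {q₀ l n : ℕ}
  [NeZero (levelModulus q q₀ l W)] [NeZero (levelModulus q q₀ l W / 2)]

include h in
omit [NeZero (levelModulus q q₀ l W)] [NeZero (levelModulus q q₀ l W / 2)] in
theorem Admissible.eq_of_dvd (ha : Admissible q q₀ l W n) {v : ℕ} (hv : v.Prime)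
    (hvL : v ∣ levelModulus q q₀ l W) :
    v = l ∨ v = q₀ ∨ v = 2 ∨ v ∈ badOdd W ∨ v ∈ Finset.univ.image q := by
  classical
  simpa [levelPrimes, or_assoc] using (ha.mem_levelPrimes_iff h hv).2 hvL

include h in
omit [NeZero (levelModulus q q₀ l W)] [NeZero (levelModulus q q₀ l W / 2)] [DecidableEq ι] in
theorem Admissible.good_of_notMem {ℓ : ℕ} (hℓ : ℓ.Prime) (hℓS : ℓ ∉ levelPrimes q q₀ l W) :
    ℓ ≠ 2 ∧ W.IsGoodPrimeFor ℓ := by
  classical
  simp only [levelPrimes, Finset.mem_insert, Finset.mem_union, not_or] at hℓS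
  obtain ⟨-, -, ⟨hℓ2, hℓT⟩, -⟩ := hℓS
  exact ⟨hℓ2, fun hd => hℓT ((mem_badOdd h.delta_ne_zero).2 ⟨hℓ2, hℓ, hd⟩)⟩

/-- **The big datum at a setup.** -/
theorem Setup.exists_bigDatum (X : Setup (O := O) (W := W) q q₀ l n)
    (ha : Admissible q q₀ l W n) (D : Aux (curveSetting h h2) (X.level h h2 ha))
    (e : ι ≃ D.ι) (he : ∀ i, D.q (e i) = q i)
    (hodd : ∀ v ∈ ({q₀, l} : Finset ℕ), ∃ P : ValuationSubring QBar, P.LiesOverPrime v ∧
      ∃ φ : Gal, P.IsFrobeniusAt φ v ∧ ((curveSetting h h2).W.rb φ).trace ≠ 0)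
    (hE : ∀ (v R' M : ℕ) [Fact v.Prime] [NeZero R'] [NeZero M]
      (g : CuspForm (CongruenceSubgroup.Gamma0 M) 2), TraceInertiaTwo v R' M g)
    (hline : ∀ (M : ℕ) [NeZero M], LineAtTwo (curveSetting h h2) (twoModel M)) :
    ∃ B : BigDatum D n,
      (∀ t : B.T, ∃ p : MvPolynomial (Gal × Fin 2 × Fin 2) O,
        t - MvPolynomial.aeval (fun s : Gal × Fin 2 × Fin 2 => B.r s.1 s.2.1 s.2.2) p ∈
          bigDiaIdeal B) ∧
      ∀ θ : B.T →ₐ[O] O, (∀ i, θ (B.δ i) = 1) → θ B.g = 1 →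
        (∀ ℓ : ℕ, ℓ.Prime → W.IsGoodPrimeFor ℓ → ℓ ≠ 2 →
          ∀ P : ValuationSubring QBar, P.LiesOverPrime ℓ → ∀ σ : Gal, P.IsFrobeniusAt σ ℓ →
            θ ((B.r σ).trace) = (W.apOfModel ℓ : O)) →
        ∀ j : O →+* ℂ, ∃ θ' : X.H.algebra →+* ℂ,
          (∀ δ, θ' ⟨X.H.dia δ, Algebra.subset_adjoin (Or.inl ⟨δ, rfl⟩)⟩ = 1) ∧
          ∀ ℓ : ℕ, ℓ.Prime → ℓ ∉ levelPrimes q q₀ l W →
            X.H.system θ' ℓ = (W.apOfModel ℓ : ℂ) := by
  classical
  haveI := X.isLocalRing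
  haveI := X.isLocalHom
  have hp : ((2 : ℕ) : O) ∈ maximalIdeal O := by exact_mod_cast h2
  have hL := ha.squarefree h
  have hS : ∀ v : ℕ, v.Prime → v ∣ levelModulus q q₀ l W → v ∈ levelPrimes q q₀ l W :=
    fun v hv hvL => (ha.mem_levelPrimes_iff h hv).2 hvL
  have h2S : 2 ∈ levelPrimes q q₀ l W := hS 2 Nat.prime_two two_dvd_levelModulus
  have hspan := Local.span_curve h h2
  have hbar := Local.hasFrobData_curve h h2 h2S fun v hv hd =>
    hS v hv (((Local.prime_dvd_baseLevel_iff h hv).2 hd).trans baseLevel_dvd_levelModulus)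
  obtain ⟨pt, ⟨G⟩⟩ := exists_rep hp Local.isPGroup_psiGroup h2S hS hbar
    (Local.finiteLevel_curve h h2) hspan twoModel X.hasNewforms
  have hbij := Local.monomials_bijective (show n ≠ 0 by have := ha.two_le; omega) hL ha.prime
    dvd_levelModulus ha.injective (fun i => by have := ha.mod_eight i; omega) X.ψ_comp X.ψ_gen
    D e he
  have hyp : BigHyp X.H D n Local.gElt :=
    Local.bigHyp_levelOfChar X.H (by have := ha.two_le; omega) hL two_dvd_levelModulus hS h2S
      X.d_pos X.ψ_comp X.ψ_comp_trivial X.ψ_two ha.notMem₀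
      (by have := ha.five_mod; omega) _ _ _ _ _ D hbij
  have hout : OddTraceOutside (levelModulus q q₀ l W) (X.level h h2 ha) := by
    intro v hv hvL hv2 hvT hvQ
    refine hodd v (Finset.mem_insert.2 ?_)
    rcases ha.eq_of_dvd h hv hvL with e | e | e | e | e
    · exact Or.inr (Finset.mem_singleton.2 e)
    · exact Or.inl e
    · exact absurd e hv2
    · exact absurd e hvT
    · exact absurd e hvQ
  refine ⟨G.bigDatumModel hyp hout hE hspan hline, ?_, ?_⟩
  · refine exists_aeval_sub_mem X.H _ _ (fun δ => ?_) fun ℓ hℓ hℓS => ?_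
    · obtain ⟨⟨f, ε⟩, hp⟩ := hbij.2 δ
      set J : Ideal X.H.algebra := bigDiaIdeal (G.bigDatumModel hyp hout hE hspan hline)
      rw [← hp]
      change diaA X.H _ - 1 ∈ J
      have h1 : ∀ x, x - 1 ∈ J → Ideal.Quotient.mk J x = 1 := fun x hx => by
        rw [← map_one (Ideal.Quotient.mk J), Ideal.Quotient.eq]; exact hx
      rw [← Ideal.Quotient.eq, map_one]
      simp only [map_mul, map_prod, map_pow]
      rw [h1 (diaA X.H Local.gElt) (Ideal.subset_span (Or.inr rfl)), one_pow, mul_one]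
      refine Finset.prod_eq_one fun i _ => ?_
      rw [h1 (diaA X.H (X.ψ (cycHom _ (D.τ i)))) (Ideal.subset_span (Or.inl ⟨i, rfl⟩)), one_pow]
    · obtain ⟨P, hP⟩ := exists_liesOverPrime hℓ
      obtain ⟨σ, hσ⟩ := exists_isFrobeniusAt hP hℓ
      exact ⟨σ, G.bigDatumModel_trace_frobenius hyp hout hE hspan hline hℓ hℓS hP hσ⟩
  · intro θ hδ hg htr j
    let θX : X.H.algebra →ₐ[O] O := θ
    refine ⟨j.comp θX.toRingHom, fun δ => ?_, fun ℓ hℓ hℓS => ?_⟩
    · obtain ⟨⟨f, ε⟩, hp⟩ := hbij.2 δ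
      show j (θX (diaA X.H δ)) = 1
      rw [← hp]
      simp only [map_mul, map_prod, map_pow]
      have hg' : θX (diaA X.H Local.gElt) = 1 := hg
      rw [hg', map_one, one_pow, mul_one]
      refine Finset.prod_eq_one fun i _ => ?_
      have hi : θX (diaA X.H (X.ψ (cycHom _ (D.τ i)))) = 1 := hδ i
      rw [hi, map_one, one_pow]
    · obtain ⟨P, hP⟩ := exists_liesOverPrime hℓ
      obtain ⟨σ, hσ⟩ := exists_isFrobeniusAt hP hℓ
      obtain ⟨hℓ2, hgood⟩ := Admissible.good_of_notMem h hℓ hℓS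
      rw [HeckeData.system, dif_pos ⟨hℓ, hℓS⟩]
      show j (θX (TA X.H hℓ hℓS)) = _
      rw [← G.bigDatumModel_trace_frobenius hyp hout hE hspan hline hℓ hℓS hP hσ]
      refine (congrArg j (htr ℓ hℓ hgood hℓ2 P hP σ hσ)).trans ?_
      rw [map_intCast]

end Fermat.Agent.TwoAdic.Patch
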