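import Fermat.Agent.Carayol.Descent.Wiring
import Fermat.Agent.FiniteFlat.GrassOrder
import Fermat.Agent.OrdinaryAtP.LineTwo
import Fermat.Agent.RT.InertiaTW.Main
import Fermat.Agent.Semistable.ToricTorsion
import Fermat.Agent.Top.Inputs
import Fermat.Agent.TwoAdic.Patch.Datum
import Fermat.Agent.TwoAdic.Patch.Endgame
import Fermat.Agent.TwoAdic.Patch.OldRing
import Fermat.Agent.TwoAdic.Patch.Select
import Fermat.Agent.TwoAdic.Patch.SetupBig

/-!
# The two-adic modularity theorem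

The point of the curve over `ℤ₂[ω]` is a system of the localised module at the selected auxiliary
level, hence the curve is modular at exactly its conductor level.
-/

set_option autoImplicit false
set_option linter.style.haveILetI false

noncomputable section

namespace Fermat.Agent.TwoAdic.Patch

open IsLocalRing Fermat.Agent.Arith Fermat.Agent.Deform Fermat.Agent.TwoAdic.Curve
open Fermat.Agent.TwoAdic.Deform (curveSetting)

local instance factTwoTheorem : Fact (Nat.Prime 2) := ⟨Nat.prime_two⟩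

set_option maxHeartbeats 800000 in
/-- **Two-adic modularity**, from the trace of inertia at twisted levels. -/
theorem twoAdicInput_of
    (hE : ∀ (v R' M : ℕ) [Fact v.Prime] [NeZero R'] [NeZero M]
      (g : CuspForm (CongruenceSubgroup.Gamma0 M) 2), Module.TraceInertiaTwo v R' M g) :
    Top.TwoAdicInput := by
  intro W h
  classical
  obtain ⟨O, _, _, _, _, _, _, _, -, hπ, ⟨ω, hω⟩, hO, j, -⟩ := exists_coeffRing
  have h2 : (2 : O) ∈ maximalIdeal O := hπ ▸ Ideal.mem_span_singleton_self 2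
  obtain ⟨rW, a, hcW, hlW, -, hiW, hfr, -, -, -⟩ := exists_point h h2 hO
  obtain ⟨n, hn, hsel⟩ := exists_selection h h2 hπ hω hcW hlW hiW
  obtain ⟨ι, _, _, q, P, φ, isU, q₀, l, hinj, hq, ⟨hq₀, h5, -, hq₀T, -, -, -, htr₀⟩,
    ⟨hl, h3, -, hlT, hql, -, -, -, htrl⟩, hD⟩ := hsel ∅
  have ha : Admissible q q₀ l W n :=
    { two_le := hn
      prime := fun i => (hq i).1
      injective := hinj
      dvd := fun i => (hq i).2.2.2.2.2.1
      notMem := fun i => (hq i).2.2.1
      prime₀ := hq₀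
      five_mod := h5
      notMem₀ := hq₀T
      prime_l := hl
      three_mod := h3
      notMem_l := hlT
      ne_l := hql }
  haveI : NeZero (levelModulus q q₀ l W) := ⟨(ha.levelModulus_pos h).ne'⟩
  haveI : NeZero (levelModulus q q₀ l W / 2) := ⟨(Nat.div_pos
    (Nat.le_of_dvd (ha.levelModulus_pos h) two_dvd_levelModulus) two_pos).ne'⟩
  obtain ⟨X⟩ := exists_setup h h2 ha
  obtain ⟨D, e, he, hbound, hcard, hZ⟩ := hD (X.level h h2 ha) rfl
  have hodd : ∀ v ∈ ({q₀, l} : Finset ℕ), ∃ A : ValuationSubring QBar, A.LiesOverPrime v ∧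
      ∃ σ : Gal, A.IsFrobeniusAt σ v ∧ ((curveSetting h h2).W.rb σ).trace ≠ 0 := by
    intro v hv
    obtain ⟨hvp, htr⟩ : v.Prime ∧ ∀ A : ValuationSubring QBar, A.LiesOverPrime v → ∀ σ : Gal,
        A.IsFrobeniusAt σ v → ((curveSetting h h2).W.rb σ).trace = 1 := by
      rcases Finset.mem_insert.1 hv with rfl | hv
      · exact ⟨hq₀, htr₀⟩
      · rw [Finset.mem_singleton.1 hv]; exact ⟨hl, htrl⟩
    obtain ⟨A, hA⟩ := exists_liesOverPrime hvp
    obtain ⟨σ, hσ⟩ := exists_isFrobeniusAt hA hvp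
    exact ⟨A, hA, σ, hσ, by rw [htr A hA σ hσ]; exact one_ne_zero⟩
  have hline : ∀ (M : ℕ) [NeZero M],
      Module.LineAtTwo (curveSetting h h2) (Module.twoModel M) := fun M _ =>
    OrdinaryAtP.lineAtTwo (GaloisReps.congruenceProperty M 2) (curveSetting h h2)
      fun N _ _ _ => FiniteFlat.orderProperty N
  obtain ⟨B, hgen, hsys⟩ := X.exists_bigDatum h h2 ha D e (fun i => (he i).1) hodd hE hline
  have hidx : ∀ i : D.ι, ∃ k, e k = i := e.surjective
  have hqmod : ∀ i, D.q i ≡ 1 [MOD 2 ^ n] := fun i => by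
    obtain ⟨k, rfl⟩ := hidx i
    rw [(he k).1]
    exact ((Nat.modEq_iff_dvd' (hq k).1.one_le).2
      (dvd_trans (pow_dvd_pow 2 n.le_succ) (hq k).2.2.2.2.2.1)).symm
  have hZ' : ¬ (2 : O) ^ n ∣
      ∏ i, ((W.apOfModel (D.q i) : O) ^ 2 - ((D.q i : O) + 1) ^ 2) := by
    refine fun hd => hZ (hd.trans (dvd_of_eq (Finset.prod_congr rfl fun i _ => ?_)))
    obtain ⟨k, rfl⟩ := hidx i
    rw [(he k).1, (he k).2.2.1, (hfr (q k) (hq k).1 (hq k).2.2.2.2.1 (hq k).2.2.2.1 (P k)
      (hq k).2.2.2.2.2.2.2.1 (φ k) (hq k).2.2.2.2.2.2.2.2.1).1]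
  obtain ⟨θ, hθδ, hθg, hθtr⟩ := exists_curve_system hπ hO hasLineRing B
    hn hqmod hgen hbound hcard hZ'
  obtain ⟨θ', hθ', hsys'⟩ := hsys θ hθδ hθg hθtr j
  exact isExact_of_system
    (Carayol.Descent.newformRepInput fun N p _ _ hES r hr hrp _ hr2 =>
      Semistable.toricSquareAt N p hES hr hrp hr2)
    h.delta_ne_zero h.semistable (ha.squarefree h) X.H X.hasNewforms θ' hθ'
    (levelPrimes q q₀ l W) hsys'

/-- Two-adic modularity from the Kummer function families. -/
theorem twoAdicInput_of_families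
    (hFF : ∀ (q R : ℕ) [Fact q.Prime] [NeZero R], RT.InertiaTW.FamiliesExist q R) :
    Top.TwoAdicInput :=
  twoAdicInput_of fun v R' M _ _ _ g => RT.InertiaTW.traceInertiaTwo_of v R' M g (hFF v R')

end Fermat.Agent.TwoAdic.Patch
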