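import Fermat.Agent.RT.InertiaTW.FunFamilyExists
import Fermat.Agent.TwoAdic.Patch.TwoAdicTheorem

/-!
# The two-adic modularity theorem, unconditionally
-/

set_option autoImplicit false

noncomputable section

namespace Fermat.Agent.TwoAdic.Patch

/-- **The two-adic input of the route.** -/
theorem twoAdicInput : Top.TwoAdicInput :=
  twoAdicInput_of_families fun q R _ _ => fun hR _ hA m _ _ _ x hx =>
    RT.InertiaTW.exists_funFamily hA hR m x hx

end Fermat.Agent.TwoAdic.Patch
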