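import Fermat.Agent.TwoAdic.Patch.Koszul
import Fermat.Agent.Lifting.Criterion.Socle
import Fermat.Agent.Patching.PowerSeriesRegular

/-!
# The freeness criterion of de Smit

`N` is a nonzero nilpotent module over `P = k⟦X⟧`, `y` as many elements of the maximal ideal as
there are variables, every syzygy of `y` on `N` has entries in `y N`. Then an element mapping `N`
into `y N` lies in the ideal `(y)`.
-/

set_option autoImplicit false
set_option linter.style.haveILetI false

noncomputable section

namespace Fermat.Agent.TwoAdic.Patch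

open IsLocalRing RingTheory.Sequence Matrix
open Fermat.Agent.Lifting.Criterion

section PowerSeries

variable {k : Type*} [Field k] {σ : Type*}

theorem X_mem_maximalIdeal (j : σ) :
    (MvPowerSeries.X j : MvPowerSeries σ k) ∈ maximalIdeal _ := by
  rw [mem_maximalIdeal, mem_nonunits_iff, MvPowerSeries.isUnit_iff_constantCoeff,
    MvPowerSeries.constantCoeff_X]
  exact not_isUnit_zero

theorem span_X_comp_eq_maximalIdeal [Fintype σ] {n : ℕ} (e : Fin n ≃ σ) :
    Ideal.span (Set.range fun j => (MvPowerSeries.X (e j) : MvPowerSeries σ k)) =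
      maximalIdeal _ := by
  rw [show (Set.range fun j => (MvPowerSeries.X (e j) : MvPowerSeries σ k)) =
    Set.range (MvPowerSeries.X : σ → MvPowerSeries σ k) from
      e.surjective.range_comp (MvPowerSeries.X : σ → MvPowerSeries σ k)]
  refine le_antisymm (Ideal.span_le.2 ?_) fun f hf => ?_
  · rintro _ ⟨j, rfl⟩
    exact X_mem_maximalIdeal j
  · rw [Patching.mem_span_range_X_iff]
    rw [mem_maximalIdeal, mem_nonunits_iff, MvPowerSeries.isUnit_iff_constantCoeff,
      isUnit_iff_ne_zero, not_not] at hf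
    exact hf

theorem isRegular_X_comp [Fintype σ] {n : ℕ} (e : Fin n ≃ σ) :
    IsRegular (MvPowerSeries σ k)
      (List.ofFn fun j => (MvPowerSeries.X (e j) : MvPowerSeries σ k)) := by
  classical
  refine IsRegular.of_isWeaklyRegular_of_mem_maximalIdeal _
    (fun r hr => ?_) ((isWeaklyRegular_iff _ _).2 fun i hi => ?_)
  · obtain ⟨j, rfl⟩ := List.mem_ofFn.1 hr
    exact X_mem_maximalIdeal _
  · rw [List.length_ofFn] at hi
    rw [List.getElem_ofFn]
    have hspan : Ideal.ofList
        ((List.ofFn fun j => (MvPowerSeries.X (e j) : MvPowerSeries σ k)).take i) =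
          Ideal.span ((MvPowerSeries.X : σ → MvPowerSeries σ k) ''
            ↑((Finset.Iio (⟨i, hi⟩ : Fin n)).map e.toEmbedding)) := by
      refine congrArg Ideal.span (Set.ext fun x => ?_)
      simp only [Set.mem_ofPred_eq, Set.mem_image, Finset.coe_map, Finset.coe_Iio, Set.mem_Iio,
        List.mem_take_iff_getElem, List.getElem_ofFn, List.length_ofFn, Equiv.coe_toEmbedding]
      constructor
      · rintro ⟨j, hj, rfl⟩
        exact ⟨e ⟨j, by omega⟩, ⟨⟨j, by omega⟩, by simp [Fin.lt_def]; omega, rfl⟩, rfl⟩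
      · rintro ⟨_, ⟨j, hj, rfl⟩, rfl⟩
        exact ⟨j, by simp [Fin.lt_def] at hj; omega, rfl⟩
    rw [isSMulRegular_quotient_iff_mem_of_smul_mem]
    intro f hf
    rw [smul_eq_mul, Ideal.mul_top, hspan, Patching.mem_span_X_image_iff] at hf ⊢
    intro m hm
    have := hf (Finsupp.single (e ⟨i, hi⟩) 1 + m) fun j hj => by
      obtain ⟨j', hj', rfl⟩ := Finset.mem_map.1 hj
      have hne : e j' ≠ e ⟨i, hi⟩ := fun h =>
        ne_of_lt (Finset.mem_Iio.1 hj') (e.injective h)
      simp [Finsupp.single_eq_of_ne, hne]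
      exact hm _ hj
    rwa [smul_eq_mul, MvPowerSeries.X_def, MvPowerSeries.coeff_add_monomial_mul, one_mul] at this

theorem mem_maximalIdeal_of_sum_mul_X [Fintype σ] {n : ℕ} (e : Fin n ≃ σ)
    (c : Fin n → MvPowerSeries σ k) (h : ∑ j, c j * MvPowerSeries.X (e j) = 0) (j : Fin n) :
    c j ∈ maximalIdeal _ := by
  classical
  rw [mem_maximalIdeal, mem_nonunits_iff, MvPowerSeries.isUnit_iff_constantCoeff,
    isUnit_iff_ne_zero, not_not]
  have h1 := congrArg (MvPowerSeries.coeff (Finsupp.single (e j) 1)) h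
  rw [map_sum, map_zero, Finset.sum_eq_single j] at h1
  · rw [MvPowerSeries.X_def, MvPowerSeries.coeff_mul_monomial, if_pos le_rfl, tsub_self,
      mul_one] at h1
    rwa [← MvPowerSeries.coeff_zero_eq_constantCoeff_apply]
  · intro l _ hl
    rw [MvPowerSeries.X_def, MvPowerSeries.coeff_mul_monomial, if_neg]
    intro hle
    have := hle (e l)
    simp [Finsupp.single_eq_of_ne, e.injective.ne hl] at this
  · simp

end PowerSeries

section Perturb

variable {P : Type*} [CommRing P] [IsLocalRing P] [IsNoetherianRing P]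

/-- Below the dimension, the maximal ideal is not associated to a regular sequence. -/
theorem not_mem_associatedPrimes_of_short {n i : ℕ} (hi : i < n) {x : Fin n → P}
    (hx : IsRegular P (List.ofFn x)) {f : Fin i → P} (hf : IsRegular P (List.ofFn f)) :
    maximalIdeal P ∉ associatedPrimes P (P ⧸ Ideal.span (Set.range f)) := by
  intro h
  obtain ⟨z, hz, hz'⟩ := exists_of_mem_associatedPrimes h
  match i with
  | 0 =>
    obtain ⟨m, rfl⟩ : ∃ m, n = m + 1 := ⟨n - 1, by omega⟩
    have h0 : Ideal.span (Set.range f) = ⊥ := by simp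
    rw [h0, Ideal.mem_bot] at hz
    have hw := hx.toIsWeaklyRegular
    rw [List.ofFn_succ, isWeaklyRegular_cons_iff] at hw
    refine hz (hw.1.right_eq_zero_of_smul ?_)
    have := hz' (x 0) (mem_maximalIdeal_of_isRegular hx 0)
    rw [h0, Ideal.mem_bot] at this
    exact this
  | l + 1 => exact hz (socle_eq_of_short hi hx hf hz')

/-- Any family of elements of the maximal ideal, as long as a regular sequence, becomes a regular
sequence after adding elements of a given power of the maximal ideal. -/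
theorem exists_isRegular_add {n : ℕ} {x : Fin n → P} (hx : IsRegular P (List.ofFn x)) (K : ℕ)
    (hK : K ≠ 0) (y : Fin n → P) (hy : ∀ i, y i ∈ maximalIdeal P) :
    ∃ h : Fin n → P, (∀ i, h i ∈ maximalIdeal P ^ K) ∧
      IsRegular P (List.ofFn fun i => y i + h i) := by
  suffices H : ∀ i (hi : i ≤ n), ∃ h : Fin i → P, (∀ l, h l ∈ maximalIdeal P ^ K) ∧
      IsRegular P (List.ofFn fun l => y (Fin.castLE hi l) + h l) by
    obtain ⟨h, h1, h2⟩ := H n le_rfl
    exact ⟨h, h1, by simpa using h2⟩
  intro i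
  induction i with
  | zero =>
    intro hi
    refine ⟨0, fun l => l.elim0, ?_⟩
    rw [List.ofFn_zero]
    exact IsRegular.nil P P
  | succ i ih =>
    intro hi
    obtain ⟨h, h1, h2⟩ := ih (i.le_succ.trans hi)
    set f : Fin i → P := fun l => y (Fin.castLE (i.le_succ.trans hi) l) + h l
    let S := (associatedPrimes.finite P (P ⧸ Ideal.span (Set.range f))).toFinset
    have hS : ∀ q ∈ S, q.IsPrime := fun q hq => ((Set.Finite.mem_toFinset _).1 hq).1
    have hI : ∀ q ∈ S, ¬ maximalIdeal P ^ K ≤ q := fun q hq hle => by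
      have := hS q hq
      have hmq : maximalIdeal P ≤ q := Ideal.IsPrime.le_of_pow_le hle
      have heq := (maximalIdeal.isMaximal P).eq_of_le this.ne_top hmq
      exact not_mem_associatedPrimes_of_short (by omega) hx h2
        (heq ▸ (Set.Finite.mem_toFinset _).1 hq)
    obtain ⟨g, hg, hg'⟩ := exists_add_notMem S hS hI (y ⟨i, hi⟩)
    refine ⟨Fin.snoc h g, fun l => ?_, ?_⟩
    · induction l using Fin.lastCases with
      | last => simpa using hg
      | cast l => simpa using h1 l
    · rw [List.ofFn_succ', List.concat_eq_append]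
      simp only [Fin.snoc_castSucc, Fin.snoc_last]
      refine isRegular_append h2.toIsWeaklyRegular (fun r hr => ?_)
        (add_mem (hy _) (Ideal.pow_le_self hK hg)) ?_
      · obtain ⟨l, rfl⟩ := List.mem_ofFn.1 hr
        exact add_mem (hy _) (Ideal.pow_le_self hK (h1 l))
      · rw [ofList_ofFn]
        exact nzdMod_of_forall_notMem fun q hq => hg' q ((Set.Finite.mem_toFinset _).2 hq)

variable {N : Type*} [AddCommGroup N] [Module P N]

omit [IsNoetherianRing P] in
/-- A module killed by a power of the maximal ideal is zero when that ideal generates it. -/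
theorem eq_bot_of_le_smul_top {K : ℕ} (hnil : ∀ p ∈ maximalIdeal P ^ K, ∀ v : N, p • v = 0)
    (h : (⊤ : Submodule P N) ≤ maximalIdeal P • ⊤) : (⊤ : Submodule P N) = ⊥ := by
  have : ∀ j, (⊤ : Submodule P N) ≤ maximalIdeal P ^ j • ⊤ := by
    intro j
    induction j with
    | zero => simp
    | succ j ih =>
      rw [pow_succ, Submodule.mul_smul]
      exact ih.trans (Submodule.smul_mono le_rfl h)
  exact eq_bot_iff.2 ((this K).trans (Submodule.smul_le.2 fun p hp v _ => by simp [hnil p hp v]))

theorem mem_span_of_smul_mem_of_isRegular {n : ℕ} {x f : Fin (n + 1) → P}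
    (hx : IsRegular P (List.ofFn x)) (hxm : Ideal.span (Set.range x) = maximalIdeal P)
    (hmin : ∀ c : Fin (n + 1) → P, ∑ j, c j * x j = 0 → ∀ j, c j ∈ maximalIdeal P)
    (hf : IsRegular P (List.ofFn f)) {K : ℕ}
    (hnil : ∀ p ∈ maximalIdeal P ^ K, ∀ v : N, p • v = 0) [Nontrivial N]
    (hfree : ∀ u : Fin (n + 1) → N, ∑ i, f i • u i = 0 →
      ∀ i, u i ∈ Ideal.span (Set.range f) • (⊤ : Submodule P N))
    {q : P} (hq : ∀ v : N, q • v ∈ Ideal.span (Set.range f) • (⊤ : Submodule P N)) :
    q ∈ Ideal.span (Set.range f) := by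
  by_contra hqf
  have hfm : ∀ i, f i ∈ Ideal.span (Set.range x) := fun i =>
    hxm ▸ mem_maximalIdeal_of_isRegular hf i
  choose b hb using fun i => Ideal.mem_span_range_iff_exists_fun.1 (hfm i)
  let a : Matrix (Fin (n + 1)) (Fin (n + 1)) P := Matrix.of b
  have ha : f = a *ᵥ x := funext fun i => (hb i).symm
  obtain ⟨t, ht⟩ := exists_mul_sub_det_mem hx hxm hmin hf ha hqf
  refine bot_ne_top (α := Submodule P N) (eq_bot_of_le_smul_top hnil fun v _ => ?_).symm
  have hdet : a.det • v ∈ Ideal.span (Set.range f) • (⊤ : Submodule P N) := by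
    have h1 : (t * q - a.det) • v ∈ Ideal.span (Set.range f) • (⊤ : Submodule P N) :=
      Submodule.smul_mem_smul ht Submodule.mem_top
    rw [sub_smul, mul_smul] at h1
    simpa using sub_mem (Submodule.smul_mem _ t (hq v)) h1
  have key := mem_sup_of_det_smul_mem a x (by rw [← ha]; exact hfree) (by rw [← ha]; exact hdet)
  rw [← ha, hxm] at key
  refine (sup_le le_rfl (Submodule.smul_mono ?_ le_rfl) :
    maximalIdeal P • ⊤ ⊔ Ideal.span (Set.range f) • ⊤ ≤ maximalIdeal P • (⊤ : Submodule P N)) key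
  rw [Ideal.span_le]
  rintro _ ⟨i, rfl⟩
  exact mem_maximalIdeal_of_isRegular hf i

omit [IsNoetherianRing P] in
theorem smul_top_congr {ι : Type*} {K : ℕ} (hnil : ∀ p ∈ maximalIdeal P ^ K, ∀ v : N, p • v = 0)
    (y h : ι → P) (hh : ∀ i, h i ∈ maximalIdeal P ^ K) :
    Ideal.span (Set.range fun i => y i + h i) • (⊤ : Submodule P N) =
      Ideal.span (Set.range y) • ⊤ := by
  have key : ∀ (a b : ι → P), (∀ i, ∀ v : N, a i • v = b i • v) →
      Ideal.span (Set.range a) • (⊤ : Submodule P N) ≤ Ideal.span (Set.range b) • ⊤ := by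
    intro a b hab
    refine Submodule.smul_le.2 fun r hr v _ => ?_
    induction hr using Submodule.span_induction with
    | mem r hr =>
      obtain ⟨i, rfl⟩ := hr
      rw [hab]
      exact Submodule.smul_mem_smul (Ideal.subset_span ⟨i, rfl⟩) Submodule.mem_top
    | zero => simp
    | add r s _ _ hr hs => rw [add_smul]; exact add_mem hr hs
    | smul c r _ hr => rw [smul_eq_mul, mul_smul]; exact Submodule.smul_mem _ c hr
  exact le_antisymm (key _ _ fun i v => by rw [add_smul, hnil _ (hh i), add_zero])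
    (key _ _ fun i v => by rw [add_smul, hnil _ (hh i), add_zero])

end Perturb

/-- **The freeness criterion.** -/
theorem mem_span_of_smul_mem {k : Type*} [Field k] {σ ι : Type*} [Fintype σ] [Fintype ι]
    (hcard : Fintype.card σ = Fintype.card ι) {N : Type*} [AddCommGroup N]
    [Module (MvPowerSeries σ k) N] [Nontrivial N]
    (hnil : ∃ K : ℕ, ∀ p ∈ IsLocalRing.maximalIdeal (MvPowerSeries σ k) ^ K, ∀ v : N, p • v = 0)
    (y : ι → MvPowerSeries σ k) (hy : ∀ i, y i ∈ IsLocalRing.maximalIdeal _)
    (hfree : ∀ u : ι → N, ∑ i, y i • u i = 0 →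
      ∀ i, u i ∈ Ideal.span (Set.range y) • (⊤ : Submodule (MvPowerSeries σ k) N))
    (q : MvPowerSeries σ k)
    (hq : ∀ v : N,
      q • v ∈ Ideal.span (Set.range y) • (⊤ : Submodule (MvPowerSeries σ k) N)) :
    q ∈ Ideal.span (Set.range y) := by
  obtain ⟨K, hK⟩ := hnil
  rcases Nat.eq_zero_or_pos (Fintype.card σ) with hn | hn
  · have : IsEmpty σ := Fintype.card_eq_zero_iff.1 hn
    have : IsEmpty ι := Fintype.card_eq_zero_iff.1 (hcard ▸ hn)
    have h0 : ∀ v : N, q • v = 0 := fun v => by
      simpa [Set.range_eq_empty] using hq v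
    obtain ⟨v, hv⟩ := exists_ne (0 : N)
    by_contra hne
    have hu : IsUnit q := by
      rw [MvPowerSeries.isUnit_iff_constantCoeff, isUnit_iff_ne_zero]
      intro hc
      refine hne ?_
      have : q = 0 := by
        ext m
        rw [Subsingleton.elim m 0, MvPowerSeries.coeff_zero_eq_constantCoeff_apply, hc, map_zero]
      rw [this]
      exact zero_mem _
    exact hv (hu.smul_left_cancel.1 (by rw [h0, smul_zero]))
  · obtain ⟨n, hn'⟩ := Nat.exists_eq_succ_of_ne_zero hn.ne'
    let eσ : Fin (n + 1) ≃ σ := (Fintype.equivFinOfCardEq hn').symm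
    let eι : Fin (n + 1) ≃ ι := (Fintype.equivFinOfCardEq (hcard ▸ hn')).symm
    have hspan : Ideal.span (Set.range (y ∘ eι)) = Ideal.span (Set.range y) := by
      rw [eι.surjective.range_comp]
    rw [← hspan] at hq hfree ⊢
    have hfree' : ∀ u : Fin (n + 1) → N, ∑ i, (y ∘ eι) i • u i = 0 →
        ∀ i, u i ∈ Ideal.span (Set.range (y ∘ eι)) • (⊤ : Submodule (MvPowerSeries σ k) N) := by
      intro u hu i
      have := hfree (u ∘ eι.symm) ?_ (eι i)
      · simpa using this
      · rw [← eι.sum_comp]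
        simpa using hu
    have hclosed : ∀ j, q ∈ Ideal.span (Set.range (y ∘ eι)) ⊔ maximalIdeal _ ^ j := by
      intro j
      have hK' : ∀ p ∈ maximalIdeal (MvPowerSeries σ k) ^ (K + j + 1), ∀ v : N, p • v = 0 :=
        fun p hp => hK p (Ideal.pow_le_pow_right (by omega) hp)
      obtain ⟨h, hh, hreg⟩ := exists_isRegular_add (isRegular_X_comp eσ) (K + j + 1) (by omega)
        (y ∘ eι) fun i => hy _
      have hsmul := smul_top_congr (N := N) hK' (y ∘ eι) h hh
      have hmem := mem_span_of_smul_mem_of_isRegular (N := N) (isRegular_X_comp eσ)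
        (span_X_comp_eq_maximalIdeal eσ) (fun c hc => mem_maximalIdeal_of_sum_mul_X eσ c hc) hreg
        hK' (fun u hu i => hsmul ▸ hfree' u (by
          simpa [add_smul, hK' _ (hh _)] using hu) i) (fun v => hsmul ▸ hq v)
      refine (Ideal.span_le.2 ?_ : Ideal.span _ ≤ _) hmem
      rintro _ ⟨i, rfl⟩
      exact Submodule.add_mem_sup (Ideal.subset_span ⟨i, rfl⟩)
        (Ideal.pow_le_pow_right (by omega) (hh i))
    set J := Ideal.span (Set.range (y ∘ eι))
    rw [← Ideal.Quotient.eq_zero_iff_mem, ← Submodule.mem_bot (MvPowerSeries σ k)]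
    rw [← Ideal.iInf_pow_smul_eq_bot_of_isLocalRing (M := MvPowerSeries σ k ⧸ J)
      (maximalIdeal _) (maximalIdeal.isMaximal _).ne_top, Submodule.mem_iInf]
    intro j
    obtain ⟨p, hp, r, hr, hpr⟩ := Submodule.mem_sup.1 (hclosed j)
    rw [← hpr, map_add, Ideal.Quotient.eq_zero_iff_mem.2 hp, zero_add,
      show Ideal.Quotient.mk J r = r • (1 : MvPowerSeries σ k ⧸ J)
        from Algebra.algebraMap_eq_smul_one r]
    exact Submodule.smul_mem_smul hr Submodule.mem_top

end Fermat.Agent.TwoAdic.Patch
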