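import Fermat.Agent.TwoAdic.Patch.Main
import Fermat.Agent.TwoAdic.Patch.DeSmit
import Fermat.Agent.TwoAdic.Patch.Big

/-!
# The point is a system of the big level

The congruence argument turned into an algebra map out of the Hecke algebra.
-/

set_option autoImplicit false
set_option linter.style.haveILetI false
set_option linter.overlappingInstances false

noncomputable section

namespace Fermat.Agent.TwoAdic.Patch

open IsLocalRing Fermat.Agent.Deform Fermat.Agent.TwoAdic.Deform

theorem criterion_of_card {k : Type} [Field k] {g : ℕ} {ι : Type} [Fintype ι]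
    (h : g = Fintype.card ι) : Criterion k g ι :=
  fun hnil y hy hfree q hq =>
    mem_span_of_smul_mem ((Fintype.card_fin g).trans h) hnil y hy hfree q hq

/-- If every element killing a module lands in the kernel of an evaluation, that evaluation
factors through the algebra. -/
theorem exists_algHom_of_annihilator {O T M κ : Type} [CommRing O] [CommRing T] [Algebra O T]
    [AddCommGroup M] [Module T M] (J : Ideal T) (x : κ → T) (w : κ → O)
    (hgen : ∀ t : T, ∃ p : MvPolynomial κ O, t - MvPolynomial.aeval x p ∈ J)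
    (hker : ∀ p : MvPolynomial κ O,
      (∀ m : M, MvPolynomial.aeval x p • m ∈ J • (⊤ : Submodule T M)) →
      MvPolynomial.aeval w p = (0 : O)) :
    ∃ θ : T →ₐ[O] O, (∀ s, θ (x s) = w s) ∧ ∀ t ∈ J, θ t = 0 := by
  choose P hP using hgen
  have key : ∀ (p : MvPolynomial κ O) (t : T), t - MvPolynomial.aeval x p ∈ J →
      MvPolynomial.aeval w (P t) = MvPolynomial.aeval w p := fun p t h => by
    rw [← sub_eq_zero, ← map_sub]
    refine hker _ fun m => Submodule.smul_mem_smul ?_ Submodule.mem_top
    have := Ideal.sub_mem J h (hP t)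
    rwa [sub_sub_sub_cancel_left, ← map_sub] at this
  refine ⟨{ toFun := fun t => MvPolynomial.aeval w (P t)
            map_one' := (key 1 1 (by simp)).trans (map_one _)
            map_zero' := (key 0 0 (by simp)).trans (map_zero _)
            map_mul' := fun s t => (key (P s * P t) _ ?_).trans (map_mul _ _ _)
            map_add' := fun s t => (key (P s + P t) _ ?_).trans (map_add _ _ _)
            commutes' := fun o => (key (MvPolynomial.C o) _ (by simp)).trans (by simp) },
    fun s => ?_, fun t ht => ?_⟩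
  · rw [map_mul, show s * t - MvPolynomial.aeval x (P s) * MvPolynomial.aeval x (P t) =
      (s - MvPolynomial.aeval x (P s)) * t +
        MvPolynomial.aeval x (P s) * (t - MvPolynomial.aeval x (P t)) by ring]
    exact Ideal.add_mem _ (Ideal.mul_mem_right _ _ (hP s)) (Ideal.mul_mem_left _ _ (hP t))
  · rw [map_add, show s + t - (MvPolynomial.aeval x (P s) + MvPolynomial.aeval x (P t)) =
      (s - MvPolynomial.aeval x (P s)) + (t - MvPolynomial.aeval x (P t)) by ring]
    exact Ideal.add_mem _ (hP s) (hP t)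
  · exact (key (MvPolynomial.X s) _ (by simp)).trans (MvPolynomial.aeval_X w s)
  · exact (key 0 t (by simpa using ht)).trans (map_zero _)

variable {O : Type} [CommRing O] [IsDomain O] [IsDiscreteValuationRing O]
  [IsAdicComplete (maximalIdeal O) O] [Finite (ResidueField O)] [CharZero O]
variable {S : Setting O} {Lv : Level S} {D : Aux S Lv} {n : ℕ}

/-- The ideal of the diamonds of the big level. -/
def bigDiaIdeal (B : BigDatum D n) : Ideal B.T :=
  Ideal.span (Set.range (fun i => B.δ i - 1) ∪ {B.g - 1})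

/-- **The point is a system**: an algebra map with the entries of the point, trivial on diamonds. -/
theorem exists_system (hπ : maximalIdeal O = Ideal.span {(2 : O)}) (hL : HasLineRing O)
    {a : O} (ha : residue O a = 1) (B : BigDatum D n) (X : LevelDatum D n a) (E : EigenModule X)
    (hX : ∀ p : MvPolynomial (Gal × Fin 2 × Fin 2) O,
      (∀ m : B.M, MvPolynomial.aeval (fun s : Gal × Fin 2 × Fin 2 => B.r s.1 s.2.1 s.2.2) p • m ∈
        bigDiaIdeal B • (⊤ : Submodule B.T B.M)) →
      ∀ v : X.M, MvPolynomial.aeval (fun s : Gal × Fin 2 × Fin 2 => X.r s.1 s.2.1 s.2.2) p • v ∈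
        paramIdeal D a X.r • (⊤ : Submodule X.T X.M))
    (hgen : ∀ t : B.T, ∃ p : MvPolynomial (Gal × Fin 2 × Fin 2) O,
      t - MvPolynomial.aeval (fun s : Gal × Fin 2 × Fin 2 => B.r s.1 s.2.1 s.2.2) p ∈ bigDiaIdeal B)
    {hO : IsResAlg O O} {rW : Gal →* M2 O} (hlW : Lifts S.W hO rW) (hnW : IsNormal S.W rW)
    (hcW : IsCont rW) (hiW : IsLift S (Level.base S) rW) (haW : signDefect S Lv rW a = 0)
    (hτW : ∀ i, rW (D.τ i) = 1) {m : ℕ} (hsel : ∀ s, SelmerBound (D.flip s) m)
    (hm : m + D.numU = Fintype.card D.ι + 1)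
    (hZ : ¬ (2 : O) ^ n ∣ ∏ i, ((rW (D.φ i)).trace ^ 2 - ((D.q i : O) + 1) ^ 2)) :
    ∃ θ : B.T →ₐ[O] O, (∀ σ j l, θ (B.r σ j l) = rW σ j l) ∧
      (∀ i, θ (B.δ i) = 1) ∧ θ B.g = 1 := by
  obtain ⟨θ, hθ, hθJ⟩ := exists_algHom_of_annihilator (M := B.M) (bigDiaIdeal B)
    (fun s : Gal × Fin 2 × Fin 2 => B.r s.1 s.2.1 s.2.2) (fun s => rW s.1 s.2.1 s.2.2) hgen
    fun p hp => aeval_entries_eq_zero hπ hL X E ha hlW hnW hcW (IsLift.of_base hiW) haW hτW
      (hsel E.s) (criterion_of_card (hm.trans (Fintype.card_option (α := D.ι)).symm)) hZ p (hX p hp)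
  refine ⟨θ, fun σ j l => hθ (σ, j, l), fun i => ?_, ?_⟩
  · have := hθJ _ (Ideal.subset_span (Or.inl ⟨i, rfl⟩))
    rwa [map_sub, map_one, sub_eq_zero] at this
  · have := hθJ _ (Ideal.subset_span (Or.inr rfl))
    rwa [map_sub, map_one, sub_eq_zero] at this

end Fermat.Agent.TwoAdic.Patch
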