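import Fermat.Agent.TwoAdic.Deform.AuxRing
import Fermat.Agent.TwoAdic.Deform.Flip

/-!
# The data of the two-adic patching argument at one finite level

`LevelDatum` is what the Hecke module of level `Γ_H(L)` provides: a local algebra with a lift, and
a module with the properties of a free module over `O[Δ][w]`. The parameters are
`δ_q - 1` at the auxiliary primes and the defect `κ` of the sign condition. `EigenModule` is a
direct summand of the quotient by the norms carrying the eigen lines at all auxiliary primes.
-/

set_option autoImplicit false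

noncomputable section

namespace Fermat.Agent.TwoAdic.Patch

open IsLocalRing Fermat.Agent.Deform Fermat.Agent.TwoAdic.Deform

variable {O : Type} [CommRing O] [IsLocalRing O] {S : Setting O} {Lv : Level S}
variable {T : Type} [CommRing T] [Algebra O T]

/-- The parameters: `det r(τ_i) - 1` and the defect of the sign condition. -/
def param (D : Aux S Lv) (a : O) (r : Gal →* M2 T) : Option D.ι → T
  | none => signDefect S Lv r a
  | some i => (r (D.τ i)).det - 1

/-- The ideal of the parameters. -/
def paramIdeal (D : Aux S Lv) (a : O) (r : Gal →* M2 T) : Ideal T :=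
  Ideal.span (Set.range (param D a r))

/-- The norm of the diamond group at an auxiliary prime. -/
def normElt (D : Aux S Lv) (n : ℕ) (r : Gal →* M2 T) (i : D.ι) : T :=
  ∑ j ∈ Finset.range (2 ^ n), (r (D.τ i)).det ^ j

/-- The ideal of the norms. -/
def normIdeal (D : Aux S Lv) (n : ℕ) (r : Gal →* M2 T) : Ideal T :=
  Ideal.span (Set.range (normElt D n r))

/-- The Hecke module at an auxiliary level. -/
structure LevelDatum (D : Aux S Lv) (n : ℕ) (a : O) : Type 1 where
  T : Type
  [commRing : CommRing T]
  [isLocalRing : IsLocalRing T]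
  [algebra : Algebra O T]
  [finiteT : Module.Finite O T]
  res : IsResAlg O T
  r : Gal →* M2 T
  lifts : Lifts S.W res r
  normal : IsNormal S.W r
  cont : IsCont r
  isLift : IsLift S Lv r
  M : Type
  [addCommGroup : AddCommGroup M]
  [moduleO : Module O M]
  [module : Module T M]
  [tower : IsScalarTower O T M]
  [finiteM : Module.Finite O M]
  two_le : 2 ≤ n
  q_mod : ∀ i, D.q i ≡ 1 [MOD 2 ^ n]
  order : ∀ i, (r (D.τ i)).det ^ 2 ^ n = 1
  det_frob : ∀ i, ∀ v : M,
    ((r (D.φ i)).det - (D.q i : T)) • v ∈ paramIdeal D a r • (⊤ : Submodule T M)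
  /-- Freeness modulo the norms and `2`: the parameters form a free sequence. -/
  freeSq : ∀ u : Option D.ι → M,
    ∑ o, param D a r o • u o ∈
      normIdeal D n r • (⊤ : Submodule T M) ⊔ Ideal.span {(2 : T)} • ⊤ →
    ∀ o, u o ∈ paramIdeal D a r • (⊤ : Submodule T M) ⊔ Ideal.span {(2 : T)} • ⊤
  /-- The parameters at the auxiliary primes are regular modulo the norms. -/
  regular : ∀ i, ∀ v : M, param D a r (some i) • v ∈ normIdeal D n r • (⊤ : Submodule T M) →
    v ∈ normIdeal D n r • (⊤ : Submodule T M)
  /-- The quotient by one parameter is torsion free. -/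
  modFree : ∀ i, ∀ v : M,
    (2 : T) • v ∈ Ideal.span {param D a r (some i)} • (⊤ : Submodule T M) →
      v ∈ Ideal.span {param D a r (some i)} • (⊤ : Submodule T M)
  /-- The quotient by all parameters is torsion free. -/
  zeroFree : ∀ v : M, (2 : T) • v ∈ paramIdeal D a r • (⊤ : Submodule T M) →
    v ∈ paramIdeal D a r • (⊤ : Submodule T M)
  nontrivial : paramIdeal D a r • (⊤ : Submodule T M) ⊔ Ideal.span {(2 : T)} • ⊤ ≠ ⊤

attribute [instance] LevelDatum.commRing LevelDatum.isLocalRing LevelDatum.algebra
  LevelDatum.finiteT LevelDatum.addCommGroup LevelDatum.moduleO LevelDatum.module LevelDatum.tower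
  LevelDatum.finiteM

variable {D : Aux S Lv} {n : ℕ} {a : O}

/-- A summand of the module modulo the norms, with eigen lines at every auxiliary prime. -/
structure EigenModule (X : LevelDatum D n a) : Type 1 where
  /-- The choice of the residual eigenvalues. -/
  s : D.ι → Bool
  B : Type
  [commRing : CommRing B]
  [isLocalRing : IsLocalRing B]
  [algebraO : Algebra O B]
  [algebra : Algebra X.T B]
  [towerB : IsScalarTower O X.T B]
  [finiteB : Module.Finite O B]
  res : IsResAlg O B
  isLocalHom : IsLocalHom (algebraMap X.T B)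
  x : D.ι → B
  x_mem : ∀ i, x i ∈ maximalIdeal B
  eigen : IsEigen (D.flip s) (mapM (algebraMap X.T B) X.r) x
  N : Type
  [addCommGroup : AddCommGroup N]
  [moduleB : Module B N]
  [module : Module X.T N]
  [towerN : IsScalarTower X.T B N]
  finiteN : Module.Finite B N
  π : X.M →ₗ[X.T] N
  π_surjective : Function.Surjective π
  freeSq : ∀ u : Option D.ι → N,
    ∑ o, param D a X.r o • u o ∈ Ideal.span {(2 : X.T)} • (⊤ : Submodule X.T N) →
    ∀ o, u o ∈ paramIdeal D a X.r • (⊤ : Submodule X.T N) ⊔ Ideal.span {(2 : X.T)} • ⊤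
  /-- Modulo the parameters the summand is free over `O / 2 ^ n`. -/
  modFree : ∀ j : ℕ, j < n → ∀ v : N,
    (2 : X.T) • v ∈
      paramIdeal D a X.r • (⊤ : Submodule X.T N) ⊔ Ideal.span {(2 : X.T) ^ (j + 1)} • ⊤ →
    v ∈ paramIdeal D a X.r • (⊤ : Submodule X.T N) ⊔ Ideal.span {(2 : X.T) ^ j} • ⊤
  nontrivial : paramIdeal D a X.r • (⊤ : Submodule X.T N) ⊔ Ideal.span {(2 : X.T)} • ⊤ ≠ ⊤

attribute [instance] EigenModule.commRing EigenModule.isLocalRing EigenModule.algebraO
  EigenModule.algebra EigenModule.towerB EigenModule.finiteB EigenModule.addCommGroup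
  EigenModule.moduleB EigenModule.module EigenModule.towerN

end Fermat.Agent.TwoAdic.Patch
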