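import Fermat.Agent.TwoAdic.Patch.Defs
import Fermat.Agent.TwoAdic.Deform.Family

/-!
# The ring of the Hecke lift and a point

The subalgebra generated by the entries of the pair of a lift over `T` and a point over `O`, with
its two projections; the natural behaviour of the parameters.
-/

set_option autoImplicit false
set_option linter.style.haveILetI false

noncomputable section

namespace Fermat.Agent.TwoAdic.Patch

open IsLocalRing Fermat.Agent.Deform Fermat.Agent.CFT.Tangent Fermat.Agent.TwoAdic.Deform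
  Fermat.Agent.RT.Assembly

variable {O : Type} [CommRing O] [IsLocalRing O] {S : Setting O} {Lv : Level S}
variable {A B : Type} [CommRing A] [Algebra O A] [CommRing B] [Algebra O B]

/-- The parameters are natural. -/
theorem param_map {D : Aux S Lv} {a : O} [IsLocalRing A] {h : IsResAlg O A} {r : Gal →* M2 A}
    (hl : Lifts S.W h r) (hlift : IsLift S Lv r) (φ : A →ₐ[O] B) (o : Option D.ι) :
    param D a (mapM (φ : A →+* B) r) o = φ (param D a r o) := by
  have hdet : ∀ σ, (mapM (φ : A →+* B) r σ).det = φ (r σ).det := fun σ =>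
    ((φ : A →+* B).map_det (r σ)).symm
  cases o with
  | some i => show _ - 1 = φ (_ - 1); rw [map_sub, map_one, hdet]
  | none =>
    have hu : IsUnit (mapM (φ : A →+* B) r S.σ2 0 1) := by
      rw [mapM_apply]; exact (isUnit_σ2_entry hl).map _
    have h2 := ((twoLine_twoPos hl hlift).map (φ : A →+* B)).eq_twoPos hu
    show lineVal _ _ - _ * _ = φ (lineVal _ _ - _ * _)
    rw [map_sub, map_mul, AlgHom.commutes, hdet, ← h2]
    exact congrArg₂ (· - ·) (lineVal_map _ (r S.φ2) (φ : A →+* B)) rfl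

theorem param_mem {D : Aux S Lv} {a : O} (ha : residue O a = 1) [IsLocalRing A]
    {h : IsResAlg O A} {r : Gal →* M2 A} (hl : Lifts S.W h r) (hlift : IsLift S Lv r)
    (o : Option D.ι) : param D a r o ∈ maximalIdeal A := by
  cases o with
  | none => exact signDefect_mem hl hlift ha
  | some i =>
    refine (augment_eq_zero_iff h _).mp ?_
    show augment h ((r (D.τ i)).det - 1) = 0
    rw [map_sub, map_one, show augment h (r (D.τ i)).det = (S.W.rb (D.τ i)).det from by
      rw [← augM_lift (h := h) hl]; exact (augment h : A →+* ResidueField O).map_det _,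
      S.det_rb, sub_self]

theorem isLift_of_prod [IsNoetherianRing O] [Module.Finite O A] [Module.Finite O B] {R : Type}
    [CommRing R] [IsLocalRing R] [Algebra O R] {h : IsResAlg O R} {r : Gal →* M2 R}
    (hl : Lifts S.W h r) (f : R →ₐ[O] A × B) (hf : Function.Injective f) {rA : Gal →* M2 A}
    {rB : Gal →* M2 B} (hiA : IsLift S Lv rA) (hiB : IsLift S Lv rB)
    (hmap : ∀ σ i j, f (r σ i j) = (rA σ i j, rB σ i j)) : IsLift S Lv r :=
  IsLift.of_map (f := (f : R →+* A × B)) hf (twoSaturated_of_linearMap f hf)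
    (isUnit_σ2_entry hl)
    ((MonoidHom.ext fun σ => Matrix.ext fun i j => hmap σ i j :
      mapM (f : R →+* A × B) r = prodM rA rB) ▸ hiA.prod hiB)

set_option maxHeartbeats 800000 in
theorem exists_pair [IsDomain O] [IsDiscreteValuationRing O]
    [IsAdicComplete (maximalIdeal O) O] [IsLocalRing A] [Module.Finite O A] [IsLocalRing B]
    [Module.Finite O B] {hA : IsResAlg O A} {hB : IsResAlg O B} {rA : Gal →* M2 A}
    {rB : Gal →* M2 B} (hlA : Lifts S.W hA rA) (hlB : Lifts S.W hB rB) (hnA : IsNormal S.W rA)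
    (hnB : IsNormal S.W rB) (hcA : IsCont rA) (hcB : IsCont rB) (hiA : IsLift S Lv rA)
    (hiB : IsLift S Lv rB) :
    ∃ (R : Type) (_ : CommRing R) (_ : IsLocalRing R) (_ : Algebra O R) (_ : Module.Finite O R)
      (_ : IsNoetherianRing R) (_ : IsAdicComplete (maximalIdeal R) R) (h : IsResAlg O R)
      (r : Gal →* M2 R) (fA : R →ₐ[O] A) (fB : R →ₐ[O] B),
      Lifts S.W h r ∧ IsNormal S.W r ∧ IsCont r ∧ IsLift S Lv r ∧
      IsLocalHom (fA : R →+* A) ∧ IsLocalHom (fB : R →+* B) ∧
      mapM (fA : R →+* A) r = rA ∧ mapM (fB : R →+* B) r = rB ∧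
      (∀ p, fA p = 0 → fB p = 0 → p = 0) ∧
      Algebra.adjoin O (entries r) = ⊤ ∧
      ∀ δ : tangentDer h, (∀ σ i j, δ.1 (r σ i j) = 0) → δ = 0 := by
  set r₀ := prodLift hA hB hlA hlB with hr₀
  have hl₀ := lifts_prodLift hA hB hlA hlB
  obtain ⟨h', hnoe, hcompl, hloc, hl, hn, hc⟩ := entryAlg_spec (O := O) hl₀
    (isNormal_prodLift hA hB hlA hlB hnA hnB) (isCont_prodLift hA hB hlA hlB hcA hcB)
  let f : entryAlg O r₀ →ₐ[O] A × B := (residueProd hA hB).val.comp (entryAlg O r₀).val
  have hf : Function.Injective f := fun x y h => Subtype.ext (Subtype.ext h)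
  have hlift : IsLift S Lv (entryLift O r₀) :=
    isLift_of_prod (R := entryAlg O r₀) hl f hf hiA hiB fun σ i j => rfl
  let fA : entryAlg O r₀ →ₐ[O] A := (residueFst hA hB).comp (entryAlg O r₀).val
  let fB : entryAlg O r₀ →ₐ[O] B := (residueSnd hA hB).comp (entryAlg O r₀).val
  have hA' : mapM (A := entryAlg O r₀) (fA : entryAlg O r₀ →+* A) (entryLift O r₀) = rA := by ext σ i j; rfl
  have hB' : mapM (A := entryAlg O r₀) (fB : entryAlg O r₀ →+* B) (entryLift O r₀) = rB := by ext σ i j; rfl
  refine ⟨entryAlg O r₀, inferInstance, inferInstance, inferInstance, inferInstance, hnoe, hcompl,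
    h', entryLift O r₀, fA, fB, hl, hn, hc, hlift, ?_, ?_, hA', hB', ?_, ?_,
    fun δ hδ => der_eq_zero_of_entries r₀ δ hδ⟩
  · exact ⟨fun x hx => hloc.map_nonunit x ((isLocalHom_residueFst hA hB).map_nonunit _ hx)⟩
  · exact ⟨fun x hx => hloc.map_nonunit x ((isLocalHom_residueSnd hA hB).map_nonunit _ hx)⟩
  · exact fun p h1 h2 => hf ((Prod.ext h1 h2 : f p = 0).trans (map_zero f).symm)
  · refine eq_top_iff.mpr fun x hxt => ?_
    clear hxt
    obtain ⟨x, hx⟩ := x
    induction hx using Algebra.adjoin_induction with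
    | mem y hy =>
      obtain ⟨⟨σ, i, j⟩, rfl⟩ := hy
      exact Algebra.subset_adjoin ⟨(σ, i, j), rfl⟩
    | algebraMap o => exact Subalgebra.algebraMap_mem _ o
    | add y z hy hz h1 h2 => exact add_mem h1 h2
    | mul y z hy hz h1 h2 => exact mul_mem h1 h2

end Fermat.Agent.TwoAdic.Patch
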