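import Mathlib

/-!
# Descent along the Koszul complex using first syzygies only

`y = a x`, and every syzygy of `y` on the module `N` has entries in `y N`. If `det a • v ∈ y N`
then `v ∈ x N + y N`: the multiples of `v` by bordered minors of `a` descend from order `0` to
order `#ι`, where the minor is a unit.
-/

set_option autoImplicit false

noncomputable section

namespace Fermat.Agent.TwoAdic.Patch

open Matrix Finset

variable {A : Type*} [CommRing A] {ι : Type*} [Fintype ι] [DecidableEq ι]

/-- The columns `e_{R l}`. -/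
def selMat {k : ℕ} (R : Fin k → ι) : Matrix ι (Fin k) A :=
  Matrix.of fun i l => if R l = i then 1 else 0

omit [Fintype ι] in
theorem selMat_apply {k : ℕ} (R : Fin k → ι) (i : ι) (l : Fin k) :
    selMat (A := A) R i l = if R l = i then 1 else 0 := rfl

/-- The bordered minor: up to sign, the minor of `a` avoiding the rows `R` and the columns `d`. -/
def borderMinor (a : Matrix ι ι A) {k : ℕ} (R d : Fin k → ι) : A :=
  (fromBlocks a (selMat R) (selMat d)ᵀ 0).det

theorem borderMinor_zero (a : Matrix ι ι A) (R d : Fin 0 → ι) : borderMinor a R d = a.det := by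
  rw [borderMinor, Subsingleton.elim (0 : Matrix (Fin 0) (Fin 0) A) 1, det_fromBlocks_one₂₂]
  congr 1
  ext i j
  simp

/-- Splitting off the first index. -/
def sumFinSuccEquiv (k : ℕ) : (ι ⊕ Fin k) ⊕ Unit ≃ ι ⊕ Fin (k + 1) where
  toFun := Sum.elim (Sum.map id Fin.succ) fun _ => Sum.inr 0
  invFun := Sum.elim (fun i => Sum.inl (Sum.inl i))
    fun l => Fin.cases (Sum.inr ()) (fun j => Sum.inl (Sum.inr j)) l
  left_inv := by rintro ((i | j) | u) <;> simp
  right_inv := by
    rintro (i | l)
    · simp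
    · induction l using Fin.cases <;> simp

theorem sum_mul_borderMinor (a : Matrix ι ι A) (x : ι → A) {k : ℕ} (R : Fin k → ι)
    (d : Fin (k + 1) → ι) :
    ∑ i, (a *ᵥ x) i * borderMinor a (Fin.cons i R) d +
      ∑ l : Fin (k + 1), (-1) ^ (l : ℕ) * x (d l) * borderMinor a R (d ∘ l.succAbove) = 0 := by
  let E : Matrix ι (Fin (k + 1)) A :=
    Matrix.of fun i l => Fin.cases 0 (fun j => selMat R i j) l
  let M := fromBlocks a E (selMat d)ᵀ (0 : Matrix (Fin (k + 1)) (Fin (k + 1)) A)
  let z : ι ⊕ Fin (k + 1) → A := Sum.elim x 0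
  have hMz : M *ᵥ z = Sum.elim (a *ᵥ x) (x ∘ d) := by
    show fromBlocks a E (selMat d)ᵀ 0 *ᵥ Sum.elim x 0 = _
    rw [fromBlocks_mulVec]
    refine congrArg₂ Sum.elim (by simp) ?_
    ext l
    simp [Matrix.mulVec, dotProduct, selMat_apply, ite_mul]
  have hdet : M.det = 0 := by
    refine det_eq_zero_of_column_eq_zero (Sum.inr 0) ?_
    rintro (i | l) <;> simp [M, E]
  have hcr : cramer M (M *ᵥ z) (Sum.inr 0) = 0 := by
    rw [cramer_eq_adjugate_mulVec, mulVec_mulVec, adjugate_mul, hdet, zero_smul, zero_mulVec]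
    rfl
  have hlin : ∀ v : ι ⊕ Fin (k + 1) → A, cramer M v (Sum.inr 0) =
      ∑ r, v r * (M.updateCol (Sum.inr 0) (Pi.single r 1)).det := by
    intro v
    conv_lhs => rw [pi_eq_sum_univ' v, map_sum, Finset.sum_apply]
    refine Finset.sum_congr rfl fun r _ => ?_
    rw [map_smul, Pi.smul_apply, cramer_apply, smul_eq_mul]
  rw [hMz, hlin, Fintype.sum_sum_type] at hcr
  rw [← hcr]
  refine congrArg₂ (· + ·) (Finset.sum_congr rfl fun i _ => ?_)
    (Finset.sum_congr rfl fun l _ => ?_)
  · rw [Sum.elim_inl, borderMinor]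
    congr 2
    ext r s
    rcases r with r | r <;> rcases s with s | s
    · simp [M]
    · induction s using Fin.cases <;>
        simp [M, E, selMat_apply, Fin.succ_ne_zero, Pi.single_apply, eq_comm]
    · simp [M]
    · induction s using Fin.cases <;>
        simp [M, Fin.succ_ne_zero]
  · rw [Sum.elim_inr, Function.comp_apply]
    set N := M.updateCol (Sum.inr 0) (Pi.single (Sum.inr l) 1) with hN
    let p : Equiv.Perm (ι ⊕ Fin (k + 1)) := (Equiv.refl ι).sumCongr l.cycleRange.symm
    have hp : (N.submatrix p id).det = (-1) ^ (l : ℕ) * N.det := by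
      rw [det_permute, show Equiv.Perm.sign p = (-1) ^ (l : ℕ) by
        simp [p, Equiv.Perm.sign_sumCongr]]
      simp
    have hblk : (N.submatrix p id).submatrix (sumFinSuccEquiv k) (sumFinSuccEquiv k) =
        fromBlocks (fromBlocks a (selMat R) (selMat (d ∘ l.succAbove))ᵀ 0) 0
          (Matrix.of fun _ s => Sum.elim (fun j => (selMat d)ᵀ l j) (fun _ => 0) s) 1 := by
      ext r s
      rcases r with (r | r) | r <;> rcases s with (s | s) | s <;>
        simp [p, N, M, E, sumFinSuccEquiv, Fin.succ_ne_zero, selMat_apply, Fin.succAbove_ne]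
    have hd : (N.submatrix p id).det = borderMinor a R (d ∘ l.succAbove) := by
      rw [← det_submatrix_equiv_self (sumFinSuccEquiv k), hblk, det_fromBlocks_zero₁₂, det_one,
        mul_one]
      rfl
    rw [← hd, hp]
    rw [show (-1 : A) ^ (l : ℕ) * x (d l) * ((-1) ^ (l : ℕ) * N.det) =
      ((-1) ^ (l : ℕ) * (-1) ^ (l : ℕ)) * (x (d l) * N.det) by ring, ← mul_pow]
    simp

theorem isUnit_borderMinor_of_bijective (a : Matrix ι ι A) {k : ℕ} (e : Fin k ≃ ι) :
    IsUnit (borderMinor a (e : Fin k → ι) e) := by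
  let e' : Fin k ⊕ Fin k ≃ ι ⊕ Fin k := e.sumCongr (Equiv.refl _)
  rw [borderMinor, ← det_submatrix_equiv_self e']
  have h : (fromBlocks a (selMat e) (selMat (e : Fin k → ι))ᵀ 0).submatrix e' e' =
      fromBlocks (a.submatrix e e) 1 1 0 := by
    ext r s
    rcases r with r | r <;> rcases s with s | s <;>
      simp [e', selMat_apply, Matrix.one_apply, eq_comm]
  rw [h]
  refine isUnit_det_of_right_inverse (B := fromBlocks 0 1 1 (-a.submatrix e e)) ?_
  rw [fromBlocks_multiply]
  simp

section Descent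

variable {N : Type*} [AddCommGroup N] [Module A N]

omit [Fintype ι] [DecidableEq ι] in
/-- The boundary of a boundary vanishes. -/
theorem sum_sum_succAbove_eq_zero (x : ι → A) {k : ℕ} (c : (Fin k → ι) → N)
    (d : Fin (k + 2) → ι) :
    ∑ m : Fin (k + 2), ((-1) ^ (m : ℕ) * x (d m)) • ∑ l : Fin (k + 1),
      ((-1) ^ (l : ℕ) * x (d (m.succAbove l))) • c ((d ∘ m.succAbove) ∘ l.succAbove) = 0 := by
  simp only [Finset.smul_sum, smul_smul]
  rw [← Fintype.sum_prod_type']
  refine Finset.sum_involution (fun p _ => (p.1.succAbove p.2, p.2.predAbove p.1)) ?_ ?_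
    (fun _ _ => Finset.mem_univ _) ?_
  · rintro ⟨m, l⟩ -
    simp only [Fin.succAbove_succAbove_predAbove]
    have hs : (-1 : A) ^ ((m.succAbove l : ℕ) + (l.predAbove m : ℕ)) =
        -(-1) ^ ((m : ℕ) + (l : ℕ)) := Fin.neg_one_pow_succAbove_add_predAbove m l
    rw [pow_add, pow_add] at hs
    have hf : (d ∘ (m.succAbove l).succAbove) ∘ (l.predAbove m).succAbove =
        (d ∘ m.succAbove) ∘ l.succAbove :=
      funext fun j => congrArg d (Fin.succAbove_succAbove_succAbove_predAbove m l j)
    rw [hf, ← add_smul]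
    convert zero_smul A (c ((d ∘ m.succAbove) ∘ l.succAbove)) using 2
    linear_combination x (d (m.succAbove l)) * x (d m) * hs
  · rintro ⟨m, l⟩ - - h
    exact m.succAbove_ne l (Prod.ext_iff.1 h).1
  · rintro ⟨m, l⟩ -
    exact Prod.ext (Fin.succAbove_succAbove_predAbove m l)
      (Fin.predAbove_predAbove_succAbove m l)

omit [Fintype ι] [DecidableEq ι] in
theorem exists_sum_of_mem_smul_top {κ : Type*} [Fintype κ] (y : κ → A) {v : N}
    (hv : v ∈ Ideal.span (Set.range y) • (⊤ : Submodule A N)) :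
    ∃ c : κ → N, v = ∑ i, y i • c i := by
  refine Submodule.smul_induction_on hv (fun r hr n _ => ?_) ?_
  · obtain ⟨b, rfl⟩ := Ideal.mem_span_range_iff_exists_fun.1 hr
    exact ⟨fun i => b i • n, by simp [Finset.sum_smul, smul_smul, mul_comm]⟩
  · rintro _ _ ⟨c, rfl⟩ ⟨c', rfl⟩
    exact ⟨c + c', by simp [Finset.sum_add_distrib]⟩

/-- The descent invariant. -/
private def Descends (a : Matrix ι ι A) (x : ι → A) (v : N) (k : ℕ) : Prop :=
  ∃ (t : (Fin k → ι) → (Fin k → ι) → N) (c : ι → (Fin k → ι) → (Fin k → ι) → N),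
    (∀ R d, borderMinor a R d • v = t R d + ∑ i, (a *ᵥ x) i • c i R d) ∧
    (∀ R d, t R d ∈ Ideal.span (Set.range x) • (⊤ : Submodule A N)) ∧
    ∀ R (d : Fin (k + 1) → ι),
      ∑ l : Fin (k + 1), ((-1) ^ (l : ℕ) * x (d l)) • t R (d ∘ l.succAbove) = 0

/-- **Descent from the determinant.** -/
theorem mem_sup_of_det_smul_mem (a : Matrix ι ι A) (x : ι → A)
    (hfree : ∀ u : ι → N, ∑ i, (a *ᵥ x) i • u i = 0 →
      ∀ i, u i ∈ Ideal.span (Set.range (a *ᵥ x)) • (⊤ : Submodule A N))
    {v : N} (hv : a.det • v ∈ Ideal.span (Set.range (a *ᵥ x)) • (⊤ : Submodule A N)) :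
    v ∈ Ideal.span (Set.range x) • (⊤ : Submodule A N) ⊔
      Ideal.span (Set.range (a *ᵥ x)) • ⊤ := by
  have key : ∀ k, Descends a x v k := by
    intro k
    induction k with
    | zero =>
      obtain ⟨c, hc⟩ := exists_sum_of_mem_smul_top _ hv
      exact ⟨fun _ _ => 0, fun i _ _ => c i, fun R d => by
        rw [borderMinor_zero, zero_add, hc], fun _ _ => zero_mem _, fun R d => by simp⟩
    | succ k ih =>
      obtain ⟨t, c, htc, -, ht⟩ := ih
      have hu : ∀ R (d : Fin (k + 1) → ι), ∀ i, borderMinor a (Fin.cons i R) d • v +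
          ∑ l : Fin (k + 1), ((-1) ^ (l : ℕ) * x (d l)) • c i R (d ∘ l.succAbove) ∈
            Ideal.span (Set.range (a *ᵥ x)) • (⊤ : Submodule A N) := by
        intro R d
        refine hfree _ ?_
        have h := congrArg (fun r : A => r • v) (sum_mul_borderMinor a x R d)
        simp only [add_smul, Finset.sum_smul, mul_smul, zero_smul, htc, smul_add,
          Finset.sum_add_distrib] at h
        have h0 := ht R d
        simp only [mul_smul] at h0
        rw [h0, zero_add] at h
        simp only [smul_add, Finset.sum_add_distrib, Finset.smul_sum, mul_smul]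
        rw [← h]
        congr 1
        simp only [Finset.smul_sum]
        rw [Finset.sum_comm]
        refine Finset.sum_congr rfl fun l _ => Finset.sum_congr rfl fun i _ => ?_
        simp only [smul_smul]
        ring_nf
      choose e he using fun R d i => exists_sum_of_mem_smul_top _ (hu R d i)
      refine ⟨fun R d => -∑ l : Fin (k + 1),
          ((-1) ^ (l : ℕ) * x (d l)) • c (R 0) (Fin.tail R) (d ∘ l.succAbove),
        fun i R d => e (Fin.tail R) d (R 0) i, fun R d => ?_, fun R d => neg_mem ?_, fun R d => ?_⟩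
      · have := he (Fin.tail R) d (R 0)
        rw [Fin.cons_self_tail] at this
        rw [neg_add_eq_sub, eq_sub_iff_add_eq]
        exact this
      · exact Submodule.sum_mem _ fun l _ => Submodule.smul_mem_smul
          (Ideal.mul_mem_left _ _ (Ideal.subset_span ⟨d l, rfl⟩)) Submodule.mem_top
      · simp only [smul_neg, Finset.sum_neg_distrib, Function.comp_apply, neg_eq_zero]
        exact sum_sum_succAbove_eq_zero x (fun d' => c (R 0) (Fin.tail R) d') d
  obtain ⟨t, c, htc, htx, -⟩ := key (Fintype.card ι)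
  obtain ⟨w, hw⟩ := isUnit_borderMinor_of_bijective a (Fintype.equivFin ι).symm
  have h := htc (Fintype.equivFin ι).symm (Fintype.equivFin ι).symm
  rw [← hw] at h
  have hv' : v = (↑w⁻¹ : A) • ((w : A) • v) := by rw [smul_smul, Units.inv_mul, one_smul]
  rw [hv', h]
  exact Submodule.smul_mem _ _ (Submodule.add_mem_sup (htx _ _) (Submodule.sum_mem _ fun i _ =>
    Submodule.smul_mem_smul (Ideal.subset_span ⟨i, rfl⟩) Submodule.mem_top))

end Descent

end Fermat.Agent.TwoAdic.Patch
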