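import Fermat.Agent.Deform.Basic
import Fermat.Agent.RT.Assembly.Entries
import Mathlib.RingTheory.MvPowerSeries.Inverse

/-!
# From the freeness criterion to congruences modulo powers of two

A finite algebra which is a quotient of a power series ring in as many variables as there are
parameters: an element killing a module modulo the parameters and `2 ^ j` lies in the ideal of
the parameters and `2 ^ j`.
-/

set_option autoImplicit false
set_option linter.style.haveILetI false

noncomputable section

namespace Fermat.Agent.TwoAdic.Patch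

open IsLocalRing

/-- The freeness criterion over a residue field. -/
abbrev Criterion (k : Type) [Field k] (g : ℕ) (ι : Type) [Fintype ι] : Prop :=
  ∀ {N : Type} [AddCommGroup N] [Module (MvPowerSeries (Fin g) k) N]
    [Module.Finite (MvPowerSeries (Fin g) k) N] [Nontrivial N],
    (∃ K : ℕ, ∀ p ∈ maximalIdeal (MvPowerSeries (Fin g) k) ^ K, ∀ v : N, p • v = 0) →
    ∀ y : ι → MvPowerSeries (Fin g) k, (∀ i, y i ∈ maximalIdeal _) →
    (∀ u : ι → N, ∑ i, y i • u i = 0 →
      ∀ i, u i ∈ Ideal.span (Set.range y) • (⊤ : Submodule (MvPowerSeries (Fin g) k) N)) →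
    ∀ q : MvPowerSeries (Fin g) k,
      (∀ v : N, q • v ∈ Ideal.span (Set.range y) • (⊤ : Submodule (MvPowerSeries (Fin g) k) N)) →
      q ∈ Ideal.span (Set.range y)

variable {O : Type} [CommRing O] [IsDomain O] [IsDiscreteValuationRing O]
  {R : Type} [CommRing R] [IsLocalRing R] [Algebra O R] [Module.Finite O R]
  {N : Type} [AddCommGroup N] [Module R N] [Module.Finite R N]
  {ι : Type} [Fintype ι] {g : ℕ}

theorem mem_two_sup_of_smul_mem (hC : Criterion (ResidueField O) g ι)
    (hπ : maximalIdeal O = Ideal.span {(2 : O)})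
    (γ : MvPowerSeries (Fin g) O →ₐ[O] R) (hγ : Function.Surjective γ)
    (y : ι → R) (hy : ∀ i, y i ∈ maximalIdeal R)
    (hfree : ∀ u : ι → N, ∑ i, y i • u i ∈ Ideal.span {(2 : R)} • (⊤ : Submodule R N) →
      ∀ i, u i ∈ Ideal.span (Set.range y) • (⊤ : Submodule R N) ⊔ Ideal.span {(2 : R)} • ⊤)
    (hne : Ideal.span (Set.range y) • (⊤ : Submodule R N) ⊔ Ideal.span {(2 : R)} • ⊤ ≠ ⊤)
    (p : R) (hp : ∀ v : N,
      p • v ∈ Ideal.span (Set.range y) • (⊤ : Submodule R N) ⊔ Ideal.span {(2 : R)} • ⊤) :
    p ∈ Ideal.span {(2 : R)} ⊔ Ideal.span (Set.range y) := by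
  classical
  let k := ResidueField O
  let J : Ideal R := Ideal.span {(2 : R)}
  let N2 := N ⧸ (J • (⊤ : Submodule R N))
  let red : MvPowerSeries (Fin g) O →+* MvPowerSeries (Fin g) k := MvPowerSeries.map (residue O)
  have hred : Function.Surjective red := fun f => by
    choose c hc using fun d => residue_surjective (MvPowerSeries.coeff d f)
    exact ⟨(c : MvPowerSeries (Fin g) O), MvPowerSeries.ext fun d =>
      (MvPowerSeries.coeff_map (residue O) d (c : MvPowerSeries (Fin g) O)).trans (hc d)⟩
  let act : MvPowerSeries (Fin g) O →+* AddMonoid.End N2 :=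
    (Module.toAddMonoidEnd R N2).comp γ.toRingHom
  have hker : RingHom.ker red ≤ RingHom.ker act := fun f hf => by
    have hc : ∀ d, ∃ c, MvPowerSeries.coeff d f = c * 2 := fun d => by
      have h1 := congrArg (MvPowerSeries.coeff d) (RingHom.mem_ker.mp hf)
      rw [MvPowerSeries.coeff_map, map_zero, residue_eq_zero_iff, hπ,
        Ideal.mem_span_singleton'] at h1
      exact ⟨_, h1.choose_spec.symm⟩
    choose c hc using hc
    let cs : MvPowerSeries (Fin g) O := c
    have hcs : ∀ d, MvPowerSeries.coeff d cs = c d := fun d => rfl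
    have hf2 : f = (2 : O) • cs := MvPowerSeries.ext fun d => by
      rw [map_smul, hc, smul_eq_mul, mul_comm, hcs]
    rw [RingHom.mem_ker]
    refine AddMonoidHom.ext fun z => ?_
    obtain ⟨v, rfl⟩ := Submodule.Quotient.mk_surjective _ z
    show γ f • Submodule.Quotient.mk v = (0 : N2)
    rw [← Submodule.Quotient.mk_smul, Submodule.Quotient.mk_eq_zero, hf2, map_smul,
      Algebra.smul_def, map_ofNat, mul_smul]
    exact Submodule.smul_mem_smul (Ideal.mem_span_singleton_self _) Submodule.mem_top
  let actk : MvPowerSeries (Fin g) k →+* AddMonoid.End N2 :=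
    red.liftOfSurjective hred ⟨act, hker⟩
  have hact : ∀ f, actk (red f) = act f := fun f =>
    RingHom.liftOfRightInverse_comp_apply red _ (Function.rightInverse_surjInv hred) ⟨act, hker⟩ f
  letI : Module (MvPowerSeries (Fin g) k) N2 := Module.compHom N2 actk
  have hsmul : ∀ (f : MvPowerSeries (Fin g) O) (v : N),
      red f • (Submodule.Quotient.mk v : N2) = Submodule.Quotient.mk (γ f • v) := fun f v => by
    show actk (red f) (Submodule.Quotient.mk v : N2) = _
    rw [hact]
    rfl
  haveI : Module.Finite (MvPowerSeries (Fin g) k) N2 := by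
    obtain ⟨t, ht⟩ := Module.Finite.fg_top (R := R) (M := N)
    refine ⟨⟨t.image Submodule.Quotient.mk, eq_top_iff.mpr fun z hzt => ?_⟩⟩
    clear hzt
    obtain ⟨v, rfl⟩ := Submodule.Quotient.mk_surjective _ z
    have hv : v ∈ Submodule.span R (t : Set N) := ht ▸ Submodule.mem_top
    induction hv using Submodule.span_induction with
    | mem w hw =>
      exact Submodule.subset_span (Finset.mem_coe.mpr (Finset.mem_image_of_mem _ hw))
    | zero => exact Submodule.zero_mem _
    | add a b _ _ ha hb => exact Submodule.add_mem _ ha hb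
    | smul r w _ hw =>
      obtain ⟨f, rfl⟩ := hγ r
      rw [← hsmul]
      exact Submodule.smul_mem _ _ hw
  choose yt hyt using fun i => hγ (y i)
  haveI : IsLocalHom (γ : MvPowerSeries (Fin g) O →+* R) := IsLocalHom.of_surjective _ hγ
  have hyk : ∀ i, red (yt i) ∈ maximalIdeal (MvPowerSeries (Fin g) k) := fun i => by
    haveI : IsLocalHom red := IsLocalHom.of_surjective _ hred
    refine map_nonunit red _ fun hu => hy i ?_
    rw [← hyt i]
    exact hu.map γ
  have hmem : ∀ v : N, v ∈ Ideal.span (Set.range y) • (⊤ : Submodule R N) ⊔ J • ⊤ ↔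
      (Submodule.Quotient.mk v : N2) ∈ Ideal.span (Set.range fun i => red (yt i)) •
        (⊤ : Submodule (MvPowerSeries (Fin g) k) N2) := by
    intro v
    constructor
    · intro hv
      obtain ⟨a, ha, b, hb, rfl⟩ := Submodule.mem_sup.mp hv
      rw [Submodule.Quotient.mk_add, (Submodule.Quotient.mk_eq_zero _).mpr hb, add_zero]
      refine Submodule.smul_induction_on ha (fun r hr w _ => ?_) fun a b ha hb => ?_
      · obtain ⟨c, rfl⟩ := (Submodule.mem_span_range_iff_exists_fun R).mp hr
        rw [Finset.sum_smul, ← Submodule.mkQ_apply, map_sum]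
        refine Submodule.sum_mem _ fun i _ => ?_
        obtain ⟨f, hf⟩ := hγ (c i)
        rw [Submodule.mkQ_apply, smul_eq_mul, mul_comm, ← hyt i, ← hf, mul_smul, ← hsmul]
        exact Submodule.smul_mem_smul (Ideal.subset_span ⟨i, rfl⟩) Submodule.mem_top
      · rw [Submodule.Quotient.mk_add]; exact Submodule.add_mem _ ha hb
    · intro hv
      suffices h : ∀ z ∈ Ideal.span (Set.range fun i => red (yt i)) •
          (⊤ : Submodule (MvPowerSeries (Fin g) k) N2), ∀ w : N, Submodule.Quotient.mk w = z →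
            w ∈ Ideal.span (Set.range y) • (⊤ : Submodule R N) ⊔ J • ⊤ from h _ hv v rfl
      intro z hz
      refine Submodule.smul_induction_on hz (fun r hr w' _ w hw => ?_) fun a b ha hb w hw => ?_
      · obtain ⟨c, rfl⟩ := (Submodule.mem_span_range_iff_exists_fun _).mp hr
        obtain ⟨v', rfl⟩ := Submodule.Quotient.mk_surjective _ w'
        choose ct hct using fun i => hred (c i)
        have e : (∑ i, c i • red (yt i)) • (Submodule.Quotient.mk v' : N2) =
            Submodule.Quotient.mk ((∑ i, γ (ct i) * y i) • v') := by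
          rw [Finset.sum_smul, Finset.sum_smul, ← Submodule.mkQ_apply, ← Submodule.mkQ_apply,
            map_sum]
          refine Finset.sum_congr rfl fun i _ => ?_
          rw [smul_eq_mul, ← hct i, ← map_mul, Submodule.mkQ_apply, Submodule.mkQ_apply, hsmul,
            map_mul, hyt i]
        have h1 := (Submodule.Quotient.eq _).mp (hw.trans e)
        have h2 : (∑ i, γ (ct i) * y i) • v' ∈ Ideal.span (Set.range y) • (⊤ : Submodule R N) :=
          Submodule.smul_mem_smul
            (Ideal.sum_mem _ fun i _ => Ideal.mul_mem_left _ _ (Ideal.subset_span ⟨i, rfl⟩))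
            Submodule.mem_top
        have := Submodule.add_mem _ (Submodule.mem_sup_right h1) (Submodule.mem_sup_left h2)
        rwa [sub_add_cancel] at this
      · obtain ⟨a', rfl⟩ := Submodule.Quotient.mk_surjective _ a
        obtain ⟨b', rfl⟩ := Submodule.Quotient.mk_surjective _ b
        rw [← Submodule.Quotient.mk_add] at hw
        have h1 := (Submodule.Quotient.eq _).mp hw
        have h2 := Submodule.add_mem _ (Submodule.mem_sup_right h1)
          (Submodule.add_mem _ (ha a' rfl) (hb b' rfl))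
        rwa [sub_add_cancel] at h2
  haveI : Nontrivial N2 := by
    by_contra h
    rw [not_nontrivial_iff_subsingleton] at h
    exact hne (eq_top_iff.mpr fun v _ => Submodule.mem_sup_right
      ((Submodule.Quotient.mk_eq_zero _).mp (Subsingleton.elim (α := N2) _ _)))
  have hnil : ∃ K : ℕ, ∀ q ∈ maximalIdeal (MvPowerSeries (Fin g) k) ^ K, ∀ z : N2, q • z = 0 := by
    obtain ⟨K, hK⟩ := Fermat.Agent.RT.Assembly.exists_pow_le_map (O := O) (A := R)
    have hK2 : maximalIdeal R ^ K ≤ J := hK.trans (by
      rw [hπ, Ideal.map_span, Set.image_singleton, map_ofNat])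
    refine ⟨K, fun q hq z => ?_⟩
    have hm : maximalIdeal (MvPowerSeries (Fin g) k) ≤
        (maximalIdeal (MvPowerSeries (Fin g) O)).map red := fun a ha => by
      obtain ⟨b, rfl⟩ := hred a
      exact Ideal.mem_map_of_mem _ fun hu => ha (hu.map red)
    have hq' := Ideal.pow_right_mono hm K hq
    rw [← Ideal.map_pow, Ideal.mem_map_iff_of_surjective _ hred] at hq'
    obtain ⟨f, hf, rfl⟩ := hq'
    obtain ⟨v, rfl⟩ := Submodule.Quotient.mk_surjective _ z
    rw [hsmul, Submodule.Quotient.mk_eq_zero]
    refine Submodule.smul_mem_smul (hK2 ?_) Submodule.mem_top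
    have hle : (maximalIdeal (MvPowerSeries (Fin g) O)).map (γ : _ →+* R) ≤ maximalIdeal R :=
      Ideal.map_le_iff_le_comap.mpr fun a ha => map_nonunit (γ : _ →+* R) a ha
    have := Ideal.mem_map_of_mem (γ : _ →+* R) hf
    rw [Ideal.map_pow] at this
    exact Ideal.pow_right_mono hle K this
  obtain ⟨pt, hpt⟩ := hγ p
  have hq := hC hnil (fun i => red (yt i)) hyk (fun u hu i => ?_) (red pt) fun z => by
    obtain ⟨v, rfl⟩ := Submodule.Quotient.mk_surjective _ z
    rw [hsmul, hpt]
    exact (hmem _).mp (hp v)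
  · obtain ⟨c, hc⟩ := (Submodule.mem_span_range_iff_exists_fun _).mp hq
    choose ct hct using fun i => hred (c i)
    have hz : red (pt - ∑ i, ct i * yt i) = 0 := by
      rw [map_sub, map_sum, ← hc, sub_eq_zero]
      exact Finset.sum_congr rfl fun i _ => by rw [map_mul, hct, smul_eq_mul]
    have hc2 : ∀ d, ∃ e, e * 2 = MvPowerSeries.coeff d (pt - ∑ i, ct i * yt i) := fun d => by
      have h1 := congrArg (MvPowerSeries.coeff d) hz
      rw [MvPowerSeries.coeff_map, map_zero, residue_eq_zero_iff, hπ,
        Ideal.mem_span_singleton'] at h1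
      exact h1
    choose e he using hc2
    let es : MvPowerSeries (Fin g) O := e
    have hes : ∀ d, MvPowerSeries.coeff d es = e d := fun d => rfl
    have he' : pt - ∑ i, ct i * yt i = (2 : O) • es :=
      MvPowerSeries.ext fun d => by rw [map_smul, ← he, smul_eq_mul, mul_comm, hes]
    have hp2 := congrArg γ he'
    rw [map_sub, map_sum, hpt, map_smul, Algebra.smul_def, map_ofNat, sub_eq_iff_eq_add] at hp2
    rw [hp2]
    refine Submodule.add_mem_sup (Ideal.mul_mem_right _ _ (Ideal.mem_span_singleton_self _))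
      (Ideal.sum_mem _ fun i _ => ?_)
    rw [map_mul, hyt]
    exact Ideal.mul_mem_left _ _ (Ideal.subset_span ⟨i, rfl⟩)
  · choose v hv using fun i => Submodule.Quotient.mk_surjective _ (u i)
    rw [← hv i, ← hmem]
    refine hfree v ?_ i
    rw [← Submodule.Quotient.mk_eq_zero, ← hu, ← Submodule.mkQ_apply, map_sum]
    refine Finset.sum_congr rfl fun j _ => ?_
    rw [Submodule.mkQ_apply, ← hv j, hsmul, hyt]

theorem mem_pow_sup_of_smul_mem (hC : Criterion (ResidueField O) g ι)
    (hπ : maximalIdeal O = Ideal.span {(2 : O)})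
    (γ : MvPowerSeries (Fin g) O →ₐ[O] R) (hγ : Function.Surjective γ)
    (y : ι → R) (hy : ∀ i, y i ∈ maximalIdeal R)
    (hfree : ∀ u : ι → N, ∑ i, y i • u i ∈ Ideal.span {(2 : R)} • (⊤ : Submodule R N) →
      ∀ i, u i ∈ Ideal.span (Set.range y) • (⊤ : Submodule R N) ⊔ Ideal.span {(2 : R)} • ⊤)
    (hne : Ideal.span (Set.range y) • (⊤ : Submodule R N) ⊔ Ideal.span {(2 : R)} • ⊤ ≠ ⊤)
    {n : ℕ} (hmod : ∀ j < n, ∀ v : N,
      (2 : R) • v ∈ Ideal.span (Set.range y) • (⊤ : Submodule R N) ⊔
        Ideal.span {(2 : R) ^ (j + 1)} • ⊤ →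
      v ∈ Ideal.span (Set.range y) • (⊤ : Submodule R N) ⊔ Ideal.span {(2 : R) ^ j} • ⊤) :
    ∀ j ≤ n, ∀ p : R, (∀ v : N,
      p • v ∈ Ideal.span (Set.range y) • (⊤ : Submodule R N) ⊔ Ideal.span {(2 : R) ^ j} • ⊤) →
      p ∈ Ideal.span {(2 : R) ^ j} ⊔ Ideal.span (Set.range y) := by
  intro j
  induction j with
  | zero =>
    intro _ p _
    rw [pow_zero, Ideal.span_singleton_one, top_sup_eq]
    exact Submodule.mem_top
  | succ j ih =>
    intro hj p hp
    have h1 : p ∈ Ideal.span {(2 : R)} ⊔ Ideal.span (Set.range y) := by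
      refine mem_two_sup_of_smul_mem hC hπ γ hγ y hy hfree hne p fun v => ?_
      have hle : Ideal.span {(2 : R) ^ (j + 1)} • (⊤ : Submodule R N) ≤
          Ideal.span {(2 : R)} • ⊤ := Submodule.smul_mono_left
        (Ideal.span_singleton_le_span_singleton.mpr (dvd_pow_self _ j.succ_ne_zero))
      exact (sup_le le_sup_left (hle.trans le_sup_right) :
        Ideal.span (Set.range y) • (⊤ : Submodule R N) ⊔ Ideal.span {(2 : R) ^ (j + 1)} • ⊤ ≤ _)
          (hp v)
    obtain ⟨a, ha, b, hb, rfl⟩ := Submodule.mem_sup.mp h1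
    obtain ⟨c, rfl⟩ := Ideal.mem_span_singleton'.mp ha
    have hc : ∀ v : N, c • v ∈
        Ideal.span (Set.range y) • (⊤ : Submodule R N) ⊔ Ideal.span {(2 : R) ^ j} • ⊤ := fun v => by
      refine hmod j hj _ ?_
      have h3 := Submodule.sub_mem _ (hp v) (Submodule.mem_sup_left
        (Submodule.smul_mem_smul hb (Submodule.mem_top (x := v))))
      rwa [add_smul, add_sub_cancel_right, mul_comm, mul_smul] at h3
    obtain ⟨d, hd, e, he, hde⟩ := Submodule.mem_sup.mp (ih (Nat.le_of_succ_le hj) c hc)
    rw [← hde]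
    obtain ⟨d', rfl⟩ := Ideal.mem_span_singleton'.mp hd
    rw [show (d' * 2 ^ j + e) * 2 + b = d' * 2 ^ (j + 1) + (2 * e + b) by ring]
    exact Submodule.add_mem_sup (Ideal.mul_mem_left _ _ (Ideal.mem_span_singleton_self _))
      (Ideal.add_mem _ (Ideal.mul_mem_left _ _ he) hb)

end Fermat.Agent.TwoAdic.Patch
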