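import Fermat.Agent.TwoAdic.Patch.Family
import Fermat.Agent.TwoAdic.Patch.Reduce
import Fermat.Agent.TwoAdic.Patch.EigenAlg
import Fermat.Agent.TwoAdic.Deform.AuxInertia

/-!
# The congruence argument at one level

A polynomial in the entries of the lift which kills the Hecke module modulo the parameters
vanishes at the point, as soon as `2 ^ n` does not divide `∏ (trace² - (q+1)²)` at the point.
-/

set_option autoImplicit false
set_option linter.style.haveILetI false

noncomputable section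

namespace Fermat.Agent.TwoAdic.Patch

open IsLocalRing Fermat.Agent.Deform Fermat.Agent.CFT.Tangent Fermat.Agent.TwoAdic.Deform
  Fermat.Agent.RT.Assembly

/-- Finitely many monic quadratic line equations can be solved in a finite local algebra of which
the base is a direct summand. -/
def HasLineRing (O : Type) [CommRing O] [IsLocalRing O] : Prop :=
  ∀ {R : Type} [CommRing R] [IsLocalRing R] [Algebra O R] [Module.Finite O R] (_ : IsResAlg O R)
    {ι : Type} [Fintype ι] (F : ι → M2 R) (isU : ι → Bool),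
    (∀ i, F i 1 0 ∈ maximalIdeal R) → (∀ i, IsUnit (F i 0 1)) →
    (∀ i, F i 0 0 - F i 1 1 ∈ maximalIdeal R ↔ isU i = true) →
    ∃ (E : Type) (_ : CommRing E) (_ : IsLocalRing E) (_ : Algebra R E)
      (_ : IsLocalHom (algebraMap R E)) (x : ι → E) (π : E →ₗ[R] R),
      (∀ i, x i ∈ maximalIdeal E) ∧
      (∀ i, StableLine (x i) ((algebraMap R E).mapMatrix (F i))) ∧ π 1 = 1

variable {O : Type} [CommRing O] [IsLocalRing O] {S : Setting O} {Lv : Level S} {D : Aux S Lv}
variable {n : ℕ} {a : O}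

section Ideals

variable {A B : Type} [CommRing A] [CommRing B] [Algebra A B]
variable {N : Type} [AddCommGroup N] [Module A N] [Module B N] [IsScalarTower A B N]

/-- The submodules generated by an ideal and by its image coincide. -/
theorem mem_map_smul_top_iff (I : Ideal A) (v : N) :
    v ∈ I.map (algebraMap A B) • (⊤ : Submodule B N) ↔ v ∈ I • (⊤ : Submodule A N) := by
  rw [← Submodule.restrictScalars_mem A, Ideal.smul_restrictScalars, Submodule.restrictScalars_top]

theorem mem_span_smul_top_iff {ι : Type*} (y : ι → A) (v : N) :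
    v ∈ Ideal.span (Set.range fun i => algebraMap A B (y i)) • (⊤ : Submodule B N) ↔
      v ∈ Ideal.span (Set.range y) • (⊤ : Submodule A N) := by
  rw [← mem_map_smul_top_iff (B := B) (I := Ideal.span (Set.range y)), Ideal.map_span,
    ← Set.range_comp]
  rfl

theorem mem_span_sup_iff {ι : Type*} (y : ι → A) (c : A) (v : N) :
    v ∈ Ideal.span (Set.range fun i => algebraMap A B (y i)) • (⊤ : Submodule B N) ⊔
        Ideal.span {algebraMap A B c} • ⊤ ↔
      v ∈ Ideal.span (Set.range y) • (⊤ : Submodule A N) ⊔ Ideal.span {c} • ⊤ := by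
  rw [← Submodule.sup_smul, ← Submodule.sup_smul,
    ← mem_map_smul_top_iff (B := B) (I := Ideal.span (Set.range y) ⊔ Ideal.span {c}),
    Ideal.map_sup, Ideal.map_span, Ideal.map_span, ← Set.range_comp, Set.image_singleton]
  rfl

end Ideals

/-- The elements killing the module modulo the parameters. -/
def killIdeal (X : LevelDatum D n a) : Ideal X.T where
  carrier := {t | ∀ v : X.M, t • v ∈ paramIdeal D a X.r • (⊤ : Submodule X.T X.M)}
  add_mem' {s t} hs ht v := by rw [add_smul]; exact Submodule.add_mem _ (hs v) (ht v)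
  zero_mem' v := by rw [zero_smul]; exact Submodule.zero_mem _
  smul_mem' c t ht v := by rw [smul_eq_mul, mul_smul]; exact Submodule.smul_mem _ _ (ht v)

theorem paramIdeal_le_killIdeal (X : LevelDatum D n a) : paramIdeal D a X.r ≤ killIdeal X :=
  fun _ ht v => Submodule.smul_mem_smul ht (Submodule.mem_top (x := v))

variable [IsDomain O] [IsDiscreteValuationRing O]

/-- The quotient by the elements killing the module modulo the parameters is torsion free. -/
theorem killIdeal_cancel (hπ : maximalIdeal O = Ideal.span {(2 : O)}) (X : LevelDatum D n a)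
    {c : O} (hc : c ≠ 0) {t : X.T} (h : algebraMap O X.T c * t ∈ killIdeal X) :
    t ∈ killIdeal X := by
  obtain ⟨e, u, rfl⟩ := IsDiscreteValuationRing.eq_unit_mul_pow_irreducible hc
    ((IsDiscreteValuationRing.irreducible_iff_uniformizer (2 : O)).mpr hπ)
  have h1 : (2 : X.T) ^ e * t ∈ killIdeal X := by
    have := Ideal.mul_mem_left _ (algebraMap O X.T ↑u⁻¹) h
    rwa [← mul_assoc, ← map_mul, ← mul_assoc, Units.inv_mul, one_mul, map_pow, map_ofNat] at this
  clear h hc
  induction e with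
  | zero => simpa using h1
  | succ e ih =>
    refine ih fun v => X.zeroFree _ ?_
    have := h1 v
    rwa [pow_succ', mul_assoc, mul_smul] at this

/-- At every auxiliary prime `trace² - (q+1)²` kills `X = r(τ) - 1` modulo the parameters. -/
theorem newFactor_mul_entry_mem (hπ : maximalIdeal O = Ideal.span {(2 : O)}) [CharZero O]
    (X : LevelDatum D n a) (i : D.ι) (j l : Fin 2) :
    ((X.r (D.φ i)).trace ^ 2 - ((D.q i : X.T) + 1) ^ 2) *
      (X.r (D.τ i) - 1) j l ∈ killIdeal X := by
  haveI : IsNoetherianRing X.T := IsNoetherianRing.of_finite O X.T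
  let π := Ideal.Quotient.mk (killIdeal X)
  have hq := Lv.prime_of_mem _ (D.q_mem i)
  have hrel := frobenius_mul_inertia X.cont X.lifts hq (Lv.ne_two _ (D.q_mem i))
    (Lv.notMem_T _ (D.q_mem i)) (D.P_over i) (D.φ_frob i) (D.τ_mem i)
  have hdX : ((X.r (D.τ i) - 1).map π).det = 0 := by
    rw [← RingHom.mapMatrix_apply, ← RingHom.map_det,
      X.isLift.qdet _ (D.q_mem i) _ (D.P_over i) _ (D.τ_mem i), map_zero]
  have h1X : (1 : M2 (X.T ⧸ killIdeal X)) + (X.r (D.τ i) - 1).map π = (X.r (D.τ i)).map π := by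
    rw [← RingHom.mapMatrix_apply, ← RingHom.mapMatrix_apply, map_sub, map_one, add_sub_cancel]
  have hrel' : (X.r (D.φ i)).map π * (1 + (X.r (D.τ i) - 1).map π) =
      (1 + (X.r (D.τ i) - 1).map π) ^ D.q i * (X.r (D.φ i)).map π := by
    rw [h1X, ← RingHom.mapMatrix_apply, ← RingHom.mapMatrix_apply,
      ← map_pow π.mapMatrix (X.r (D.τ i)) (D.q i),
      ← map_mul π.mapMatrix (X.r (D.φ i)) (X.r (D.τ i)),
      ← map_mul π.mapMatrix (X.r (D.τ i) ^ D.q i) (X.r (D.φ i))]
    exact congrArg π.mapMatrix hrel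
  have hy : ((X.r (D.τ i) - 1).map π).trace = 0 := by
    have hd := X.isLift.qdet _ (D.q_mem i) _ (D.P_over i) _ (D.τ_mem i)
    have he : ((X.r (D.τ i) - 1).map π).trace = π (param D a X.r (some i)) := by
      rw [← RingHom.mapMatrix_apply, Matrix.trace_fin_two, RingHom.mapMatrix_apply,
        Matrix.map_apply, Matrix.map_apply, ← map_add]
      congr 1
      show _ = (X.r (D.τ i)).det - 1
      simp only [Matrix.det_fin_two, Matrix.sub_apply, Matrix.one_apply_eq,
        Matrix.one_apply_ne (show (0 : Fin 2) ≠ 1 by decide),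
        Matrix.one_apply_ne (show (1 : Fin 2) ≠ 0 by decide), sub_zero] at hd ⊢
      linear_combination -hd
    rw [he, Ideal.Quotient.eq_zero_iff_mem]
    exact paramIdeal_le_killIdeal X (Ideal.subset_span ⟨some i, rfl⟩)
  have hdF : ((X.r (D.φ i)).map π).det = (D.q i : X.T ⧸ killIdeal X) := by
    rw [← RingHom.mapMatrix_apply, ← RingHom.map_det, ← map_natCast π, Ideal.Quotient.eq]
    exact X.det_frob i
  have hnz : ∀ b : X.T ⧸ killIdeal X,
      (D.q i : X.T ⧸ killIdeal X) * ((D.q i : X.T ⧸ killIdeal X) - 1) * b = 0 → b = 0 := by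
    intro b hb
    obtain ⟨t, rfl⟩ := Ideal.Quotient.mk_surjective b
    rw [Ideal.Quotient.eq_zero_iff_mem]
    refine killIdeal_cancel hπ X (c := (D.q i : O) * ((D.q i : O) - 1))
      (mul_ne_zero (Nat.cast_ne_zero.mpr hq.ne_zero) (sub_ne_zero.mpr ?_)) ?_
    · exact_mod_cast hq.ne_one
    · rw [← Ideal.Quotient.eq_zero_iff_mem, map_mul, map_mul, map_natCast, map_sub, map_one,
        map_natCast]
      simpa using hb
  have h := congr_fun (congr_fun (trace_sq_sub_smul_eq_zero hdX hrel' hy hdF hnz) j) l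
  rw [← Ideal.Quotient.eq_zero_iff_mem]
  refine Eq.trans ?_ h
  rw [Matrix.smul_apply, Matrix.map_apply, smul_eq_mul, map_mul]
  congr 1

variable [IsAdicComplete (maximalIdeal O) O] [Finite (ResidueField O)] [CharZero O]

set_option maxHeartbeats 800000 in
/-- **The congruence argument.** -/
theorem aeval_entries_eq_zero (hπ : maximalIdeal O = Ideal.span {(2 : O)})
    (hL : HasLineRing O) (X : LevelDatum D n a) (E : EigenModule X) (ha : residue O a = 1)
    {hO : IsResAlg O O} {rW : Gal →* M2 O} (hlW : Lifts S.W hO rW) (hnW : IsNormal S.W rW)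
    (hcW : IsCont rW) (hiW : IsLift S Lv rW) (haW : signDefect S Lv rW a = 0)
    (hτW : ∀ i, rW (D.τ i) = 1) {m : ℕ} (hsel : SelmerBound (D.flip E.s) m)
    (hC : Criterion (ResidueField O) (m + D.numU) (Option D.ι))
    (hZ : ¬ (2 : O) ^ n ∣ ∏ i, ((rW (D.φ i)).trace ^ 2 - ((D.q i : O) + 1) ^ 2))
    (p : MvPolynomial (Gal × Fin 2 × Fin 2) O)
    (hp : ∀ v : X.M, MvPolynomial.aeval (fun s : Gal × Fin 2 × Fin 2 => X.r s.1 s.2.1 s.2.2) p • v
      ∈ paramIdeal D a X.r • (⊤ : Submodule X.T X.M)) :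
    MvPolynomial.aeval (fun s : Gal × Fin 2 × Fin 2 => rW s.1 s.2.1 s.2.2) p = (0 : O) := by
  classical
  obtain ⟨R, _, _, _, _, _, _, h, ru, fT, fW, hl, hn, hc, hlift, hlocT, hlocW, hrT, hrW, hjoint,
    -, hgen⟩ := exists_pair (Lv := Lv) X.lifts hlW X.normal hnW X.cont hcW X.isLift hiW
  -- the auxiliary ring
  haveI := isLocalRing_ring (D := D.flip E.s) (ru := ru) (I := ⊥) hl bot_le
  have sp := ringSpec (D := D.flip E.s) (I := ⊥) hl hn hc hlift bot_le
  haveI := sp.localHom
  haveI := sp.finite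
  haveI : Module.Finite O ((D.flip E.s).Ring ru ⊥) := Module.Finite.trans R _
  obtain ⟨γ, hγ⟩ := exists_surjective_ring_bot (D := D.flip E.s) (auxInertia _) hl hn hc hlift
    hgen hsel
  have hdata := eigenData_aux (D := D.flip E.s) hl (bot_le : (⊥ : Ideal R) ≤ _)
  let y : Option D.ι → R := param D a ru
  -- the action on the eigen module
  haveI : IsLocalHom (algebraMap X.T E.B) := E.isLocalHom
  let g : R →+* E.B := (algebraMap X.T E.B).comp fT.toRingHom
  letI algB : Algebra R E.B := g.toAlgebra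
  haveI : IsLocalHom (algebraMap R E.B) := ⟨fun x hx => hlocT.map_nonunit x (E.isLocalHom.map_nonunit _ hx)⟩
  haveI : IsScalarTower O R E.B := IsScalarTower.of_algebraMap_eq fun o => by
    show algebraMap O E.B o = algebraMap X.T E.B (fT (algebraMap O R o))
    rw [fT.commutes, ← IsScalarTower.algebraMap_apply]
  have hlocB : ∀ (i : D.ι) (σ : Gal), (algebraMap R E.B).mapMatrix ((D.flip E.s).loc i ru σ) =
      (D.flip E.s).loc i (mapM (algebraMap X.T E.B) X.r) σ := fun i σ => by
    rw [← hrT]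
    exact (congrFun (congrArg DFunLike.coe
      ((D.flip E.s).loc_mapM (r := ru) i (IsScalarTower.toAlgHom O R E.B))) σ).symm
  obtain ⟨φB, -⟩ := hdata.exists_hom (A := E.B) E.x E.x_mem
    (fun i => Eq.subst (motive := fun M => StableLine (E.x i) M) (hlocB i (D.φ i)).symm (E.eigen i).1)
    (fun i => Eq.subst (motive := fun M => FixesLine (E.x i) M) (hlocB i (D.τ i)).symm (E.eigen i).2) (fun r hr => by simp [Ideal.mem_bot.mp hr])
  letI algRB : Algebra ((D.flip E.s).Ring ru ⊥) E.B := φB.toRingHom.toAlgebra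
  haveI : IsScalarTower O ((D.flip E.s).Ring ru ⊥) E.B :=
    IsScalarTower.of_algebraMap_eq (R := O) (S := (D.flip E.s).Ring ru ⊥) (A := E.B) fun o => by
    show algebraMap O E.B o = φB (algebraMap O _ o)
    rw [IsScalarTower.algebraMap_apply O R ((D.flip E.s).Ring ru ⊥), φB.commutes,
      ← IsScalarTower.algebraMap_apply]
  letI : Module ((D.flip E.s).Ring ru ⊥) E.N := Module.compHom E.N φB.toRingHom
  haveI : IsScalarTower ((D.flip E.s).Ring ru ⊥) E.B E.N := ⟨fun r b v => by
    show (φB r * b) • v = φB r • b • v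
    rw [mul_smul]⟩
  haveI : Module.Finite ((D.flip E.s).Ring ru ⊥) E.N := by
    haveI : Module.Finite ((D.flip E.s).Ring ru ⊥) E.B :=
      Module.Finite.of_restrictScalars_finite O _ _
    haveI := E.finiteN
    exact Module.Finite.trans E.B E.N
  let yA : Option D.ι → (D.flip E.s).Ring ru ⊥ := fun o => algebraMap R _ (y o)
  have hyB : ∀ o, algebraMap ((D.flip E.s).Ring ru ⊥) E.B (yA o) =
      algebraMap X.T E.B (param D a X.r o) := fun o => by
    show φB (algebraMap R _ (y o)) = _
    rw [φB.commutes]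
    show algebraMap X.T E.B (fT (y o)) = _
    rw [← param_map hl hlift fT, hrT]
  have htrans : ∀ (c : (D.flip E.s).Ring ru ⊥) (c' : X.T) (v : E.N),
      algebraMap _ E.B c = algebraMap X.T E.B c' →
      (v ∈ Ideal.span (Set.range yA) • (⊤ : Submodule ((D.flip E.s).Ring ru ⊥) E.N) ⊔
          Ideal.span {c} • ⊤ ↔
        v ∈ paramIdeal D a X.r • (⊤ : Submodule X.T E.N) ⊔ Ideal.span {c'} • ⊤) := by
    intro c c' v hcc
    refine (mem_span_sup_iff (B := E.B) yA c v).symm.trans ?_
    rw [paramIdeal, hcc]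
    simp only [hyB]
    exact mem_span_sup_iff (B := E.B) (param D a X.r) c' v
  have h2 : ∀ j : ℕ, algebraMap ((D.flip E.s).Ring ru ⊥) E.B ((2 : (D.flip E.s).Ring ru ⊥) ^ j) =
      algebraMap X.T E.B ((2 : X.T) ^ j) := fun j => by simp only [map_pow, map_ofNat]
  have hyA : ∀ o, yA o ∈ maximalIdeal ((D.flip E.s).Ring ru ⊥) := fun o =>
    map_nonunit (algebraMap R _) _ (param_mem ha hl hlift o)
  have hfree : ∀ u : Option D.ι → E.N,
      ∑ o, yA o • u o ∈ Ideal.span {(2 : (D.flip E.s).Ring ru ⊥)} • (⊤ : Submodule ((D.flip E.s).Ring ru ⊥) E.N) →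
      ∀ o, u o ∈ Ideal.span (Set.range yA) • (⊤ : Submodule ((D.flip E.s).Ring ru ⊥) E.N) ⊔
        Ideal.span {(2 : (D.flip E.s).Ring ru ⊥)} • ⊤ := by
    intro u hu o
    rw [htrans 2 2 _ (by simp only [map_ofNat])]
    refine E.freeSq u ?_ o
    have h2' : algebraMap ((D.flip E.s).Ring ru ⊥) E.B 2 = algebraMap X.T E.B 2 := by
      simp only [map_ofNat]
    rw [← mem_map_smul_top_iff (B := E.B), Ideal.map_span, Set.image_singleton, h2'] at hu
    rw [← mem_map_smul_top_iff (B := E.B), Ideal.map_span, Set.image_singleton]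
    have e : ∀ o', (param D a X.r o' : X.T) • u o' = yA o' • u o' := fun o' => by
      rw [← IsScalarTower.algebraMap_smul E.B, ← hyB, IsScalarTower.algebraMap_smul]
    simpa only [e] using hu
  have hne : Ideal.span (Set.range yA) • (⊤ : Submodule ((D.flip E.s).Ring ru ⊥) E.N) ⊔
      Ideal.span {(2 : (D.flip E.s).Ring ru ⊥)} • ⊤ ≠ ⊤ := fun htop => E.nontrivial
    (eq_top_iff.mpr fun v _ => (htrans 2 2 v (by simp only [map_ofNat])).mp
      (by rw [htop]; exact Submodule.mem_top))
  have hmod : ∀ j < n, ∀ v : E.N,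
      (2 : (D.flip E.s).Ring ru ⊥) • v ∈ Ideal.span (Set.range yA) • (⊤ : Submodule ((D.flip E.s).Ring ru ⊥) E.N) ⊔
        Ideal.span {(2 : (D.flip E.s).Ring ru ⊥) ^ (j + 1)} • ⊤ →
      v ∈ Ideal.span (Set.range yA) • (⊤ : Submodule ((D.flip E.s).Ring ru ⊥) E.N) ⊔
        Ideal.span {(2 : (D.flip E.s).Ring ru ⊥) ^ j} • ⊤ := by
    intro j hj v hv
    rw [htrans _ _ _ (h2 j)]
    refine E.modFree j hj v ?_
    rw [← htrans _ _ _ (h2 (j + 1))]
    simpa [two_smul] using hv
  have hmain := mem_pow_sup_of_smul_mem (y := yA) hC hπ γ hγ hyA hfree hne hmod n le_rfl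
  -- the ring killing inertia and the sign defect
  let I : Ideal R := Ideal.span ({y none} ∪ Set.range fun s : D.ι × Fin 2 × Fin 2 =>
    (ru (D.τ s.1) - 1) s.2.1 s.2.2)
  have hI : I ≤ maximalIdeal R := by
    refine Ideal.span_le.mpr ?_
    rintro r (rfl | ⟨⟨i, j, l⟩, rfl⟩)
    · exact param_mem ha hl hlift none
    · exact sub_one_mem_of_inertia hl (Lv.prime_of_mem _ (D.q_mem i))
        (Lv.ne_two _ (D.q_mem i)) (Lv.notMem_T _ (D.q_mem i)) (D.P_over i) (D.τ_mem i) j l
  haveI : Nontrivial (R ⧸ I) :=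
    Ideal.Quotient.nontrivial_iff.mpr (ne_top_of_le_ne_top (maximalIdeal.isMaximal R).ne_top hI)
  haveI : IsLocalRing (R ⧸ I) := IsLocalRing.of_surjective' _ Ideal.Quotient.mk_surjective
  haveI : IsLocalHom (Ideal.Quotient.mk I) := IsLocalHom.of_surjective _ Ideal.Quotient.mk_surjective
  haveI : IsLocalHom (algebraMap R (R ⧸ I)) := IsLocalHom.of_surjective _ Ideal.Quotient.mk_surjective
  have hRI : IsResAlg O (R ⧸ I) := by
    haveI := h.isLocalHom
    refine ⟨⟨fun o ho => h.isLocalHom.map_nonunit o ?_⟩, fun z => ?_⟩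
    · exact IsUnit.of_map (Ideal.Quotient.mk I) _ ho
    · obtain ⟨z, rfl⟩ := residue_surjective z
      obtain ⟨z, rfl⟩ := Ideal.Quotient.mk_surjective z
      obtain ⟨o, ho⟩ := exists_sub_mem h z
      refine ⟨o, ((IsLocalRing.residue_eq_zero_iff _).mpr ?_ |> fun e => sub_eq_zero.mp
        ((map_sub _ _ _).symm.trans e))⟩
      rw [← Ideal.Quotient.mk_algebraMap, ← map_sub, ← neg_sub, map_neg]
      exact neg_mem (map_nonunit _ _ ho)
  let F : D.ι → M2 (R ⧸ I) := fun i => (Ideal.Quotient.mk I).mapMatrix ((D.flip E.s).loc i ru (D.φ i))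
  obtain ⟨C, _, _, _, _, x, π, hxm, hxS, hπ1⟩ := hL hRI F D.isU
    (fun i => map_nonunit (Ideal.Quotient.mk I) _ (hdata.lower i))
    (fun i => (hdata.upper i).map (Ideal.Quotient.mk I))
    (fun i => by
      show Ideal.Quotient.mk I ((D.flip E.s).loc i ru (D.φ i) 0 0) -
          Ideal.Quotient.mk I ((D.flip E.s).loc i ru (D.φ i) 1 1) ∈ _ ↔ _
      rw [← map_sub]
      exact Iff.trans ⟨fun h1 hu => h1 (hu.map _), fun h1 => map_nonunit _ _ h1⟩ (hdata.diag i))
  let gC : R →+* C := (algebraMap (R ⧸ I) C).comp (Ideal.Quotient.mk I)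
  letI algC : Algebra R C := gC.toAlgebra
  haveI : IsLocalHom (algebraMap R C) := ⟨fun z hz =>
    IsUnit.of_map (Ideal.Quotient.mk I) _ (IsUnit.of_map (algebraMap (R ⧸ I) C) _ hz)⟩
  have hC0 : ∀ z ∈ I, algebraMap R C z = 0 := fun z hz => by
    show algebraMap (R ⧸ I) C (Ideal.Quotient.mk I z) = 0
    rw [Ideal.Quotient.eq_zero_iff_mem.mpr hz, map_zero]
  have hτ1 : ∀ i : D.ι, (algebraMap R C).mapMatrix ((D.flip E.s).loc i ru (D.τ i)) = 1 := by
    intro i
    have h1 : (algebraMap R C).mapMatrix (ru (D.τ i)) = 1 := by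
      rw [← sub_eq_zero, ← map_one (algebraMap R C).mapMatrix, ← map_sub]
      exact Matrix.ext fun j l => hC0 _ (Ideal.subset_span (Or.inr ⟨(i, j, l), rfl⟩))
    show (algebraMap R C).mapMatrix (conjM _ ru (D.τ i)) = 1
    rw [conjM_apply, map_mul, map_mul, h1, mul_one, ← map_mul, Units.inv_mul, map_one]
  obtain ⟨φC, -⟩ := hdata.exists_hom (A := C) x hxm
    (fun i => by
      have e : (algebraMap R C).mapMatrix ((D.flip E.s).frobMat ru i) =
          (algebraMap (R ⧸ I) C).mapMatrix (F i) := by ext j l; rfl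
      rw [e]; exact hxS i)
    (fun i => by rw [show (algebraMap R C).mapMatrix ((D.flip E.s).tameMat ru i) = 1 from hτ1 i]
                 exact fixesLine_one _)
    (fun z hz => by simp [Ideal.mem_bot.mp hz])
  -- the kernel of the action at level zero
  let K : Ideal R := (killIdeal X).comap fT
  have hK : ∀ z ∈ K, ∃ c : R, z - (2 : R) ^ n * c ∈ I := by
    intro z hz
    have h1 : algebraMap R ((D.flip E.s).Ring ru ⊥) z ∈ _ := hmain (algebraMap R _ z) fun v => by
      rw [htrans _ _ _ (h2 n)]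
      refine Submodule.mem_sup_left ?_
      obtain ⟨w, rfl⟩ := E.π_surjective v
      have e : algebraMap R ((D.flip E.s).Ring ru ⊥) z • E.π w = fT z • E.π w := by
        show φB (algebraMap R _ z) • E.π w = _
        rw [φB.commutes]
        exact IsScalarTower.algebraMap_smul E.B (fT z) (E.π w)
      rw [e, ← map_smul]
      have := Submodule.mem_map_of_mem (f := E.π) (hz w)
      rw [Submodule.map_smul'', Submodule.map_top, LinearMap.range_eq_top.mpr E.π_surjective] at this
      exact this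
    obtain ⟨b, hb, d, hd, hbd⟩ := Submodule.mem_sup.mp h1
    obtain ⟨e, rfl⟩ := Ideal.mem_span_singleton'.mp hb
    have hd0 : φC d = 0 := by
      refine (Ideal.span_le.mpr ?_ : Ideal.span (Set.range yA) ≤ RingHom.ker φC) hd
      rintro _ ⟨o, rfl⟩
      rw [SetLike.mem_coe, RingHom.mem_ker, φC.commutes]
      refine hC0 _ ?_
      cases o with
      | none => exact Ideal.subset_span (Or.inl rfl)
      | some i =>
        show (ru (D.τ i)).det - 1 ∈ I
        rw [← Ideal.Quotient.eq_zero_iff_mem, map_sub, RingHom.map_det, map_one,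
          show (Ideal.Quotient.mk I).mapMatrix (ru (D.τ i)) = 1 by
            rw [← sub_eq_zero, ← map_one (Ideal.Quotient.mk I).mapMatrix, ← map_sub]
            exact Matrix.ext fun j l => Ideal.Quotient.eq_zero_iff_mem.mpr
              (Ideal.subset_span (Or.inr ⟨(i, j, l), rfl⟩)),
          Matrix.det_one, sub_self]
    have h3 := congrArg φC hbd
    rw [map_add, hd0, add_zero, map_mul, map_pow, map_ofNat, φC.commutes] at h3
    have h4 : π (algebraMap (R ⧸ I) C (Ideal.Quotient.mk I z)) = Ideal.Quotient.mk I z := by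
      rw [Algebra.algebraMap_eq_smul_one, map_smul, hπ1, smul_eq_mul, mul_one]
    have h5 : π (φC e * (2 : C) ^ n) = (2 : R ⧸ I) ^ n * π (φC e) := by
      rw [mul_comm, show (2 : C) ^ n * φC e = ((2 : R ⧸ I) ^ n) • φC e by
        rw [Algebra.smul_def, map_pow, map_ofNat], map_smul, smul_eq_mul]
    obtain ⟨c, hc⟩ := Ideal.Quotient.mk_surjective (π (φC e))
    refine ⟨c, Ideal.Quotient.eq.mp ?_⟩
    rw [map_mul, map_pow, map_ofNat, hc, ← h5, ← h4]
    exact congrArg π h3.symm
  -- descent to the point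
  let Z : R := ∏ i, ((ru (D.φ i)).trace ^ 2 - ((D.q i : R) + 1) ^ 2)
  have hZT : ∀ z ∈ I, fT (Z * z) ∈ killIdeal X := by
    intro z hz
    induction hz using Submodule.span_induction with
    | zero => rw [mul_zero, map_zero]; exact Ideal.zero_mem _
    | add z w _ _ h1 h2 => rw [mul_add, map_add]; exact Ideal.add_mem _ h1 h2
    | smul c z _ h1 =>
      rw [smul_eq_mul, mul_left_comm, map_mul]; exact Ideal.mul_mem_left _ _ h1
    | mem r hr =>
    rcases hr with rfl | ⟨⟨i, j, l⟩, rfl⟩
    · rw [map_mul]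
      refine Ideal.mul_mem_left _ _ (paramIdeal_le_killIdeal X ?_)
      rw [← param_map hl hlift fT, hrT]
      exact Ideal.subset_span ⟨none, rfl⟩
    · obtain ⟨c, hc⟩ := Finset.dvd_prod_of_mem
        (fun i => (ru (D.φ i)).trace ^ 2 - ((D.q i : R) + 1) ^ 2) (Finset.mem_univ i)
      have e1 : fT ((ru (D.τ i) - 1) j l) = (X.r (D.τ i) - 1) j l := by
        rw [← hrT]
        show fT _ = (mapM (fT : R →+* X.T) ru (D.τ i) - 1) j l
        rw [Matrix.sub_apply, Matrix.sub_apply, map_sub, mapM_apply]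
        congr 1
        by_cases hjl : j = l
        · subst hjl; simp
        · simp [hjl]
      have e2 : fT ((ru (D.φ i)).trace ^ 2 - ((D.q i : R) + 1) ^ 2) =
          (X.r (D.φ i)).trace ^ 2 - ((D.q i : X.T) + 1) ^ 2 := by
        rw [← hrT, Matrix.trace_fin_two, Matrix.trace_fin_two]
        simp [mapM_apply]
      show fT (Z * (ru (D.τ i) - 1) j l) ∈ killIdeal X
      rw [show Z = _ * c from hc, map_mul, map_mul, e1, e2, mul_right_comm]
      exact Ideal.mul_mem_right _ _ (newFactor_mul_entry_mem hπ X i j l)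
  have hZW : ∀ z ∈ I, fW z = 0 := by
    refine fun z hz => (Ideal.span_le.mpr ?_ : I ≤ RingHom.ker fW) hz
    rintro r (rfl | ⟨⟨i, j, l⟩, rfl⟩) <;> rw [SetLike.mem_coe, RingHom.mem_ker]
    · rw [← param_map hl hlift fW, hrW]; exact haW
    · have : fW (ru (D.τ i) j l) = rW (D.τ i) j l := by rw [← hrW]; rfl
      show fW ((ru (D.τ i) - 1) j l) = 0
      rw [Matrix.sub_apply, map_sub, this, hτW]
      by_cases hjl : j = l
      · subst hjl; simp
      · simp [hjl]
  have hstep : ∀ z ∈ K, ∃ c ∈ K, fW Z * fW z = (2 : O) ^ n * fW c := by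
    intro z hz
    obtain ⟨c, hc⟩ := hK z hz
    refine ⟨Z * c, ?_, ?_⟩
    · refine killIdeal_cancel hπ X (c := (2 : O) ^ n) (pow_ne_zero _ two_ne_zero) ?_
      have h1 : fT (Z * z) - fT (Z * (z - 2 ^ n * c)) ∈ killIdeal X := by
        refine Ideal.sub_mem _ ?_ (hZT _ hc)
        rw [map_mul]
        exact Ideal.mul_mem_left _ _ hz
      convert h1 using 1
      simp only [map_mul, map_sub, map_pow, map_ofNat]
      ring
    · have h2 := hZW _ hc
      rw [map_sub, map_mul, map_pow, map_ofNat, sub_eq_zero] at h2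
      rw [h2, map_mul]
      ring
  set q : R := MvPolynomial.aeval (fun s : Gal × Fin 2 × Fin 2 => ru s.1 s.2.1 s.2.2) p with hq
  have hqT : fT q = MvPolynomial.aeval (fun s : Gal × Fin 2 × Fin 2 => X.r s.1 s.2.1 s.2.2) p := by
    rw [hq, ← AlgHom.comp_apply, MvPolynomial.comp_aeval]
    refine congrFun (congrArg _ (congrArg _ (funext fun s => ?_))) p
    rw [← hrT]; rfl
  have hqW : fW q = MvPolynomial.aeval (fun s : Gal × Fin 2 × Fin 2 => rW s.1 s.2.1 s.2.2) p := by
    rw [hq, ← AlgHom.comp_apply, MvPolynomial.comp_aeval]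
    refine congrFun (congrArg _ (congrArg _ (funext fun s => ?_))) p
    rw [← hrW]; rfl
  rw [← hqW]
  by_contra hne0
  have hqK : q ∈ K := by show fT q ∈ killIdeal X; rw [hqT]; exact hp
  let J : Ideal O := (K.map fW.toRingHom)
  have hmemJ : ∀ z, z ∈ J ↔ ∃ k ∈ K, fW k = z := fun z => by
    refine Ideal.mem_map_iff_of_surjective _ (fun o => ⟨algebraMap O R o, fW.commutes o⟩)
  obtain ⟨g0, hg0⟩ := (IsPrincipalIdealRing.principal J).principal
  have hg0J : g0 ∈ J := by rw [hg0]; exact Submodule.mem_span_singleton_self _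
  have hg0ne : g0 ≠ 0 := fun hz => hne0 (by
    have : fW q ∈ J := (hmemJ _).mpr ⟨q, hqK, rfl⟩
    rwa [hg0, hz, Submodule.span_zero_singleton, Submodule.mem_bot] at this)
  obtain ⟨k0, hk0, hk0g⟩ := (hmemJ _).mp hg0J
  obtain ⟨c, hcK, hc⟩ := hstep k0 hk0
  have hcJ : fW c ∈ J := (hmemJ _).mpr ⟨c, hcK, rfl⟩
  rw [hg0, Submodule.mem_span_singleton] at hcJ
  obtain ⟨t, ht⟩ := hcJ
  refine hZ ⟨t, ?_⟩
  have hZval : fW Z = ∏ i, ((rW (D.φ i)).trace ^ 2 - ((D.q i : O) + 1) ^ 2) := by
    rw [map_prod]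
    refine Finset.prod_congr rfl fun i _ => ?_
    rw [← hrW, Matrix.trace_fin_two, Matrix.trace_fin_two]
    simp [mapM_apply]
  rw [← hZval]
  refine mul_right_cancel₀ hg0ne ?_
  rw [← hk0g] at *
  rw [hc, ← ht, smul_eq_mul, mul_assoc]

end Fermat.Agent.TwoAdic.Patch
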